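/-
KUMMER project (S10 + S11): Fermat's Last Theorem for the exponents p = 5, 7, 11, 13 through
Kummer's theorem in the class-number-one case.  A `FreyPackage` with `P.p = p` contains a
counterexample to FLT for `p`, so S10 and S11 follow vacuously.

This file fixes the *interfaces* of the pieces (as `Prop`-valued definitions) and proves the final
assembly relative to them.  (helper9, architect)
-/
import Mathlib
import Fermat.Prelude.Def_FLTPrelim_FreyPackage

set_option autoImplicit false

open NumberField Polynomial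

namespace Fermat.Agent.Lib.Kummer

/-! ### The two cases of FLT for exponent `p` -/

/-- Case I of Fermat's Last Theorem for the exponent `p`: no solutions with `p ∤ abc`. -/
def CaseIHolds (p : ℕ) : Prop :=
  ∀ a b c : ℤ, ({a, b, c} : Finset ℤ).gcd id = 1 → ¬ (p : ℤ) ∣ a * b * c → a ^ p + b ^ p ≠ c ^ p

/-- Case II of Fermat's Last Theorem for the exponent `p`: no solutions with `p ∣ abc`. -/
def CaseIIHolds (p : ℕ) : Prop :=
  ∀ a b c : ℤ, a * b * c ≠ 0 → ({a, b, c} : Finset ℤ).gcd id = 1 → (p : ℤ) ∣ a * b * c →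
    a ^ p + b ^ p ≠ c ^ p

theorem fermatLastTheoremFor_of_cases {p : ℕ} (hI : CaseIHolds p) (hII : CaseIIHolds p) :
    FermatLastTheoremFor p := by
  rw [fermatLastTheoremFor_iff_int]
  refine fermatLastTheoremWith_of_fermatLastTheoremWith_coprime fun a b c ha hb hc hgcd => ?_
  by_cases h : (p : ℤ) ∣ a * b * c
  · exact hII a b c (mul_ne_zero (mul_ne_zero ha hb) hc) hgcd h
  · exact hI a b c hgcd h

/-- A `FreyPackage` whose prime satisfies FLT cannot exist. -/
theorem false_of_freyPackage (P : FreyPackage) (h : FermatLastTheoremFor P.p) : False := by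
  rw [fermatLastTheoremFor_iff_int] at h
  exact h P.a P.b P.c P.ha0 P.hb0 P.hc0 P.hFLT

/-! ### Kummer's lemma and its ingredients -/

/-- Kummer's lemma for the field `K` (to be used with `K = ℚ(ζ_p)`): a unit congruent to a
rational integer modulo `p` is a `p`-th power. -/
def KummersLemmaHolds (p : ℕ) (K : Type*) [Field K] [NumberField K] : Prop :=
  ∀ u : (𝓞 K)ˣ, (∃ n : ℤ, (p : 𝓞 K) ∣ (u : 𝓞 K) - n) → ∃ v : (𝓞 K)ˣ, u = v ^ p

/-- An extension of number fields `L/K` is unramified at all finite primes (elementary form: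
no nonzero prime `P` of `𝓞 K` is contained in the square of a prime of `𝓞 L`). -/
def IsUnramifiedExt (K L : Type*) [Field K] [NumberField K] [Field L] [NumberField L]
    [Algebra K L] : Prop :=
  ∀ (P : Ideal (𝓞 K)), P.IsPrime → P ≠ ⊥ → ∀ Q : Ideal (𝓞 L), Q.IsPrime →
    P.map (algebraMap (𝓞 K) (𝓞 L)) ≤ Q → ¬ P.map (algebraMap (𝓞 K) (𝓞 L)) ≤ Q ^ 2

/-- Hilbert's Theorem 92 for `L/K` (cyclic, generated by `σ`): there is a unit of `L` of relative
norm `1` which is not of the form `ε / σ ε` with `ε` a unit. -/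
def Hilbert92Holds (K L : Type*) [Field K] [NumberField K] [Field L] [NumberField L]
    [Algebra K L] : Prop :=
  ∀ σ : L ≃ₐ[K] L, (∀ τ : L ≃ₐ[K] L, τ ∈ Subgroup.zpowers σ) →
    ∃ η : (𝓞 L)ˣ, Algebra.norm K (((η : 𝓞 L) : L)) = 1 ∧
      ∀ ε : (𝓞 L)ˣ, ((η : 𝓞 L) : L) * σ ((ε : 𝓞 L) : L) ≠ ((ε : 𝓞 L) : L)

end Fermat.Agent.Lib.Kummer
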