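/-
KUMMER project, piece (C1): Case I of Fermat's Last Theorem for a prime `p ≥ 5` such that the ring
of integers of `ℚ(ζ_p)` is a PID.  (helper1)
-/
import Mathlib
import Fermat.Agent.Lib.Kummer.Defs

set_option autoImplicit false

open NumberField Polynomial Finset

namespace Fermat.Agent.Lib.Kummer

section Coefficients

variable {p : ℕ} [hp : Fact p.Prime] {K : Type*} [Field K] [NumberField K]
  [IsCyclotomicExtension {p} ℚ K] {ζ : K} (hζ : IsPrimitiveRoot ζ p)

/-- coordinates of a multiple of `m` in a `ℤ`-basis are multiples of `m` -/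
theorem caseI_dvd_coord {ι S : Type*} [Fintype ι] [DecidableEq ι] [CommRing S]
    (b : Module.Basis ι ℤ S) (c : ι → ℤ) (m : ℤ)
    (h : (m : S) ∣ ∑ i, c i • b i) (i : ι) : m ∣ c i := by
  obtain ⟨y, hy⟩ := h
  have h1 : b.repr (∑ i, c i • b i) i = c i := by
    rw [b.repr_sum_self]
  have h2 : b.repr ((m : S) * y) i = m * b.repr y i := by
    have : (m : S) * y = m • y := by rw [zsmul_eq_mul]
    rw [this, map_zsmul]
    simp
  rw [hy, h2] at h1
  exact ⟨_, h1.symm⟩

include hζ in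
/-- If `p ∣ ∑_{i<p-1} c_i ζ^i` in `𝓞 K` then `p ∣ c_i` for all `i < p-1`. -/
theorem caseI_dvd_coeff_of_lt (c : ℕ → ℤ)
    (h : (p : 𝓞 K) ∣ ∑ i ∈ range (p - 1), (c i : 𝓞 K) * hζ.toInteger ^ i) :
    ∀ i, i < p - 1 → (p : ℤ) ∣ c i := by
  classical
  set pb := hζ.integralPowerBasis with hpb
  have hdim : pb.dim = p - 1 := by
    rw [hpb, hζ.integralPowerBasis_dim, Nat.totient_prime hp.out]
  have hgen : pb.gen = hζ.toInteger := hζ.integralPowerBasis_gen
  intro i hi
  have hsum : ∑ j : Fin pb.dim, c (j : ℕ) • pb.basis j =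
      ∑ i ∈ range (p - 1), (c i : 𝓞 K) * hζ.toInteger ^ i := by
    rw [← hdim, ← Fin.sum_univ_eq_sum_range (fun i => (c i : 𝓞 K) * hζ.toInteger ^ i)]
    refine Finset.sum_congr rfl fun j _ => ?_
    rw [pb.coe_basis, hgen, zsmul_eq_mul]
  have h' : ((p : ℤ) : 𝓞 K) ∣ ∑ j : Fin pb.dim, c (j : ℕ) • pb.basis j := by
    rw [hsum]; simpa using h
  exact caseI_dvd_coord pb.basis (fun j => c (j : ℕ)) (p : ℤ) h' ⟨i, hdim ▸ hi⟩

include hζ in
/-- If `p ∣ ∑_{i<p} a_i ζ^i` in `𝓞 K` and some `a_j = 0`, then `p ∣ a_i` for all `i < p`. -/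
theorem caseI_dvd_coeff (a : ℕ → ℤ)
    (h : (p : 𝓞 K) ∣ ∑ i ∈ range p, (a i : 𝓞 K) * hζ.toInteger ^ i)
    {j : ℕ} (hj : j < p) (haj : a j = 0) : ∀ i, i < p → (p : ℤ) ∣ a i := by
  have hp1 : 1 < p := hp.out.one_lt
  have hη := hζ.toInteger_isPrimitiveRoot
  have hpred : p - 1 + 1 = p := Nat.sub_add_cancel hp.out.pos
  have hlast : hζ.toInteger ^ (p - 1) = -∑ i ∈ range (p - 1), hζ.toInteger ^ i := by
    have := hη.pow_sub_one_eq hp1
    simpa [Nat.pred_eq_sub_one] using this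
  have hsum : ∑ i ∈ range p, (a i : 𝓞 K) * hζ.toInteger ^ i =
      ∑ i ∈ range (p - 1), ((a i - a (p - 1) : ℤ) : 𝓞 K) * hζ.toInteger ^ i := by
    have hrange : range p = range (p - 1 + 1) := by rw [hpred]
    rw [hrange, Finset.sum_range_succ, hlast]
    rw [mul_neg, Finset.mul_sum, ← sub_eq_add_neg, ← Finset.sum_sub_distrib]
    refine Finset.sum_congr rfl fun i _ => ?_
    push_cast
    ring
  rw [hsum] at h
  have hdiff := caseI_dvd_coeff_of_lt hζ (fun i => a i - a (p - 1)) h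
  have hlastdvd : (p : ℤ) ∣ a (p - 1) := by
    rcases Nat.lt_or_ge j (p - 1) with hjlt | hjge
    · have := hdiff j hjlt
      simp only [haj, zero_sub] at this
      exact (dvd_neg).mp this
    · have : j = p - 1 := by omega
      rw [← this, haj]
      exact dvd_zero _
  intro i hi
  rcases Nat.lt_or_ge i (p - 1) with hilt | hige
  · have := hdiff i hilt
    have h2 := dvd_add this hlastdvd
    simpa using h2
  · have : i = p - 1 := by omega
    rw [this]; exact hlastdvd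

end Coefficients

section FrobeniusInt

variable {p : ℕ} [hp : Fact p.Prime] {K : Type*} [Field K] [NumberField K]
  [IsCyclotomicExtension {p} ℚ K] {ζ : K} (hζ : IsPrimitiveRoot ζ p)

include hζ in
/-- Every `p`-th power in `𝓞 K` is congruent to a rational integer modulo `p`. -/
theorem caseI_exists_int_pow_sub_dvd (α : 𝓞 K) : ∃ n : ℤ, (p : 𝓞 K) ∣ α ^ p - n := by
  have htop : Algebra.adjoin ℤ ({hζ.toInteger} : Set (𝓞 K)) = ⊤ := by
    rw [← hζ.integralPowerBasis_gen]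
    exact hζ.integralPowerBasis.adjoin_gen_eq_top
  have hα : α ∈ Algebra.adjoin ℤ ({hζ.toInteger} : Set (𝓞 K)) := by rw [htop]; trivial
  induction hα using Algebra.adjoin_induction with
  | mem x hx =>
    rw [Set.mem_singleton_iff] at hx
    refine ⟨1, ?_⟩
    rw [hx, hζ.toInteger_isPrimitiveRoot.pow_eq_one]
    simp
  | algebraMap r =>
    refine ⟨r ^ p, ?_⟩
    simp
  | add x y _ _ hx hy =>
    obtain ⟨n, hn⟩ := hx
    obtain ⟨m, hm⟩ := hy
    refine ⟨n + m, ?_⟩
    rw [add_pow_prime_eq hp.out]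
    have : x ^ p + y ^ p + (p : 𝓞 K) * x * y *
        ∑ k ∈ Finset.Ioo 0 p, x ^ (k - 1) * y ^ (p - k - 1) * ((p.choose k / p : ℕ) : 𝓞 K) -
        ((n + m : ℤ) : 𝓞 K) = (x ^ p - n) + (y ^ p - m) + (p : 𝓞 K) * (x * y *
        ∑ k ∈ Finset.Ioo 0 p, x ^ (k - 1) * y ^ (p - k - 1) * ((p.choose k / p : ℕ) : 𝓞 K)) := by
      push_cast; ring
    rw [this]
    exact dvd_add (dvd_add hn hm) (dvd_mul_right _ _)
  | mul x y _ _ hx hy =>
    obtain ⟨n, hn⟩ := hx
    obtain ⟨m, hm⟩ := hy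
    refine ⟨n * m, ?_⟩
    have : (x * y) ^ p - ((n * m : ℤ) : 𝓞 K) = (x ^ p - n) * y ^ p + n * (y ^ p - m) := by
      push_cast; ring
    rw [this]
    exact dvd_add (dvd_mul_of_dvd_left hn _) (dvd_mul_of_dvd_right hm _)

end FrobeniusInt


section UnitLemma

open NumberField.Units NumberField.IsCMField

variable {p : ℕ} [hp : Fact p.Prime] {K : Type*} [Field K] [NumberField K]
  [IsCyclotomicExtension {p} ℚ K] {ζ : K} (hζ : IsPrimitiveRoot ζ p)

include hζ in
/-- every element of `𝓞 K` is congruent to a rational integer modulo `λ = ζ - 1` -/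
theorem caseI_exists_int_sub_dvd (x : 𝓞 K) : ∃ n : ℤ, hζ.toInteger - 1 ∣ x - n := by
  have htop : Algebra.adjoin ℤ ({hζ.toInteger} : Set (𝓞 K)) = ⊤ := by
    rw [← hζ.integralPowerBasis_gen]
    exact hζ.integralPowerBasis.adjoin_gen_eq_top
  have hx : x ∈ Algebra.adjoin ℤ ({hζ.toInteger} : Set (𝓞 K)) := by rw [htop]; trivial
  induction hx using Algebra.adjoin_induction with
  | mem y hy =>
    rw [Set.mem_singleton_iff] at hy
    exact ⟨1, by rw [hy]; simp⟩
  | algebraMap r => exact ⟨r, by simp⟩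
  | add y z _ _ hy hz =>
    obtain ⟨n, hn⟩ := hy
    obtain ⟨m, hm⟩ := hz
    refine ⟨n + m, ?_⟩
    have : y + z - ((n + m : ℤ) : 𝓞 K) = (y - n) + (z - m) := by push_cast; ring
    rw [this]; exact dvd_add hn hm
  | mul y z _ _ hy hz =>
    obtain ⟨n, hn⟩ := hy
    obtain ⟨m, hm⟩ := hz
    refine ⟨n * m, ?_⟩
    have : y * z - ((n * m : ℤ) : 𝓞 K) = (y - n) * z + n * (z - m) := by push_cast; ring
    rw [this]
    exact dvd_add (dvd_mul_of_dvd_left hn _) (dvd_mul_of_dvd_right hm _)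

omit [NumberField K] [IsCyclotomicExtension {p} ℚ K] in
include hζ in
theorem caseI_sub_one_dvd_pow_sub_one (m : ℕ) : hζ.toInteger - 1 ∣ hζ.toInteger ^ m - 1 := by
  simpa using sub_dvd_pow_sub_pow hζ.toInteger 1 m

include hζ in
/-- Complex conjugation on `𝓞 K` and the unit lemma: `u = ζ^m * conj u`. -/
theorem caseI_exists_conj (hp3 : 2 < p) :
    ∃ σ : 𝓞 K ≃+* 𝓞 K, σ hζ.toInteger = hζ.toInteger ^ (p - 1) ∧
      ∀ u : (𝓞 K)ˣ, ∃ m : ℕ, (u : 𝓞 K) = hζ.toInteger ^ m * σ u := by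
  have : IsCMField K := IsCyclotomicExtension.Rat.isCMField K (S := {p}) ⟨p, rfl, hp3⟩
  have hη := hζ.toInteger_isPrimitiveRoot
  have hpodd : Odd p := hp.out.odd_of_ne_two (by omega)
  set η := hζ.toInteger with hηdef
  set lam := η - 1 with hlam
  have hlamprime : Prime lam := hζ.zeta_sub_one_prime'
  let σ : 𝓞 K ≃+* 𝓞 K := RingOfIntegers.mapRingEquiv (complexConj K).toRingEquiv
  -- the unit `η`
  let ηu : (𝓞 K)ˣ := (hη.isUnit hp.out.ne_zero).unit
  have hηu : (ηu : 𝓞 K) = η := rfl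
  have hηtors : ηu ∈ torsion K := by
    rw [torsion, CommGroup.mem_torsion, isOfFinOrder_iff_pow_eq_one]
    refine ⟨p, hp.out.pos, ?_⟩
    ext
    rw [Units.val_pow_eq_pow_val, hηu, hη.pow_eq_one]
    rfl
  have hση : σ η = η ^ (p - 1) := by
    have h1 := complexConj_torsion (K := K) ⟨ηu, hηtors⟩
    have h2 : η ^ (p - 1) * η = 1 := by
      rw [← pow_succ, Nat.sub_add_cancel hp.out.pos, hη.pow_eq_one]
    apply RingOfIntegers.ext
    have h3 : ((σ η : 𝓞 K) : K) = complexConj K (η : K) := rfl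
    rw [h3]
    have h4 : (((⟨ηu, hηtors⟩ : torsion K) : (𝓞 K)ˣ) : K) = (η : K) := rfl
    rw [h4] at h1
    rw [h1]
    have h5 : ((η ^ (p - 1) : 𝓞 K) : K) * (η : K) = 1 := by
      rw [← map_mul, h2, map_one]
    exact (eq_inv_of_mul_eq_one_left h5).symm
  refine ⟨σ, hση, fun u => ?_⟩
  -- the torsion unit `t = u / conj u`
  set t := unitsMulComplexConjInv K u with ht
  have htu : (u : 𝓞 K) = ((t : (𝓞 K)ˣ) : 𝓞 K) * σ u := by
    have h1 : (t : (𝓞 K)ˣ) = u * (unitsComplexConj K u)⁻¹ := unitsMulComplexConjInv_apply K u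
    have h2 : u = (t : (𝓞 K)ˣ) * unitsComplexConj K u := by rw [h1]; group
    have h3 := congrArg (fun v : (𝓞 K)ˣ => (v : 𝓞 K)) h2
    simpa using h3
  set τ : 𝓞 K := ((t : (𝓞 K)ˣ) : 𝓞 K) with hτ
  have hτpow : τ ^ (2 * p) = 1 := by
    have h1 : (t : (𝓞 K)ˣ) ∈ rootsOfUnity (torsionOrder K) (𝓞 K) := by
      rw [rootsOfUnity_eq_torsion]; exact t.2
    rw [mem_rootsOfUnity] at h1
    have h2 : torsionOrder K = 2 * p := by
      rw [IsCyclotomicExtension.Rat.torsionOrder_eq (n := p) (K := K),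
        if_neg (Nat.not_even_iff_odd.mpr hpodd)]
    rw [h2] at h1
    have h3 := congrArg (fun v : (𝓞 K)ˣ => (v : 𝓞 K)) h1
    simpa using h3
  -- `τ² = η^j`
  have hsq : (τ ^ 2) ^ p = 1 := by rw [← pow_mul]; exact hτpow
  obtain ⟨j, -, hj⟩ := hη.eq_pow_of_pow_eq_one hsq
  -- `τ^p = ±1`
  have he : τ ^ p = 1 ∨ τ ^ p = -1 := by
    apply mul_self_eq_one_iff.mp
    rw [← pow_add, ← two_mul]; exact hτpow
  obtain ⟨r, hr⟩ := hpodd
  have hτp1 : τ * τ ^ p = η ^ (j * (r + 1)) := by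
    rw [pow_mul, hj, ← pow_mul, ← pow_succ']
    congr 1
    omega
  rcases he with he | he
  · refine ⟨j * (r + 1), ?_⟩
    rw [he, mul_one] at hτp1
    rw [← hτp1]
    exact htu
  · -- impossible sign
    exfalso
    rw [he, mul_neg, mul_one] at hτp1
    have hτeq : τ = -η ^ (j * (r + 1)) := by rw [← hτp1]; ring
    obtain ⟨n, hn⟩ := caseI_exists_int_sub_dvd hζ (u : 𝓞 K)
    have hσlam : lam ∣ σ lam := by
      have : σ lam = η ^ (p - 1) - 1 := by rw [hlam, map_sub, hση, map_one]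
      rw [this]
      exact caseI_sub_one_dvd_pow_sub_one hζ (p - 1)
    have hn' : lam ∣ σ u - n := by
      have h1 : σ lam ∣ σ ((u : 𝓞 K) - n) := map_dvd σ hn
      have h2 : σ ((u : 𝓞 K) - n) = σ u - n := by simp
      rw [h2] at h1
      exact hσlam.trans h1
    have hpow : lam ∣ η ^ (j * (r + 1)) - 1 := caseI_sub_one_dvd_pow_sub_one hζ _
    have h2n : lam ∣ ((2 * n : ℤ) : 𝓞 K) := by
      have key : (u : 𝓞 K) = -η ^ (j * (r + 1)) * σ u := by
        rw [← hτeq]; exact htu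
      have : ((2 * n : ℤ) : 𝓞 K) = -((u : 𝓞 K) - n) - (σ u - n)
          - (η ^ (j * (r + 1)) - 1) * σ u := by
        push_cast
        linear_combination key
      rw [this]
      exact dvd_sub (dvd_sub (dvd_neg.mpr hn) hn') (dvd_mul_of_dvd_left hpow _)
    rw [IsCyclotomicExtension.Rat.zeta_sub_one_dvd_intCast_iff' p hζ] at h2n
    have hpn : (p : ℤ) ∣ n := by
      have hpprime : Prime (p : ℤ) := Nat.prime_iff_prime_int.mp hp.out
      rcases hpprime.dvd_or_dvd h2n with h | h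
      · exfalso
        have : (p : ℤ) ≤ 2 := Int.le_of_dvd (by norm_num) h
        omega
      · exact h
    have hlamn : lam ∣ (n : 𝓞 K) := (IsCyclotomicExtension.Rat.zeta_sub_one_dvd_intCast_iff' p hζ).mpr hpn
    have hlamu : lam ∣ (u : 𝓞 K) := by
      have := dvd_add hn hlamn
      simpa using this
    exact hlamprime.not_isUnit (isUnit_of_dvd_unit hlamu u.isUnit)

end UnitLemma


section Main

variable {p : ℕ} [hp : Fact p.Prime] {K : Type*} [Field K] [NumberField K]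
  [IsCyclotomicExtension {p} ℚ K] {ζ : K} (hζ : IsPrimitiveRoot ζ p)

include hζ in
/-- In the PID case, `x + ζ y` is a unit times a `p`-th power when `x^p + y^p = z^p`, `p ∤ z`. -/
theorem caseI_exists_unit_mul_pow [IsPrincipalIdealRing (𝓞 K)] (hp3 : 2 < p) {x y z : ℤ}
    (hxy : IsCoprime x y) (hz : ¬ (p : ℤ) ∣ z) (h : x ^ p + y ^ p = z ^ p) :
    ∃ (u : (𝓞 K)ˣ) (α : 𝓞 K), (x : 𝓞 K) + hζ.toInteger * y = u * α ^ p := by
  classical
  have hη := hζ.toInteger_isPrimitiveRoot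
  have hpodd : Odd p := hp.out.odd_of_ne_two (by omega)
  set η := hζ.toInteger with hηdef
  have hlamprime : Prime (η - 1) := hζ.zeta_sub_one_prime'
  have hprod := hη.pow_add_pow_eq_prod_add_mul (x : 𝓞 K) (y : 𝓞 K) hpodd
  have hcast : (x : 𝓞 K) ^ p + (y : 𝓞 K) ^ p = (z : 𝓞 K) ^ p := by exact_mod_cast congrArg (Int.cast : ℤ → 𝓞 K) h
  have hηmem : η ∈ nthRootsFinset p (1 : 𝓞 K) := by
    rw [mem_nthRootsFinset hp.out.pos]; exact hη.pow_eq_one
  rw [← Finset.mul_prod_erase _ _ hηmem, hcast] at hprod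
  -- coprimality
  have hcop : IsCoprime ((x : 𝓞 K) + η * y)
      (∏ μ ∈ (nthRootsFinset p (1 : 𝓞 K)).erase η, ((x : 𝓞 K) + μ * y)) := by
    refine IsCoprime.prod_right fun μ hμ => ?_
    have hμne : μ ≠ η := Finset.ne_of_mem_erase hμ
    have hμmem : μ ∈ nthRootsFinset p (1 : 𝓞 K) := Finset.mem_of_mem_erase hμ
    have hassoc : Associated (η - 1) (η - μ) :=
      hη.nthRootsFinset_pairwise_associated_sub_one_sub_of_prime hp.out hηmem hμmem hμne.symm
    obtain ⟨r, s, hrs⟩ := hxy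
    have hcomb : (η - μ) = -(r : 𝓞 K) * (μ * ((x : 𝓞 K) + η * y) - η * ((x : 𝓞 K) + μ * y))
        + (s : 𝓞 K) * (((x : 𝓞 K) + η * y) - ((x : 𝓞 K) + μ * y)) := by
      have hrs' : (r : 𝓞 K) * x + s * y = 1 := by exact_mod_cast congrArg (Int.cast : ℤ → 𝓞 K) hrs
      linear_combination (-(η - μ)) * hrs'
    refine isCoprime_of_prime_dvd ?_ fun π hπ hπA hπB => ?_
    · rintro ⟨hA, hB⟩
      rw [hA, hB] at hcomb
      simp only [mul_zero, sub_self, add_zero] at hcomb
      exact hμne (sub_eq_zero.mp hcomb).symm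
    · have hπdiff : π ∣ η - μ := by
        rw [hcomb]
        exact dvd_add (dvd_mul_of_dvd_right (dvd_sub (dvd_mul_of_dvd_right hπA _)
          (dvd_mul_of_dvd_right hπB _)) _) (dvd_mul_of_dvd_right (dvd_sub hπA hπB) _)
      have hπlam : π ∣ η - 1 := hπdiff.trans hassoc.symm.dvd
      have hassoc2 : Associated π (η - 1) := hπ.associated_of_dvd hlamprime hπlam
      have hlamA : η - 1 ∣ (x : 𝓞 K) + η * y := hassoc2.symm.dvd.trans hπA
      have hlamxy : η - 1 ∣ ((x + y : ℤ) : 𝓞 K) := by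
        have : ((x + y : ℤ) : 𝓞 K) = ((x : 𝓞 K) + η * y) - (η - 1) * y := by push_cast; ring
        rw [this]
        exact dvd_sub hlamA (dvd_mul_right _ _)
      rw [IsCyclotomicExtension.Rat.zeta_sub_one_dvd_intCast_iff' p hζ] at hlamxy
      have hdvd : (p : ℤ) ∣ z ^ p := by
        rw [← h]
        exact hlamxy.trans (Odd.add_dvd_pow_add_pow x y hpodd)
      exact hz ((Nat.prime_iff_prime_int.mp hp.out).dvd_of_dvd_pow hdvd)
  obtain ⟨α, hα⟩ := exists_associated_pow_of_mul_eq_pow' hcop hprod.symm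
  obtain ⟨u, hu⟩ := hα
  exact ⟨u, α, by rw [← hu]; ring⟩

omit [NumberField K] [IsCyclotomicExtension {p} ℚ K] in
include hζ in
theorem caseI_pow_mod (m : ℕ) : hζ.toInteger ^ m = hζ.toInteger ^ (m % p) := by
  have hη := hζ.toInteger_isPrimitiveRoot
  conv_lhs => rw [← Nat.mod_add_div m p, pow_add, pow_mul, hη.pow_eq_one, one_pow, mul_one]

omit [NumberField K] [IsCyclotomicExtension {p} ℚ K] in
include hζ in
theorem caseI_sum_ite (c : ℤ) {j : ℕ} (hj : j < p) :
    ∑ i ∈ range p, (((if i = j then c else 0 : ℤ)) : 𝓞 K) * hζ.toInteger ^ i =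
      (c : 𝓞 K) * hζ.toInteger ^ j := by
  rw [Finset.sum_eq_single j]
  · simp
  · intro i _ hij
    simp [hij]
  · intro hj'
    exact absurd (Finset.mem_range.mpr hj) hj'

include hζ in
/-- The main step of case I. -/
theorem caseI_main [IsPrincipalIdealRing (𝓞 K)] (hp5 : 5 ≤ p) {x y z : ℤ}
    (hxy : IsCoprime x y) (hz : ¬ (p : ℤ) ∣ z) (h : x ^ p + y ^ p = z ^ p) :
    (p : ℤ) ∣ x ∨ (p : ℤ) ∣ y ∨ (p : ℤ) ∣ x - y := by
  classical
  have hp3 : 2 < p := by omega
  have hη := hζ.toInteger_isPrimitiveRoot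
  obtain ⟨u, α, huα⟩ := caseI_exists_unit_mul_pow hζ hp3 hxy hz h
  obtain ⟨σ, hση, hσu⟩ := caseI_exists_conj hζ hp3
  obtain ⟨m, hm⟩ := hσu u
  obtain ⟨n, hn⟩ := caseI_exists_int_pow_sub_dvd hζ α
  set η := hζ.toInteger with hηdef
  -- apply `σ`
  have hσeq : (x : 𝓞 K) + η ^ (p - 1) * y = σ u * σ α ^ p := by
    have := congrArg σ huα
    simpa [hση] using this
  have hn' : (p : 𝓞 K) ∣ σ α ^ p - n := by
    have h1 : σ (p : 𝓞 K) ∣ σ (α ^ p - n) := map_dvd σ hn
    simpa using h1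
  -- the key divisibility
  have hD : (p : 𝓞 K) ∣ ((x : 𝓞 K) + η * y) - η ^ m * ((x : 𝓞 K) + η ^ (p - 1) * y) := by
    have : ((x : 𝓞 K) + η * y) - η ^ m * ((x : 𝓞 K) + η ^ (p - 1) * y) =
        η ^ m * σ u * ((α ^ p - n) - (σ α ^ p - n)) := by
      rw [huα, hσeq]
      linear_combination (α ^ p) * hm
    rw [this]
    exact dvd_mul_of_dvd_right (dvd_sub hn hn') _
  -- rewrite as a sum over `range p`
  set m₀ := m % p with hm₀
  set m₁ := (m + (p - 1)) % p with hm₁
  have hm₀lt : m₀ < p := Nat.mod_lt _ hp.out.pos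
  have hm₁lt : m₁ < p := Nat.mod_lt _ hp.out.pos
  let a : ℕ → ℤ := fun i => (if i = 0 then x else 0) + (if i = 1 then y else 0)
    - (if i = m₀ then x else 0) - (if i = m₁ then y else 0)
  have hsum : ∑ i ∈ range p, (a i : 𝓞 K) * η ^ i =
      ((x : 𝓞 K) + η * y) - η ^ m * ((x : 𝓞 K) + η ^ (p - 1) * y) := by
    have h0 := caseI_sum_ite hζ x (j := 0) hp.out.pos
    have h1 := caseI_sum_ite hζ y (j := 1) hp.out.one_lt
    have h2 := caseI_sum_ite hζ x hm₀lt
    have h3 := caseI_sum_ite hζ y hm₁lt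
    have e0 : η ^ m = η ^ m₀ := caseI_pow_mod hζ m
    have e1 : η ^ (m + (p - 1)) = η ^ m₁ := caseI_pow_mod hζ _
    have hsplit : ∑ i ∈ range p, (a i : 𝓞 K) * η ^ i =
        ∑ i ∈ range p, (((if i = 0 then x else 0 : ℤ)) : 𝓞 K) * η ^ i
        + ∑ i ∈ range p, (((if i = 1 then y else 0 : ℤ)) : 𝓞 K) * η ^ i
        - ∑ i ∈ range p, (((if i = m₀ then x else 0 : ℤ)) : 𝓞 K) * η ^ i
        - ∑ i ∈ range p, (((if i = m₁ then y else 0 : ℤ)) : 𝓞 K) * η ^ i := by
      rw [← Finset.sum_add_distrib, ← Finset.sum_sub_distrib, ← Finset.sum_sub_distrib]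
      refine Finset.sum_congr rfl fun i _ => ?_
      simp only [a]
      push_cast
      ring
    rw [hsplit, h0, h1, h2, h3, ← e0, ← e1, pow_add]
    ring
  rw [← hsum] at hD
  -- a vanishing coefficient
  obtain ⟨j, hjmem, hjnot⟩ : ∃ j ∈ range p, j ∉ ({0, 1, m₀, m₁} : Finset ℕ) := by
    apply Finset.exists_mem_notMem_of_card_lt_card
    calc ({0, 1, m₀, m₁} : Finset ℕ).card ≤ 4 := Finset.card_le_four
      _ < p := by omega
      _ = (range p).card := (Finset.card_range p).symm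
  have hjlt : j < p := Finset.mem_range.mp hjmem
  simp only [Finset.mem_insert, Finset.mem_singleton, not_or] at hjnot
  obtain ⟨hj0, hj1, hj2, hj3⟩ := hjnot
  have haj : a j = 0 := by simp [a, hj0, hj1, hj2, hj3]
  have hall := caseI_dvd_coeff hζ a hD hjlt haj
  have ha0 := hall 0 hp.out.pos
  have ha1 := hall 1 hp.out.one_lt
  -- case analysis on `m₀`
  have hm₁' : m₁ = (m₀ + (p - 1)) % p := by rw [hm₁, hm₀, Nat.mod_add_mod]
  rcases Nat.eq_zero_or_pos m₀ with h0 | hpos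
  · -- m₀ = 0, m₁ = p - 1
    have hm1 : m₁ = p - 1 := by
      rw [hm₁', h0, zero_add, Nat.mod_eq_of_lt (by omega)]
    right; left
    have : a 1 = y := by
      have e1 : (1 : ℕ) ≠ m₀ := by omega
      have e2 : (1 : ℕ) ≠ m₁ := by omega
      simp [a, e1, e2]
    rw [this] at ha1
    exact ha1
  · rcases Nat.eq_or_lt_of_le (Nat.succ_le_of_lt hpos) with h1 | h2
    · -- m₀ = 1, m₁ = 0
      have hm0 : m₀ = 1 := h1.symm
      have hm1 : m₁ = 0 := by
        rw [hm₁', hm0, show 1 + (p - 1) = p by omega, Nat.mod_self]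
      right; right
      have : a 0 = x - y := by
        simp only [a, hm0, hm1]
        norm_num
      rw [this] at ha0
      exact ha0
    · -- m₀ ≥ 2, m₁ = m₀ - 1 ≠ 0
      have hm1 : m₁ = m₀ - 1 := by
        rw [hm₁', show m₀ + (p - 1) = (m₀ - 1) + p by omega, Nat.add_mod_right,
          Nat.mod_eq_of_lt (by omega)]
      left
      have : a 0 = x := by
        have e1 : (0 : ℕ) ≠ m₀ := by omega
        have e2 : (0 : ℕ) ≠ m₁ := by omega
        simp [a, e1, e2]
      rw [this] at ha0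
      exact ha0

end Main

/-- **Case I** of Fermat's Last Theorem for a prime `p ≥ 5` with `𝓞 ℚ(ζ_p)` a PID. -/
theorem caseI_of_pid {p : ℕ} [hp : Fact p.Prime] (hp5 : 5 ≤ p) (K : Type*) [Field K]
    [NumberField K] [IsCyclotomicExtension {p} ℚ K] [IsPrincipalIdealRing (𝓞 K)] :
    CaseIHolds p := by
  intro a b c hgcd hpabc heq
  have hζ := IsCyclotomicExtension.zeta_spec p ℚ K
  have hpprime : Prime (p : ℤ) := Nat.prime_iff_prime_int.mp hp.out
  have hpodd : Odd p := hp.out.odd_of_ne_two (by omega)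
  have hpa : ¬ (p : ℤ) ∣ a := fun h => hpabc (dvd_mul_of_dvd_left (dvd_mul_of_dvd_left h _) _)
  have hpb : ¬ (p : ℤ) ∣ b := fun h => hpabc (dvd_mul_of_dvd_left (dvd_mul_of_dvd_right h _) _)
  have hpc : ¬ (p : ℤ) ∣ c := fun h => hpabc (dvd_mul_of_dvd_right h _)
  -- coprimality
  have hab : IsCoprime a b := by
    refine isCoprime_of_prime_dvd ?_ fun q hq hqa hqb => hq.not_dvd_one ?_
    · rintro ⟨rfl, -⟩; exact hpa (dvd_zero _)
    · rw [← hgcd]
      refine Finset.dvd_gcd_iff.mpr fun x hx => ?_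
      simp only [Finset.mem_insert, Finset.mem_singleton] at hx
      have hqc : q ∣ c := by
        apply hq.dvd_of_dvd_pow (n := p)
        rw [← heq]
        exact dvd_add (dvd_pow hqa hp.out.ne_zero) (dvd_pow hqb hp.out.ne_zero)
      rcases hx with rfl | rfl | rfl <;> assumption
  have hac : IsCoprime a (-c) := by
    rw [IsCoprime.neg_right_iff]
    refine isCoprime_of_prime_dvd ?_ fun q hq hqa hqc => hq.not_dvd_one ?_
    · rintro ⟨rfl, -⟩; exact hpa (dvd_zero _)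
    · rw [← hgcd]
      refine Finset.dvd_gcd_iff.mpr fun x hx => ?_
      simp only [Finset.mem_insert, Finset.mem_singleton] at hx
      have hqb : q ∣ b := by
        apply hq.dvd_of_dvd_pow (n := p)
        have : b ^ p = c ^ p - a ^ p := by rw [← heq]; ring
        rw [this]
        exact dvd_sub (dvd_pow hqc hp.out.ne_zero) (dvd_pow hqa hp.out.ne_zero)
      rcases hx with rfl | rfl | rfl <;> assumption
  -- first application
  have h1 : (p : ℤ) ∣ a - b := by
    rcases caseI_main hζ hp5 hab hpc heq with h | h | h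
    · exact absurd h hpa
    · exact absurd h hpb
    · exact h
  -- second application
  have heq2 : a ^ p + (-c) ^ p = (-b) ^ p := by
    rw [hpodd.neg_pow, hpodd.neg_pow, ← heq]; ring
  have h2 : (p : ℤ) ∣ a + c := by
    rcases caseI_main hζ hp5 hac (by rwa [dvd_neg]) heq2 with h | h | h
    · exact absurd h hpa
    · exact absurd ((dvd_neg).mp h) hpc
    · simpa using h
  -- conclusion via Fermat's little theorem
  have hz : ∀ t : ℤ, ((t : ZMod p)) ^ p = t := fun t => ZMod.pow_card _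
  have e1 : ((a : ZMod p)) = b := by
    have := (ZMod.intCast_zmod_eq_zero_iff_dvd (a - b) p).mpr h1
    push_cast at this
    exact sub_eq_zero.mp this
  have e2 : ((c : ZMod p)) = -a := by
    have := (ZMod.intCast_zmod_eq_zero_iff_dvd (a + c) p).mpr h2
    push_cast at this
    exact (eq_neg_of_add_eq_zero_right this)
  have e3 : ((a : ZMod p)) + b = c := by
    have := congrArg (Int.cast : ℤ → ZMod p) heq
    push_cast at this
    rwa [hz, hz, hz] at this
  have e4 : ((3 * a : ℤ) : ZMod p) = 0 := by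
    push_cast
    rw [e2, ← e1] at e3
    linear_combination e3
  rw [ZMod.intCast_zmod_eq_zero_iff_dvd] at e4
  rcases hpprime.dvd_or_dvd e4 with h | h
  · have : (p : ℤ) ≤ 3 := Int.le_of_dvd (by norm_num) h
    omega
  · exact hpa h

end Fermat.Agent.Lib.Kummer
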