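/-
KUMMER project, piece (C2), steps A+B (helper2): the second case of Fermat's Last Theorem in an
abstract principal ideal domain `R` containing a primitive `p`-th root of unity `ζ` with `ζ - 1`
prime and `R ⧸ (ζ - 1)` of cardinality `p`: the `λ`-adic valuations of the factors `a + η b` of
`a ^ p + b ^ p`, their pairwise coprimality and their decomposition as unit times `p`-th power.
-/
import Mathlib

set_option autoImplicit false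
set_option linter.unusedSectionVars false

namespace Fermat.Agent.Lib.Kummer

open Polynomial Finset

/-- The abstract setting for the case II descent. -/
structure CaseIISetting (R : Type*) [CommRing R] (p : ℕ) (ζ : R) : Prop where
  hp : p.Prime
  hodd : p ≠ 2
  hζ : IsPrimitiveRoot ζ p
  hlam : Prime (ζ - 1)
  hcard : Nat.card (R ⧸ Ideal.span {ζ - 1}) = p

namespace CaseIISetting

variable {R : Type*} [CommRing R] [IsDomain R] {p : ℕ} {ζ : R} (H : CaseIISetting R p ζ)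

include H

theorem p_pos : 0 < p := H.hp.pos

theorem p_odd : Odd p := H.hp.odd_of_ne_two H.hodd

theorem one_mem : (1 : R) ∈ nthRootsFinset p (1 : R) := by
  rw [mem_nthRootsFinset H.p_pos]; exact one_pow p

theorem zeta_mem : ζ ∈ nthRootsFinset p (1 : R) := by
  rw [mem_nthRootsFinset H.p_pos]; exact H.hζ.pow_eq_one

theorem pow_eq_one_of_mem {η : R} (hη : η ∈ nthRootsFinset p (1 : R)) : η ^ p = 1 :=
  (mem_nthRootsFinset H.p_pos 1).mp hη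

theorem isUnit_of_mem {η : R} (hη : η ∈ nthRootsFinset p (1 : R)) : IsUnit η :=
  IsUnit.of_pow_eq_one (H.pow_eq_one_of_mem hη) H.hp.ne_zero

theorem mul_mem {η₁ η₂ : R} (h₁ : η₁ ∈ nthRootsFinset p (1 : R))
    (h₂ : η₂ ∈ nthRootsFinset p (1 : R)) : η₁ * η₂ ∈ nthRootsFinset p (1 : R) := by
  rw [mem_nthRootsFinset H.p_pos] at *
  rw [mul_pow, h₁, h₂, one_mul]

theorem card_roots : (nthRootsFinset p (1 : R)).card = p := H.hζ.card_nthRootsFinset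

theorem associated_sub {η₁ η₂ : R} (h₁ : η₁ ∈ nthRootsFinset p (1 : R))
    (h₂ : η₂ ∈ nthRootsFinset p (1 : R)) (hne : η₁ ≠ η₂) : Associated (ζ - 1) (η₁ - η₂) :=
  H.hζ.nthRootsFinset_pairwise_associated_sub_one_sub_of_prime H.hp h₁ h₂ hne

theorem lam_dvd_sub {η₁ η₂ : R} (h₁ : η₁ ∈ nthRootsFinset p (1 : R))
    (h₂ : η₂ ∈ nthRootsFinset p (1 : R)) : ζ - 1 ∣ η₁ - η₂ :=
  H.hζ.sub_one_dvd_sub H.hp h₁ h₂

theorem lam_ne_zero : ζ - 1 ≠ 0 := H.hlam.ne_zero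

theorem lam_dvd_p : ζ - 1 ∣ (p : R) := H.hζ.sub_one_dvd_natCast H.hp.one_lt

/-- `p` divides `(ζ - 1) ^ (p - 1)`. -/
theorem p_dvd_lam_pow : (p : R) ∣ (ζ - 1) ^ (p - 1) := by
  obtain ⟨n, rfl⟩ : ∃ n, p = n + 1 := ⟨p - 1, (Nat.sub_add_cancel H.hp.one_le).symm⟩
  have h := H.hζ.prod_one_sub_pow_eq_order
  have h2 : ((n + 1 : ℕ) : R) = ∏ k ∈ range n, (1 - ζ ^ (k + 1)) := by
    rw [h]; push_cast; ring
  rw [h2, Nat.add_sub_cancel]
  have : (ζ - 1) ^ n = ∏ _k ∈ range n, (ζ - 1) := by rw [prod_const, card_range]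
  rw [this]
  refine Finset.prod_dvd_prod_of_dvd _ _ fun k hk => ?_
  have hk' : k + 1 < n + 1 := by simpa using mem_range.mp hk
  have hcop : (k + 1).Coprime (n + 1) :=
    (Nat.coprime_of_lt_prime (Nat.succ_ne_zero k) hk' H.hp).symm
  have := (H.hζ.associated_sub_one_pow_sub_one_of_coprime hcop).symm.dvd
  rwa [← neg_sub, neg_dvd]

theorem p_dvd_lam_pow_p : (p : R) ∣ (ζ - 1) ^ p := by
  have := H.p_dvd_lam_pow
  refine this.trans (pow_dvd_pow _ (Nat.sub_le p 1))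

/-- `1 + ζ` is a unit. -/
theorem isUnit_one_add_zeta : IsUnit (1 + ζ) := by
  have h2 : (2 : ℕ).Coprime p := by
    rw [Nat.coprime_comm, Nat.Prime.coprime_iff_not_dvd H.hp]
    intro h
    exact H.hodd ((Nat.prime_dvd_prime_iff_eq H.hp Nat.prime_two).mp h)
  have := H.hζ.geom_sum_isUnit H.hp.two_le h2
  simpa [Finset.sum_range_succ] using this

/-- The generalised Fermat equation `a ^ p + b ^ p = u * c ^ p` with `λ ∤ a b`, `λ ∣ c`. -/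
structure IsSol (p : ℕ) (ζ : R) (a b c : R) (u : Rˣ) : Prop where
  ha : ¬ (ζ - 1) ∣ a
  hb : ¬ (ζ - 1) ∣ b
  hc : c ≠ 0
  hcdvd : (ζ - 1) ∣ c
  coprime : IsCoprime a b
  eq : a ^ p + b ^ p = u * c ^ p

variable {a b c : R} {u : Rˣ}

theorem prod_eq (a b : R) : a ^ p + b ^ p = ∏ η ∈ nthRootsFinset p (1 : R), (a + η * b) :=
  H.hζ.pow_add_pow_eq_prod_add_mul a b H.p_odd

/-- Every factor `a + η b` is divisible by `λ`. -/
theorem lam_dvd_add_mul (h : IsSol p ζ a b c u) {η : R} (hη : η ∈ nthRootsFinset p (1 : R)) :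
    ζ - 1 ∣ a + η * b := by
  have h1 : ζ - 1 ∣ ∏ η ∈ nthRootsFinset p (1 : R), (a + η * b) := by
    rw [← H.prod_eq, h.eq]
    exact dvd_mul_of_dvd_right (dvd_pow h.hcdvd H.hp.ne_zero) _
  obtain ⟨η₀, hη₀, hdvd⟩ := (Prime.dvd_finsetProd_iff H.hlam _).mp h1
  have h2 : a + η * b = (a + η₀ * b) + (η - η₀) * b := by ring
  rw [h2]
  exact dvd_add hdvd (dvd_mul_of_dvd_left (H.lam_dvd_sub hη hη₀) _)

/-- Some factor `a + η b` is divisible by `λ ^ 2`. -/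
theorem exists_lam_sq_dvd (h : IsSol p ζ a b c u) :
    ∃ η ∈ nthRootsFinset p (1 : R), (ζ - 1) ^ 2 ∣ a + η * b := by
  classical
  choose f hf using fun η : nthRootsFinset p (1 : R) => H.lam_dvd_add_mul h η.2
  have hfin : Finite (R ⧸ Ideal.span {ζ - 1}) :=
    Nat.finite_of_card_ne_zero (by rw [H.hcard]; exact H.hp.ne_zero)
  let g : nthRootsFinset p (1 : R) → R ⧸ Ideal.span {ζ - 1} := fun η => Ideal.Quotient.mk _ (f η)
  have hinj : Function.Injective g := by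
    intro η₁ η₂ h12
    by_contra hne
    have hne' : (η₁ : R) ≠ η₂ := fun h' => hne (Subtype.ext h')
    have hdvd : ζ - 1 ∣ f η₁ - f η₂ := by
      rw [← Ideal.mem_span_singleton, ← Ideal.Quotient.eq]
      exact h12
    obtain ⟨w, hw⟩ := H.associated_sub η₁.2 η₂.2 hne'
    have h3 : (ζ - 1) * (f η₁ - f η₂) = (ζ - 1) * (w * b) := by
      rw [mul_sub, ← hf η₁, ← hf η₂, ← mul_assoc, hw]; ring
    have h4 := mul_left_cancel₀ H.lam_ne_zero h3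
    rw [h4] at hdvd
    exact h.hb ((w.isUnit.dvd_mul_left).mp hdvd)
  have hbij : Function.Bijective g := by
    refine hinj.bijective_of_nat_card_le ?_
    rw [H.hcard, Nat.card_eq_fintype_card, Fintype.card_coe, H.card_roots]
  obtain ⟨η₀, hη₀⟩ := hbij.2 0
  refine ⟨η₀, η₀.2, ?_⟩
  have : ζ - 1 ∣ f η₀ := by
    rw [← Ideal.mem_span_singleton, ← Ideal.Quotient.eq_zero_iff_mem]
    exact hη₀
  rw [hf η₀, pow_two]
  exact mul_dvd_mul_left _ this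

/-- Twisting `b` by a root of unity preserves solutions. -/
theorem isSol_mul (h : IsSol p ζ a b c u) {η : R} (hη : η ∈ nthRootsFinset p (1 : R)) :
    IsSol p ζ a (η * b) c u := by
  have hu := H.isUnit_of_mem hη
  refine ⟨h.ha, fun hd => h.hb ((hu.dvd_mul_left).mp hd), h.hc, h.hcdvd, ?_, ?_⟩
  · exact (isCoprime_mul_unit_left_right hu a b).mpr h.coprime
  · rw [mul_pow, H.pow_eq_one_of_mem hη, one_mul, h.eq]

/-- If `λ ^ 2 ∣ a + b` then `λ ^ 2 ∤ a + η b` for `η ≠ 1`. -/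
theorem not_lam_sq_dvd (h : IsSol p ζ a b c u) (h2 : (ζ - 1) ^ 2 ∣ a + b) {η : R}
    (hη : η ∈ nthRootsFinset p (1 : R)) (hη1 : η ≠ 1) : ¬ (ζ - 1) ^ 2 ∣ a + η * b := by
  intro hd
  obtain ⟨w, hw⟩ := H.associated_sub hη H.one_mem hη1
  have h3 : (ζ - 1) ^ 2 ∣ (ζ - 1) * (w * b) := by
    have : (ζ - 1) * (w * b) = (a + η * b) - (a + b) := by
      rw [← mul_assoc, hw]; ring
    rw [this]
    exact dvd_sub hd h2
  rw [pow_two] at h3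
  have h4 := (mul_dvd_mul_iff_left H.lam_ne_zero).mp h3
  exact h.hb ((w.isUnit.dvd_mul_left).mp h4)

/-- The quotients `(a + η b) / λ` are pairwise coprime. -/
theorem isCoprime_quot (h : IsSol p ζ a b c u) {η₁ η₂ f₁ f₂ : R}
    (h₁ : η₁ ∈ nthRootsFinset p (1 : R)) (h₂ : η₂ ∈ nthRootsFinset p (1 : R)) (hne : η₁ ≠ η₂)
    (hf₁ : a + η₁ * b = (ζ - 1) * f₁) (hf₂ : a + η₂ * b = (ζ - 1) * f₂) : IsCoprime f₁ f₂ := by
  obtain ⟨w, hw⟩ := H.associated_sub h₁ h₂ hne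
  have hb' : f₁ - f₂ = w * b := by
    apply mul_left_cancel₀ H.lam_ne_zero
    rw [mul_sub, ← hf₁, ← hf₂, ← mul_assoc, hw]; ring
  have ha' : η₂ * f₁ - η₁ * f₂ = -(w * a) := by
    apply mul_left_cancel₀ H.lam_ne_zero
    have : (ζ - 1) * (η₂ * f₁ - η₁ * f₂) = η₂ * ((ζ - 1) * f₁) - η₁ * ((ζ - 1) * f₂) := by ring
    rw [this, ← hf₁, ← hf₂, mul_neg, ← mul_assoc, hw]; ring
  obtain ⟨s, t, hst⟩ := h.coprime
  have hww : ((w⁻¹ : Rˣ) : R) * w = 1 := w.inv_mul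
  refine ⟨(w⁻¹ : Rˣ) * (t - s * η₂), (w⁻¹ : Rˣ) * (s * η₁ - t), ?_⟩
  linear_combination ((w⁻¹ : Rˣ) * t : R) * hb' - ((w⁻¹ : Rˣ) * s : R) * ha' +
    (t * b + s * a) * hww + hst

variable [IsPrincipalIdealRing R]

/-- **Steps A+B**, normalised form: if `c = λ ^ (n + 1) * c₀` with `λ ∤ c₀` and `λ ^ 2 ∣ a + b`,
then `1 ≤ n` and the three factors `a + b`, `a + ζ b`, `a + ζ⁻¹ b` are units times `p`-th powers
times the expected power of `λ`. -/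
theorem pow_decomp_aux {n : ℕ} {c₀ : R} (h : IsSol p ζ a b ((ζ - 1) ^ (n + 1) * c₀) u)
    (hc₀ : ¬ (ζ - 1) ∣ c₀) (h2 : (ζ - 1) ^ 2 ∣ a + b) :
    1 ≤ n ∧ ∃ (ρ₀ ρ₁ ρ₂ : R) (η₀ η₁ η₂ : Rˣ),
      a + b = η₀ * (ζ - 1) ^ (p * n + 1) * ρ₀ ^ p ∧
      a + ζ * b = η₁ * (ζ - 1) * ρ₁ ^ p ∧
      a + ζ ^ (p - 1) * b = η₂ * (ζ - 1) * ρ₂ ^ p ∧
      ¬ (ζ - 1) ∣ ρ₀ ∧ ¬ (ζ - 1) ∣ ρ₁ ∧ ¬ (ζ - 1) ∣ ρ₂ ∧ IsCoprime ρ₁ ρ₂ := by
  classical
  have hl0 : ζ - 1 ≠ 0 := H.lam_ne_zero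
  have hpr : Prime (ζ - 1) := H.hlam
  choose! f hf using fun η (hη : η ∈ nthRootsFinset p (1 : R)) => H.lam_dvd_add_mul h hη
  have hlp : (p : R) ∣ (ζ - 1) ^ p := H.p_dvd_lam_pow_p
  have hlpdvd : ζ - 1 ∣ (p : R) := H.lam_dvd_p
  have hprodeq := H.prod_eq a b
  have hnot := fun η hη hη1 => H.not_lam_sq_dvd h h2 (η := η) hη hη1
  have hcopq := fun η₁ η₂ f₁ f₂ h₁ h₂ hne hf₁ hf₂ =>
    H.isCoprime_quot h (η₁ := η₁) (η₂ := η₂) (f₁ := f₁) (f₂ := f₂) h₁ h₂ hne hf₁ hf₂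
  obtain ⟨heq, hcop⟩ : a ^ p + b ^ p = u * ((ζ - 1) ^ (n + 1) * c₀) ^ p ∧ IsCoprime a b :=
    ⟨h.eq, h.coprime⟩
  clear h
  set l := ζ - 1 with hl
  have hf1 : l ∣ f 1 := by
    have h1 := hf 1 H.one_mem
    rw [one_mul] at h1
    rw [h1, pow_two] at h2
    exact (mul_dvd_mul_iff_left hl0).mp h2
  have hfη : ∀ η ∈ nthRootsFinset p (1 : R), η ≠ 1 → ¬ l ∣ f η := by
    intro η hη hη1 hd
    apply hnot η hη hη1
    rw [hf η hη, pow_two]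
    exact mul_dvd_mul_left _ hd
  set S := (nthRootsFinset p (1 : R)).erase 1 with hS
  have hSmem : ∀ η ∈ S, η ∈ nthRootsFinset p (1 : R) ∧ η ≠ 1 := fun η hη =>
    ⟨Finset.mem_of_mem_erase hη, Finset.ne_of_mem_erase hη⟩
  set P := ∏ η ∈ S, f η with hPdef
  have hprod : l ^ p * (f 1 * P) = u * (l ^ (n + 1) * c₀) ^ p := by
    rw [← heq, hprodeq, hPdef, hS, Finset.mul_prod_erase _ _ H.one_mem,
      Finset.prod_congr rfl hf, Finset.prod_mul_distrib, Finset.prod_const, H.card_roots]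
  have hP : ¬ l ∣ P := by
    rw [hPdef, Prime.dvd_finsetProd_iff hpr]
    rintro ⟨η, hη, hd⟩
    exact hfη η (hSmem η hη).1 (hSmem η hη).2 hd
  have h3 : f 1 * P = l ^ (p * n) * (u * c₀ ^ p) := by
    apply mul_left_cancel₀ (pow_ne_zero p hl0)
    rw [hprod, mul_pow, ← pow_mul, Nat.add_mul, one_mul, pow_add, mul_comm n p]; ring
  have h4 : l ^ (p * n) ∣ f 1 :=
    hpr.pow_dvd_of_dvd_mul_right (p * n) hP (h3 ▸ dvd_mul_right _ _)
  obtain ⟨g, hg⟩ := h4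
  have h5 : g * P = u * c₀ ^ p := by
    apply mul_left_cancel₀ (pow_ne_zero (p * n) hl0)
    rw [← mul_assoc, ← hg, h3]
  have hgl : ¬ l ∣ g := by
    intro hd
    have : l ∣ u * c₀ ^ p := h5 ▸ dvd_mul_of_dvd_left hd _
    exact hc₀ (hpr.dvd_of_dvd_pow ((u.isUnit.dvd_mul_left).mp this))
  have hn : 1 ≤ n := by
    by_contra hn0
    have hn0' : n = 0 := by omega
    rw [hn0', mul_zero, pow_zero, one_mul] at hg
    exact hgl (hg ▸ hf1)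
  -- coprimality
  have hcopS : ∀ η ∈ S, ∀ η' ∈ S, η ≠ η' → IsCoprime (f η) (f η') := fun η hη η' hη' hne =>
    hcopq η η' _ _ (hSmem η hη).1 (hSmem η' hη').1 hne (hf η (hSmem η hη).1)
      (hf η' (hSmem η' hη').1)
  have hcopg : ∀ η ∈ S, IsCoprime g (f η) := by
    intro η hη
    have := hcopq 1 η _ _ H.one_mem (hSmem η hη).1 (hSmem η hη).2.symm (hf 1 H.one_mem)
      (hf η (hSmem η hη).1)
    rw [hg] at this
    exact this.of_mul_left_right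
  -- `p`-th powers
  have hpowg : ∃ ρ₀ : R, Associated (ρ₀ ^ p) g := by
    refine exists_associated_pow_of_associated_pow_mul (c := c₀) (b := P)
      (IsCoprime.prod_right fun η hη => hcopg η hη) ?_
    exact ⟨u, by rw [h5]; ring⟩
  have hpowS : ∀ η ∈ S, ∃ ρ : R, Associated (ρ ^ p) (f η) := by
    intro η hη
    refine exists_associated_pow_of_associated_pow_mul (c := c₀)
      (b := g * ∏ η' ∈ S.erase η, f η') ?_ ?_
    · refine IsCoprime.mul_right (hcopg η hη).symm (IsCoprime.prod_right fun η' hη' => ?_)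
      exact hcopS η hη η' (Finset.mem_of_mem_erase hη') (Finset.ne_of_mem_erase hη').symm
    · refine ⟨u, ?_⟩
      have : f η * (g * ∏ η' ∈ S.erase η, f η') = g * P := by
        rw [hPdef, ← Finset.mul_prod_erase S f hη]; ring
      rw [this, h5]; ring
  -- the two special roots
  set ζ' := ζ ^ (p - 1) with hζ'
  have hζζ' : ζ * ζ' = 1 := by
    rw [hζ', ← pow_succ', Nat.sub_add_cancel H.hp.one_le, H.hζ.pow_eq_one]
  have hζ1 : ζ ≠ 1 := H.hζ.ne_one H.hp.one_lt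
  have hζ'mem : ζ' ∈ nthRootsFinset p (1 : R) := by
    rw [mem_nthRootsFinset H.p_pos, hζ', ← pow_mul, mul_comm, pow_mul, H.hζ.pow_eq_one, one_pow]
  have hζ'1 : ζ' ≠ 1 := by
    intro h1
    rw [h1, mul_one] at hζζ'
    exact hζ1 hζζ'
  have hne : ζ ≠ ζ' := by
    intro heq'
    rw [← heq', ← pow_two] at hζζ'
    have := (H.hζ.pow_eq_one_iff_dvd 2).mp hζζ'
    exact H.hodd ((Nat.prime_dvd_prime_iff_eq H.hp Nat.prime_two).mp this)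
  have hζS : ζ ∈ S := Finset.mem_erase.mpr ⟨hζ1, H.zeta_mem⟩
  have hζ'S : ζ' ∈ S := Finset.mem_erase.mpr ⟨hζ'1, hζ'mem⟩
  obtain ⟨ρ₀, η₀, hρ₀⟩ := hpowg
  obtain ⟨ρ₁, η₁, hρ₁⟩ := hpowS ζ hζS
  obtain ⟨ρ₂, η₂, hρ₂⟩ := hpowS ζ' hζ'S
  have hl1 : ¬ l ∣ ρ₁ := fun hd =>
    hfη ζ H.zeta_mem hζ1 (hρ₁ ▸ dvd_mul_of_dvd_left (dvd_pow hd H.hp.ne_zero) _)
  have hl2 : ¬ l ∣ ρ₂ := fun hd =>
    hfη ζ' hζ'mem hζ'1 (hρ₂ ▸ dvd_mul_of_dvd_left (dvd_pow hd H.hp.ne_zero) _)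
  have hl0' : ¬ l ∣ ρ₀ := fun hd =>
    hgl (hρ₀ ▸ dvd_mul_of_dvd_left (dvd_pow hd H.hp.ne_zero) _)
  have e1 : f ζ = ρ₁ ^ p * η₁ := hρ₁.symm
  have e2 : f ζ' = ρ₂ ^ p * η₂ := hρ₂.symm
  have e0 : g = ρ₀ ^ p * η₀ := hρ₀.symm
  refine ⟨hn, ρ₀, ρ₁, ρ₂, η₀, η₁, η₂, ?_, ?_, ?_, hl0', hl1, hl2, ?_⟩
  · have h1 := hf 1 H.one_mem
    rw [one_mul, hg, e0] at h1
    rw [h1, pow_succ]; ring
  · have h1 := hf ζ H.zeta_mem
    rw [e1] at h1
    rw [h1]; ring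
  · have h1 := hf ζ' hζ'mem
    rw [e2] at h1
    rw [h1]; ring
  · have hc := hcopS ζ hζS ζ' hζ'S hne
    rw [e1, e2] at hc
    exact (IsCoprime.pow_iff H.p_pos H.p_pos).mp hc.of_mul_left_left.of_mul_right_left

/-- **Steps A+B**: for a solution of the generalised equation there is a twist `ζ ^ k` of `b` and
the `λ`-adic valuation `m ≥ 2` of `c` such that the three factors `i = 0, 1, -1` of
`a ^ p + (ζ ^ k b) ^ p` are units times `p`-th powers times the expected power of `λ`. -/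
theorem pow_decomp (h : IsSol p ζ a b c u) :
    ∃ (k m : ℕ) (X₀ X₁ X₂ : R) (u₀ u₁ u₂ : Rˣ), 2 ≤ m ∧ (ζ - 1) ^ m ∣ c ∧
      ¬ (ζ - 1) ^ (m + 1) ∣ c ∧
      a + ζ ^ k * b = u₀ * (ζ - 1) ^ (p * (m - 1) + 1) * X₀ ^ p ∧
      a + ζ * (ζ ^ k * b) = u₁ * (ζ - 1) * X₁ ^ p ∧
      a + ζ ^ (p - 1) * (ζ ^ k * b) = u₂ * (ζ - 1) * X₂ ^ p ∧
      ¬ (ζ - 1) ∣ X₀ ∧ ¬ (ζ - 1) ∣ X₁ ∧ ¬ (ζ - 1) ∣ X₂ ∧ IsCoprime X₁ X₂ := by
  obtain ⟨η, hη, hη2⟩ := H.exists_lam_sq_dvd h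
  have : NeZero p := ⟨H.hp.ne_zero⟩
  obtain ⟨k, -, rfl⟩ := H.hζ.eq_pow_of_pow_eq_one (H.pow_eq_one_of_mem hη)
  have h' := H.isSol_mul h hη
  have hfin : FiniteMultiplicity (ζ - 1) c :=
    FiniteMultiplicity.of_not_isUnit H.hlam.not_isUnit h.hc
  obtain ⟨m, c₀, hcm, hc₀⟩ : ∃ (m : ℕ) (c₀ : R), c = (ζ - 1) ^ m * c₀ ∧ ¬ (ζ - 1) ∣ c₀ := by
    obtain ⟨c₀, hc, hc₀⟩ := hfin.exists_eq_pow_mul_and_not_dvd
    exact ⟨_, c₀, hc, hc₀⟩
  obtain ⟨n, rfl⟩ : ∃ n, m = n + 1 := by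
    refine ⟨m - 1, (Nat.sub_add_cancel ?_).symm⟩
    by_contra hm
    have hm0 : m = 0 := by omega
    rw [hm0, pow_zero, one_mul] at hcm
    exact hc₀ (hcm ▸ h.hcdvd)
  rw [hcm] at h'
  obtain ⟨hn, ρ₀, ρ₁, ρ₂, η₀, η₁, η₂, h0, h1, h2, hl0, hl1, hl2, hcop⟩ :=
    H.pow_decomp_aux h' hc₀ hη2
  refine ⟨k, n + 1, ρ₀, ρ₁, ρ₂, η₀, η₁, η₂, by omega, hcm ▸ dvd_mul_right _ _, ?_, ?_, h1, h2,
    hl0, hl1, hl2, hcop⟩
  · rw [hcm, pow_succ]
    intro hd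
    exact hc₀ ((mul_dvd_mul_iff_left (pow_ne_zero _ H.lam_ne_zero)).mp hd)
  · rw [Nat.add_sub_cancel]; exact h0

end CaseIISetting

end Fermat.Agent.Lib.Kummer
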