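/-
KUMMER project, piece (C2), step C + wrap-up: the descent step of case II in the class number one
case, and the reduction of `CaseIIHolds p` to the generalised equation over `𝓞 K`. (helper4)
-/
import Mathlib
import Fermat.Agent.Lib.Kummer.Defs

set_option autoImplicit false
set_option linter.unusedSectionVars false

open NumberField Polynomial

namespace Fermat.Agent.Lib.Kummer

section Basic

variable {p : ℕ} [hpri : Fact p.Prime] {K : Type*} [Field K] [NumberField K]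
  [IsCyclotomicExtension {p} ℚ K] {ζ : K} (hζ : IsPrimitiveRoot ζ p)

include hζ in
/-- Every `p`-th power in `𝓞 K` is congruent to a rational integer modulo `p`. -/
theorem h4_exists_int_sub_pow_prime_dvd (x : 𝓞 K) : ∃ n : ℤ, (p : 𝓞 K) ∣ x ^ p - n := by
  have hgen : hζ.integralPowerBasis.gen = hζ.toInteger := hζ.integralPowerBasis_gen
  obtain ⟨f, hf⟩ := hζ.integralPowerBasis.exists_eq_aeval' x
  rw [hgen] at hf
  subst hf
  induction f using Polynomial.induction_on' with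
  | add f g hf hg =>
    obtain ⟨n₁, h₁⟩ := hf
    obtain ⟨n₂, h₂⟩ := hg
    obtain ⟨r, hr⟩ := exists_add_pow_prime_eq hpri.out (aeval hζ.toInteger f) (aeval hζ.toInteger g)
    refine ⟨n₁ + n₂, ?_⟩
    rw [map_add, hr]
    have : (aeval hζ.toInteger f) ^ p + (aeval hζ.toInteger g) ^ p +
        (p : 𝓞 K) * aeval hζ.toInteger f * aeval hζ.toInteger g * r - ((n₁ + n₂ : ℤ) : 𝓞 K) =
        ((aeval hζ.toInteger f) ^ p - n₁) + ((aeval hζ.toInteger g) ^ p - n₂) +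
        (p : 𝓞 K) * (aeval hζ.toInteger f * aeval hζ.toInteger g * r) := by
      push_cast; ring
    rw [this]
    exact dvd_add (dvd_add h₁ h₂) (dvd_mul_right _ _)
  | monomial n c =>
    refine ⟨c ^ p, ?_⟩
    rw [aeval_monomial, mul_pow, ← pow_mul, mul_comm n p, pow_mul,
      hζ.toInteger_isPrimitiveRoot.pow_eq_one, one_pow, mul_one]
    simp

/-- `1 + ζ` is a unit of `𝓞 K` when `p` is odd. -/
theorem h4_isUnit_one_add_zeta (hp2 : p ≠ 2) : IsUnit (1 + hζ.toInteger) := by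
  have hodd : Odd p := hpri.out.odd_of_ne_two hp2
  obtain ⟨k, hk⟩ := hodd
  have hne : hζ.toInteger - 1 ≠ 0 := hζ.zeta_sub_one_prime'.ne_zero
  have h1 : hζ.toInteger ^ 2 - 1 ∣ (hζ.toInteger ^ 2) ^ (k + 1) - 1 := by
    simpa using sub_dvd_pow_sub_pow (hζ.toInteger ^ 2) 1 (k + 1)
  have h2 : (hζ.toInteger ^ 2) ^ (k + 1) = hζ.toInteger := by
    rw [← pow_mul, show 2 * (k + 1) = p + 1 by omega, pow_succ,
      hζ.toInteger_isPrimitiveRoot.pow_eq_one, one_mul]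
  rw [h2, show hζ.toInteger ^ 2 - 1 = (hζ.toInteger - 1) * (1 + hζ.toInteger) by ring] at h1
  have h3 : (hζ.toInteger - 1) * (1 + hζ.toInteger) ∣ (hζ.toInteger - 1) * 1 := by
    rwa [mul_one]
  exact isUnit_of_dvd_one ((mul_dvd_mul_iff_left hne).mp h3)

/-- `p` divides `λ ^ n` as soon as `p - 1 ≤ n`. -/
theorem h4_prime_dvd_lambda_pow {n : ℕ} (hn : p - 1 ≤ n) :
    (p : 𝓞 K) ∣ (hζ.toInteger - 1) ^ n := by
  have h := (IsCyclotomicExtension.Rat.associated_zeta_sub_one_pow_prime p hζ).symm.dvd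
  exact h.trans (pow_dvd_pow _ hn)

/-- `λ` divides `p`-multiples. -/
theorem h4_lambda_dvd_of_prime_dvd {x : 𝓞 K} (h : (p : 𝓞 K) ∣ x) : hζ.toInteger - 1 ∣ x :=
  hζ.toInteger_sub_one_dvd_prime'.trans h

/-- **Step C** (descent step of case II): from the `p`-th power decomposition of the three factors
`i = 0, 1, -1` of `a ^ p + b ^ p`, Kummer's lemma produces a solution of the generalised equation
with `λ`-adic valuation of the right hand side decreased by one. -/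
theorem h4_descent_core (hp2 : p ≠ 2) (hKL : KummersLemmaHolds p K)
    {a b X₀ X₁ X₂ : 𝓞 K} {u₀ u₁ u₂ : (𝓞 K)ˣ} {m : ℕ} (hm : 2 ≤ m)
    (h0 : a + b = u₀ * (hζ.toInteger - 1) ^ (p * (m - 1) + 1) * X₀ ^ p)
    (h1 : a + hζ.toInteger * b = u₁ * (hζ.toInteger - 1) * X₁ ^ p)
    (h2 : a + hζ.toInteger ^ (p - 1) * b = u₂ * (hζ.toInteger - 1) * X₂ ^ p)
    (hX2 : ¬ hζ.toInteger - 1 ∣ X₂) :
    ∃ v u' : (𝓞 K)ˣ,
      X₁ ^ p + ((v : 𝓞 K) * X₂) ^ p = u' * ((hζ.toInteger - 1) ^ (m - 1) * X₀) ^ p := by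
  set z := hζ.toInteger with hz
  set l := z - 1 with hl
  have hppos : 0 < p := hpri.out.pos
  have hzp : z ^ p = 1 := hζ.toInteger_isPrimitiveRoot.pow_eq_one
  have hzz : z * z ^ (p - 1) = 1 := by
    rw [← pow_succ', Nat.sub_add_cancel hppos, hzp]
  have hlne : l ≠ 0 := hζ.zeta_sub_one_prime'.ne_zero
  -- the unit `ζ`
  have hzunit : IsUnit z := IsUnit.of_mul_eq_one _ hzz
  obtain ⟨zu, hzu⟩ := hzunit
  obtain ⟨wu, hwu⟩ := h4_isUnit_one_add_zeta hζ hp2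
  -- three-term identity
  have hid : (a + z * b) + z * (a + z ^ (p - 1) * b) = (1 + z) * (a + b) := by
    have : z * (z ^ (p - 1) * b) = b := by rw [← mul_assoc, hzz, one_mul]
    rw [mul_add, this]; ring
  rw [h0, h1, h2] at hid
  have hid2 : (u₁ : 𝓞 K) * X₁ ^ p + z * u₂ * X₂ ^ p =
      (1 + z) * u₀ * l ^ (p * (m - 1)) * X₀ ^ p := by
    apply mul_left_cancel₀ hlne
    rw [pow_succ] at hid
    linear_combination hid
  set η : (𝓞 K)ˣ := u₁⁻¹ * zu * u₂ with hη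
  set u' : (𝓞 K)ˣ := u₁⁻¹ * wu * u₀ with hu'
  have hid3 : X₁ ^ p + (η : 𝓞 K) * X₂ ^ p = u' * (l ^ (m - 1) * X₀) ^ p := by
    have hinv : ((u₁⁻¹ : (𝓞 K)ˣ) : 𝓞 K) * u₁ = 1 := by
      rw [← Units.val_mul, inv_mul_cancel, Units.val_one]
    have e1 : (η : 𝓞 K) = ((u₁⁻¹ : (𝓞 K)ˣ) : 𝓞 K) * z * u₂ := by
      rw [hη, Units.val_mul, Units.val_mul, hzu]
    have e2 : (u' : 𝓞 K) = ((u₁⁻¹ : (𝓞 K)ˣ) : 𝓞 K) * (1 + z) * u₀ := by
      rw [hu', Units.val_mul, Units.val_mul, hwu]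
    rw [e1, e2, mul_pow, ← pow_mul, mul_comm (m - 1) p]
    linear_combination ((u₁⁻¹ : (𝓞 K)ˣ) : 𝓞 K) * hid2 - X₁ ^ p * hinv
  -- `η` is congruent to an integer modulo `p`
  obtain ⟨n₁, hn₁⟩ := h4_exists_int_sub_pow_prime_dvd hζ X₁
  obtain ⟨n₂, hn₂⟩ := h4_exists_int_sub_pow_prime_dvd hζ X₂
  have hpl : (p : 𝓞 K) ∣ (l ^ (m - 1) * X₀) ^ p := by
    rw [mul_pow, ← pow_mul]
    refine Dvd.dvd.mul_right (h4_prime_dvd_lambda_pow hζ ?_) _
    calc p - 1 ≤ p := Nat.sub_le _ _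
      _ ≤ (m - 1) * p := Nat.le_mul_of_pos_left _ (by omega)
  have hn₂' : ¬ (p : ℤ) ∣ n₂ := by
    intro hdvd
    have h3 : l ∣ (n₂ : 𝓞 K) :=
      (IsCyclotomicExtension.Rat.zeta_sub_one_dvd_intCast_iff' p hζ).mpr hdvd
    have h4 : l ∣ X₂ ^ p := by
      have := dvd_add (h4_lambda_dvd_of_prime_dvd hζ hn₂) h3
      rwa [sub_add_cancel] at this
    exact hX2 (hζ.zeta_sub_one_prime'.dvd_of_dvd_pow h4)
  have hcop : IsCoprime n₂ (p : ℤ) := by
    rw [isCoprime_comm]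
    exact (Nat.prime_iff_prime_int.mp hpri.out).coprime_iff_not_dvd.mpr hn₂'
  obtain ⟨k, j, hkj⟩ := hcop
  have hηint : ∃ n : ℤ, (p : 𝓞 K) ∣ (η : 𝓞 K) - n := by
    refine ⟨-(k * n₁), ?_⟩
    obtain ⟨r₁, hr₁⟩ := hn₁
    obtain ⟨r₂, hr₂⟩ := hn₂
    obtain ⟨r₃, hr₃⟩ := hpl
    have hkj' : (k : 𝓞 K) * n₂ + j * p = 1 := by exact_mod_cast congrArg (Int.cast : ℤ → 𝓞 K) hkj
    refine ⟨(η : 𝓞 K) * j + k * (u' * r₃ - r₁ - η * r₂), ?_⟩
    push_cast
    linear_combination (-(η : 𝓞 K)) * hkj' + (k : 𝓞 K) * hid3 + (k : 𝓞 K) * (u' : 𝓞 K) * hr₃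
      - (k : 𝓞 K) * hr₁ - (k : 𝓞 K) * (η : 𝓞 K) * hr₂
  obtain ⟨v, hv⟩ := hKL η hηint
  refine ⟨v, u', ?_⟩
  rw [mul_pow, ← Units.val_pow_eq_pow_val, ← hv]
  exact hid3

/-- The output of steps A+B of case II (helper2): the `p`-th power decomposition of the three
factors `i = 0, 1, -1` of `a ^ p + (ζ ^ k b) ^ p`, for a suitable twist `k`. -/
def PowDecomposition (hζ : IsPrimitiveRoot ζ p) : Prop :=
  ∀ {a b c : 𝓞 K} {u : (𝓞 K)ˣ}, ¬ hζ.toInteger - 1 ∣ a → ¬ hζ.toInteger - 1 ∣ b → c ≠ 0 →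
    IsCoprime a b → hζ.toInteger - 1 ∣ c → a ^ p + b ^ p = u * c ^ p →
    ∃ (k m : ℕ) (X₀ X₁ X₂ : 𝓞 K) (u₀ u₁ u₂ : (𝓞 K)ˣ), 2 ≤ m ∧ (hζ.toInteger - 1) ^ m ∣ c ∧
      ¬ (hζ.toInteger - 1) ^ (m + 1) ∣ c ∧
      a + hζ.toInteger ^ k * b = u₀ * (hζ.toInteger - 1) ^ (p * (m - 1) + 1) * X₀ ^ p ∧
      a + hζ.toInteger * (hζ.toInteger ^ k * b) = u₁ * (hζ.toInteger - 1) * X₁ ^ p ∧
      a + hζ.toInteger ^ (p - 1) * (hζ.toInteger ^ k * b) = u₂ * (hζ.toInteger - 1) * X₂ ^ p ∧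
      ¬ hζ.toInteger - 1 ∣ X₀ ∧ ¬ hζ.toInteger - 1 ∣ X₁ ∧ ¬ hζ.toInteger - 1 ∣ X₂ ∧
      IsCoprime X₁ X₂

/-- The generalised equation `a ^ p + b ^ p = u * c ^ p` has no solution with `λ ∤ ab`, `λ ∣ c`,
`c ≠ 0`, `a`, `b` coprime (by descent on the `λ`-adic valuation of `c`). -/
theorem h4_no_gen_solution (hp2 : p ≠ 2) (hKL : KummersLemmaHolds p K)
    (hAB : PowDecomposition hζ) :
    ∀ (m : ℕ) (a b c : 𝓞 K) (u : (𝓞 K)ˣ), ¬ hζ.toInteger - 1 ∣ a → ¬ hζ.toInteger - 1 ∣ b →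
      c ≠ 0 → IsCoprime a b → hζ.toInteger - 1 ∣ c → (hζ.toInteger - 1) ^ m ∣ c →
      ¬ (hζ.toInteger - 1) ^ (m + 1) ∣ c → a ^ p + b ^ p ≠ u * c ^ p := by
  intro m
  induction m using Nat.strong_induction_on with
  | _ m ih =>
    intro a b c u ha hb hc hcop hcdvd hm hm' H
    have hlprime : Prime (hζ.toInteger - 1) := hζ.zeta_sub_one_prime'
    have hlne : hζ.toInteger - 1 ≠ 0 := hlprime.ne_zero
    obtain ⟨k, m₁, X₀, X₁, X₂, u₀, u₁, u₂, hm₁, hdvd₁, hndvd₁, h0, h1, h2, hX0, hX1, hX2,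
      hcopX⟩ := hAB ha hb hc hcop hcdvd H
    -- the two valuations agree
    have hmm : m₁ = m := by
      apply le_antisymm
      · by_contra hlt
        push Not at hlt
        exact hm' ((pow_dvd_pow _ hlt).trans hdvd₁)
      · by_contra hlt
        push Not at hlt
        exact hndvd₁ ((pow_dvd_pow _ hlt).trans hm)
    subst hmm
    obtain ⟨v, u', hnew⟩ := h4_descent_core hζ hp2 hKL hm₁ h0 h1 h2 hX2
    have hX0ne : X₀ ≠ 0 := fun h => hX0 (h ▸ dvd_zero _)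
    refine ih (m₁ - 1) (by omega) X₁ ((v : 𝓞 K) * X₂) ((hζ.toInteger - 1) ^ (m₁ - 1) * X₀) u'
      hX1 ?_ ?_ ?_ ?_ ?_ ?_ hnew
    · intro h
      exact hX2 ((Units.dvd_mul_left).mp h)
    · exact mul_ne_zero (pow_ne_zero _ hlne) hX0ne
    · exact (isCoprime_mul_unit_left_right v.isUnit _ _).mpr hcopX
    · exact Dvd.dvd.mul_right (dvd_pow_self _ (by omega)) _
    · exact dvd_mul_right _ _
    · intro h
      rw [show m₁ - 1 + 1 = (m₁ - 1) + 1 from rfl, pow_succ,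
        mul_dvd_mul_iff_left (pow_ne_zero _ hlne)] at h
      exact hX0 h

end Basic

section Integers

/-- Case II over `ℤ` reduces to the case where `p` divides `c` only. -/
theorem h4_caseII_of_dvd_only_c {p : ℕ} [hpri : Fact p.Prime] (hp2 : p ≠ 2)
    (H : ∀ a b c : ℤ, c ≠ 0 → ¬ (p : ℤ) ∣ a → ¬ (p : ℤ) ∣ b → (p : ℤ) ∣ c → IsCoprime a b →
      a ^ p + b ^ p ≠ c ^ p) : CaseIIHolds p := by
  intro a b c habc hgcd hdvd hF
  have hpp : Prime (p : ℤ) := Nat.prime_iff_prime_int.mp hpri.out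
  have hodd : Odd p := hpri.out.odd_of_ne_two hp2
  have hp0 : p ≠ 0 := hpri.out.ne_zero
  have ha0 : a ≠ 0 := fun h => habc (by simp [h])
  have hb0 : b ≠ 0 := fun h => habc (by simp [h])
  have hc0 : c ≠ 0 := fun h => habc (by simp [h])
  -- no prime divides all three
  have h3 : ∀ q : ℤ, Prime q → q ∣ a → q ∣ b → q ∣ c → False := by
    intro q hq hqa hqb hqc
    apply hq.not_dvd_one
    rw [← hgcd]
    refine Finset.dvd_gcd_iff.mpr fun x hx => ?_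
    simp only [Finset.mem_insert, Finset.mem_singleton] at hx
    rcases hx with rfl | rfl | rfl <;> simpa
  -- no prime divides two of them
  have hab : ∀ q : ℤ, Prime q → q ∣ a → q ∣ b → False := fun q hq hqa hqb =>
    h3 q hq hqa hqb (hq.dvd_of_dvd_pow (n := p)
      (hF ▸ dvd_add (dvd_pow hqa hp0) (dvd_pow hqb hp0)))
  have hac : ∀ q : ℤ, Prime q → q ∣ a → q ∣ c → False := fun q hq hqa hqc =>
    h3 q hq hqa (hq.dvd_of_dvd_pow (n := p) (by
      have : b ^ p = c ^ p - a ^ p := by rw [← hF]; ring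
      rw [this]
      exact dvd_sub (dvd_pow hqc hp0) (dvd_pow hqa hp0))) hqc
  have hbc : ∀ q : ℤ, Prime q → q ∣ b → q ∣ c → False := fun q hq hqb hqc =>
    h3 q hq (hq.dvd_of_dvd_pow (n := p) (by
      have : a ^ p = c ^ p - b ^ p := by rw [← hF]; ring
      rw [this]
      exact dvd_sub (dvd_pow hqc hp0) (dvd_pow hqb hp0))) hqb hqc
  rcases (hpp.dvd_mul.mp hdvd) with hpab | hpc
  · rcases (hpp.dvd_mul.mp hpab) with hpa | hpb
    · -- `p ∣ a`: use `c ^ p + (-b) ^ p = a ^ p`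
      refine H c (-b) a ha0 (fun h => hac _ hpp hpa h) (fun h => hab _ hpp hpa ((dvd_neg).mp h))
        hpa ?_ ?_
      · refine isCoprime_of_prime_dvd (fun h => hc0 h.1) fun q hq hqc hqb => ?_
        exact hbc q hq ((dvd_neg).mp hqb) hqc
      · rw [hodd.neg_pow, ← hF]; ring
    · -- `p ∣ b`: use `c ^ p + (-a) ^ p = b ^ p`
      refine H c (-a) b hb0 (fun h => hbc _ hpp hpb h) (fun h => hab _ hpp ((dvd_neg).mp h) hpb)
        hpb ?_ ?_
      · refine isCoprime_of_prime_dvd (fun h => hc0 h.1) fun q hq hqc hqa => ?_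
        exact hac q hq ((dvd_neg).mp hqa) hqc
      · rw [hodd.neg_pow, ← hF]; ring
  · refine H a b c hc0 (fun h => hac _ hpp h hpc) (fun h => hbc _ hpp h hpc) hpc ?_ hF
    exact isCoprime_of_prime_dvd (fun h => ha0 h.1) fun q hq hqa hqb => hab q hq hqa hqb

variable {p : ℕ} [hpri : Fact p.Prime] {K : Type*} [Field K] [NumberField K]
  [IsCyclotomicExtension {p} ℚ K] {ζ : K} (hζ : IsPrimitiveRoot ζ p)

include hζ in
/-- Case II from the non-existence of solutions of the generalised equation. -/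
theorem h4_caseII_of_gen (hp2 : p ≠ 2)
    (hgen : ∀ (a b c : 𝓞 K) (u : (𝓞 K)ˣ), ¬ hζ.toInteger - 1 ∣ a → ¬ hζ.toInteger - 1 ∣ b →
      c ≠ 0 → IsCoprime a b → hζ.toInteger - 1 ∣ c → a ^ p + b ^ p ≠ u * c ^ p) :
    CaseIIHolds p := by
  refine h4_caseII_of_dvd_only_c hp2 fun a b c hc ha hb hpc hcop hF => ?_
  have hiff := fun n : ℤ => IsCyclotomicExtension.Rat.zeta_sub_one_dvd_intCast_iff' p hζ (n := n)
  refine hgen (a : 𝓞 K) (b : 𝓞 K) (c : 𝓞 K) 1 (fun h => ha ((hiff a).mp h))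
    (fun h => hb ((hiff b).mp h)) (by exact_mod_cast hc) hcop.intCast ((hiff c).mpr hpc) ?_
  rw [Units.val_one, one_mul]
  exact_mod_cast congrArg (Int.cast : ℤ → 𝓞 K) hF

include hζ in
/-- **Case II** in the class number one case, from Kummer's lemma and the decomposition of
steps A+B. -/
theorem h4_caseII_of_powDecomposition (hp2 : p ≠ 2) (hKL : KummersLemmaHolds p K)
    (hAB : PowDecomposition hζ) : CaseIIHolds p := by
  refine h4_caseII_of_gen hζ hp2 fun a b c u ha hb hc hcop hcdvd => ?_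
  have hlprime : Prime (hζ.toInteger - 1) := hζ.zeta_sub_one_prime'
  have hfin : FiniteMultiplicity (hζ.toInteger - 1) c :=
    FiniteMultiplicity.of_not_isUnit hlprime.not_isUnit hc
  exact h4_no_gen_solution hζ hp2 hKL hAB (multiplicity (hζ.toInteger - 1) c) a b c u ha hb hc
    hcop hcdvd (pow_multiplicity_dvd _ _) (hfin.not_pow_dvd_of_multiplicity_lt (Nat.lt_succ_self _))

end Integers

end Fermat.Agent.Lib.Kummer
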