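/-
KUMMER project, piece (C2): case II of Fermat's Last Theorem for a prime `p ≥ 5` such that the ring
of integers of the `p`-th cyclotomic field is a principal ideal domain, assuming Kummer's lemma.
Steps A+B (helper2) are the abstract `CaseIISetting.pow_decomp`, instantiated here for `𝓞 K`;
step C and the wrap-up are helper4's `h4_caseII_of_powDecomposition`.
-/
import Mathlib
import Fermat.Agent.Lib.Kummer.Defs
import Fermat.Agent.Lib.Kummer.CaseIIAbstract
import Fermat.Agent.Lib.Kummer.CaseIIDescent

set_option autoImplicit false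
set_option linter.unusedSectionVars false

open NumberField Polynomial

namespace Fermat.Agent.Lib.Kummer

variable {p : ℕ} [hpri : Fact p.Prime] {K : Type*} [Field K] [NumberField K]
  [IsCyclotomicExtension {p} ℚ K] {ζ : K} (hζ : IsPrimitiveRoot ζ p)

/-- The ring of integers of the `p`-th cyclotomic field satisfies the abstract hypotheses of the
case II descent. -/
theorem caseIISetting_toInteger (hp2 : p ≠ 2) : CaseIISetting (𝓞 K) p hζ.toInteger where
  hp := hpri.out
  hodd := hp2
  hζ := hζ.toInteger_isPrimitiveRoot
  hlam := hζ.zeta_sub_one_prime'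
  hcard := by
    rw [hζ.card_quotient_toInteger_sub_one, hζ.norm_toInteger_sub_one_of_prime_ne_two' hp2]
    simp

/-- **Steps A+B of case II** in the class number one case. -/
theorem powDecomposition_of_pid (hp2 : p ≠ 2) [IsPrincipalIdealRing (𝓞 K)] :
    PowDecomposition hζ := by
  intro a b c u ha hb hc hcop hcdvd heq
  exact (caseIISetting_toInteger hζ hp2).pow_decomp ⟨ha, hb, hc, hcdvd, hcop, heq⟩

end Fermat.Agent.Lib.Kummer

namespace Fermat.Agent.Lib.Kummer

/-- **Case II** of Fermat's Last Theorem for `p` in the class number one case, from Kummer's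
lemma. -/
theorem caseII_of_pid {p : ℕ} [hpri : Fact p.Prime] (hp5 : 5 ≤ p) (K : Type*) [Field K]
    [NumberField K] [IsCyclotomicExtension {p} ℚ K] [IsPrincipalIdealRing (𝓞 K)]
    (hKL : KummersLemmaHolds p K) : CaseIIHolds p := by
  have hp2 : p ≠ 2 := by omega
  have : NeZero p := ⟨hpri.out.ne_zero⟩
  have hζ := IsCyclotomicExtension.zeta_spec p ℚ K
  exact h4_caseII_of_powDecomposition hζ hp2 hKL (powDecomposition_of_pid hζ hp2)

end Fermat.Agent.Lib.Kummer
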