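/-
Kummer project (S10, S11): tools for proving that the ring of integers of a cyclotomic field of
prime conductor is a PID (Minkowski bound criterion): primes with large residue degree, primes
generated by an element of prime norm, and norms of polynomial expressions in a root of unity as
explicit products of conjugates.
-/
import Mathlib

set_option autoImplicit false

noncomputable section

namespace Fermat.Agent.Lib.Kummer

open NumberField Polynomial Finset Ideal IsCyclotomicExtension.Rat

section Primes

variable (K : Type*) [Field K] [NumberField K]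

/-- a prime over an unramified rational prime whose norm exceeds the bound `B` -/
theorem exists_prime_over_large (m : ℕ) [NeZero m] [IsCyclotomicExtension {m} ℚ K] (p : ℕ)
    (hp : p.Prime) (hm : ¬ p ∣ m) (B : ℕ) (f : ℕ) (hf : f ≤ orderOf (p : ZMod m))
    (hB : B < p ^ f) :
    ∃ P ∈ primesOver (span {(p : ℤ)}) (𝓞 K), B < p ^ P.inertiaDeg ℤ ∨
      Submodule.IsPrincipal P := by
  have : Fact p.Prime := ⟨hp⟩
  obtain ⟨⟨P, hP1, hP2⟩⟩ := (span {(p : ℤ)}).nonempty_primesOver (S := 𝓞 K)
  refine ⟨P, ⟨hP1, hP2⟩, Or.inl ?_⟩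
  rw [inertiaDeg_eq_of_not_dvd p K P hm]
  exact lt_of_lt_of_le hB (Nat.pow_le_pow_right hp.pos hf)

/-- an element whose norm is (up to sign) a prime `q` generates a prime ideal over `q` -/
theorem exists_principal_prime_over (q : ℕ) (hq : q.Prime) (B : ℕ) (α : 𝓞 K)
    (hα : (Algebra.norm ℤ α).natAbs = q) :
    ∃ P ∈ primesOver (span {(q : ℤ)}) (𝓞 K), B < q ^ P.inertiaDeg ℤ ∨
      Submodule.IsPrincipal P := by
  have : Fact q.Prime := ⟨hq⟩
  have hN : absNorm (span {α}) = q := by rw [absNorm_span_singleton, hα]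
  have hprime : (span {α}).IsPrime :=
    isPrime_of_irreducible_absNorm (hN ▸ hq.prime.irreducible)
  refine ⟨span {α}, ⟨hprime, ?_⟩, Or.inr ⟨α, rfl⟩⟩
  rw [liesOver_iff]
  refine IsMaximal.eq_of_le (Int.ideal_span_isMaximal_of_prime q) IsPrime.ne_top' ?_
  rw [span_singleton_le_iff_mem, mem_comap, algebraMap_int_eq, eq_intCast, Int.cast_natCast]
  have := absNorm_mem (span {α})
  rwa [hN] at this

/-- the ramified prime of a cyclotomic field of prime conductor is principal -/
theorem exists_principal_prime_over_self (p : ℕ) [hp : Fact p.Prime]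
    [IsCyclotomicExtension {p} ℚ K] (B : ℕ) :
    ∃ P ∈ primesOver (span {(p : ℤ)}) (𝓞 K), B < p ^ P.inertiaDeg ℤ ∨
      Submodule.IsPrincipal P := by
  have hζ := IsCyclotomicExtension.zeta_spec p ℚ K
  have h1 : IsCyclotomicExtension {p ^ (0 + 1)} ℚ K := by rwa [zero_add, pow_one]
  have h2 : IsPrimitiveRoot (IsCyclotomicExtension.zeta p ℚ K) (p ^ (0 + 1)) := by
    rwa [zero_add, pow_one]
  exact ⟨span {h2.toInteger - 1}, ⟨isPrime_span_zeta_sub_one p 0 h2,
    liesOver_span_zeta_sub_one p 0 h2⟩, Or.inr ⟨_, rfl⟩⟩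

end Primes

section NormProd

variable {n : ℕ} [NeZero n] {K : Type*} [Field K] [NumberField K] [IsCyclotomicExtension {n} ℚ K]
  {ζ : K} (hζ : IsPrimitiveRoot ζ n)

include hζ in
/-- the norm of a polynomial expression in `ζ` is the product over all primitive roots -/
theorem norm_aeval_eq_prod_primitiveRoots (f : ℚ[X]) :
    algebraMap ℚ (AlgebraicClosure K) (Algebra.norm ℚ (aeval ζ f)) =
      ∏ μ ∈ primitiveRoots n (AlgebraicClosure K), aeval μ f := by
  have hirr : Irreducible (cyclotomic n ℚ) := cyclotomic.irreducible_rat (NeZero.pos n)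
  have := IsCyclotomicExtension.finiteDimensional {n} ℚ K
  have := IsCyclotomicExtension.isGalois {n} ℚ K
  rw [Algebra.norm_eq_prod_embeddings]
  rw [← Finset.prod_attach (primitiveRoots n (AlgebraicClosure K)), ← univ_eq_attach]
  refine Fintype.prod_equiv (hζ.embeddingsEquivPrimitiveRoots (AlgebraicClosure K) hirr) _ _
    fun σ => ?_
  rw [IsPrimitiveRoot.embeddingsEquivPrimitiveRoots_apply_coe, aeval_algHom_apply]

end NormProd

section PrimRoots

variable {p : ℕ} [hp : Fact p.Prime] {E : Type*} [Field E] {μ : E} (hμ : IsPrimitiveRoot μ p)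

include hμ in
/-- a product over the primitive roots of prime order as a product over exponents -/
theorem prod_primitiveRoots_prime (g : E → E) :
    ∏ x ∈ primitiveRoots p E, g x = ∏ k ∈ Finset.Ico 1 p, g (μ ^ k) := by
  classical
  have hinj : Set.InjOn (fun k => μ ^ k) (Finset.Ico 1 p : Finset ℕ) := by
    intro i hi j hj hij
    rw [Finset.coe_Ico, Set.mem_Ico] at hi hj
    exact hμ.pow_inj hi.2 hj.2 hij
  have himage : (Finset.Ico 1 p).image (fun k => μ ^ k) = primitiveRoots p E := by
    apply Finset.eq_of_subset_of_card_le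
    · intro x hx
      rw [Finset.mem_image] at hx
      obtain ⟨k, hk, rfl⟩ := hx
      rw [Finset.mem_Ico] at hk
      rw [mem_primitiveRoots hp.out.pos]
      refine hμ.pow_of_coprime k ?_
      exact (Nat.coprime_comm.mp ((Nat.Prime.coprime_iff_not_dvd hp.out).mpr
        (Nat.not_dvd_of_pos_of_lt hk.1 hk.2)))
    · rw [Finset.card_image_of_injOn hinj, hμ.card_primitiveRoots, Nat.totient_prime hp.out,
        Nat.card_Ico]
  rw [← himage, Finset.prod_image hinj]

/-- norm of a polynomial expression in a primitive root of unity of prime order, as an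
explicit product in the algebraic closure -/
theorem norm_aeval_eq_prod_Ico {K : Type*} [Field K] [NumberField K]
    [IsCyclotomicExtension {p} ℚ K] {ζ : K} (hζ : IsPrimitiveRoot ζ p) (f : ℚ[X]) :
    algebraMap ℚ (AlgebraicClosure K) (Algebra.norm ℚ (aeval ζ f)) =
      ∏ k ∈ Finset.Ico 1 p, aeval ((algebraMap K (AlgebraicClosure K) ζ) ^ k) f := by
  have : NeZero p := ⟨hp.out.ne_zero⟩
  rw [norm_aeval_eq_prod_primitiveRoots hζ f]
  exact prod_primitiveRoots_prime
    (hζ.map_of_injective (algebraMap K (AlgebraicClosure K)).injective) (fun x => aeval x f)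

end PrimRoots

end Fermat.Agent.Lib.Kummer
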