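/-
Kummer project (S10, S11): the ring of integers of the eleventh cyclotomic field is a PID.
Minkowski bound below 60; the only primes needing an explicit generator are 11 and 23
(the element 1 + ζ + ζ ^ 3 has norm 23).
-/
import Mathlib
import Fermat.Agent.Lib.Kummer.PIDTools

set_option autoImplicit false

noncomputable section

namespace Fermat.Agent.Lib.Kummer

open NumberField Polynomial InfinitePlace Nat Real cyclotomic Ideal IsCyclotomicExtension.Rat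

theorem prod_conj_eleven {E : Type*} [CommRing E] (z : E) (h : z ^ 11 = 1)
    (hΦ : 1 + z + z ^ 2 + z ^ 3 + z ^ 4 + z ^ 5 + z ^ 6 + z ^ 7 + z ^ 8 + z ^ 9 + z ^ 10 = 0) :
    ∏ k ∈ Finset.Ico 1 11, (1 + z ^ k + (z ^ k) ^ 3) = 23 := by
  have t1 : (1 + z ^ 1 + (z ^ 1) ^ 3) = 1 + z + z ^ 3 := by ring
  have e2 : (1 + z + z ^ 3) * (1 + z ^ 2 + (z ^ 2) ^ 3) =
      1 + z + z ^ 2 + 2 * z ^ 3 + z ^ 5 + z ^ 6 + z ^ 7 + z ^ 9 := by
    linear_combination (0) * h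
  have e3 : (1 + z + z ^ 2 + 2 * z ^ 3 + z ^ 5 + z ^ 6 + z ^ 7 + z ^ 9) * (1 + z ^ 3 + (z ^ 3) ^ 3) =
      2 + 4 * z + z ^ 2 + 4 * z ^ 3 + 2 * z ^ 4 + 3 * z ^ 5 + 3 * z ^ 6 + 2 * z ^ 7 + z ^ 8 + 3 * z ^ 9 + 2 * z ^ 10 := by
    linear_combination (1 + 3 * z + z ^ 3 + z ^ 4 + z ^ 5 + z ^ 7) * h
  have e4 : (2 + 4 * z + z ^ 2 + 4 * z ^ 3 + 2 * z ^ 4 + 3 * z ^ 5 + 3 * z ^ 6 + 2 * z ^ 7 + z ^ 8 + 3 * z ^ 9 + 2 * z ^ 10) * (1 + z ^ 4 + (z ^ 4) ^ 3) =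
      6 + 7 * z + 8 * z ^ 2 + 7 * z ^ 3 + 8 * z ^ 4 + 9 * z ^ 5 + 7 * z ^ 6 + 9 * z ^ 7 + 5 * z ^ 8 + 7 * z ^ 9 + 8 * z ^ 10 := by
    linear_combination (4 + 3 * z + 7 * z ^ 2 + 3 * z ^ 3 + 4 * z ^ 4 + 2 * z ^ 5 + 3 * z ^ 6 + 3 * z ^ 7 + 2 * z ^ 8 + z ^ 9 + 3 * z ^ 10 + 2 * z ^ 11) * h
  have e5 : (6 + 7 * z + 8 * z ^ 2 + 7 * z ^ 3 + 8 * z ^ 4 + 9 * z ^ 5 + 7 * z ^ 6 + 9 * z ^ 7 + 5 * z ^ 8 + 7 * z ^ 9 + 8 * z ^ 10) * (1 + z ^ 5 + (z ^ 5) ^ 3) =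
      22 + 21 * z + 20 * z ^ 2 + 22 * z ^ 3 + 22 * z ^ 4 + 22 * z ^ 5 + 22 * z ^ 6 + 24 * z ^ 7 + 20 * z ^ 8 + 24 * z ^ 9 + 24 * z ^ 10 := by
    linear_combination (16 + 14 * z + 12 * z ^ 2 + 15 * z ^ 3 + 14 * z ^ 4 + 7 * z ^ 5 + 8 * z ^ 6 + 7 * z ^ 7 + 8 * z ^ 8 + 9 * z ^ 9 + 7 * z ^ 10 + 9 * z ^ 11 + 5 * z ^ 12 + 7 * z ^ 13 + 8 * z ^ 14) * h
  have e6 : (22 + 21 * z + 20 * z ^ 2 + 22 * z ^ 3 + 22 * z ^ 4 + 22 * z ^ 5 + 22 * z ^ 6 + 24 * z ^ 7 + 20 * z ^ 8 + 24 * z ^ 9 + 24 * z ^ 10) * (1 + z ^ 6 + (z ^ 6) ^ 3) =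
      66 + 65 * z + 66 * z ^ 2 + 66 * z ^ 3 + 66 * z ^ 4 + 70 * z ^ 5 + 68 * z ^ 6 + 67 * z ^ 7 + 61 * z ^ 8 + 66 * z ^ 9 + 68 * z ^ 10 := by
    linear_combination (44 + 44 * z + 46 * z ^ 2 + 44 * z ^ 3 + 44 * z ^ 4 + 48 * z ^ 5 + 24 * z ^ 6 + 22 * z ^ 7 + 21 * z ^ 8 + 20 * z ^ 9 + 22 * z ^ 10 + 22 * z ^ 11 + 22 * z ^ 12 + 22 * z ^ 13 + 24 * z ^ 14 + 20 * z ^ 15 + 24 * z ^ 16 + 24 * z ^ 17) * h
  have e7 : (66 + 65 * z + 66 * z ^ 2 + 66 * z ^ 3 + 66 * z ^ 4 + 70 * z ^ 5 + 68 * z ^ 6 + 67 * z ^ 7 + 61 * z ^ 8 + 66 * z ^ 9 + 68 * z ^ 10) * (1 + z ^ 7 + (z ^ 7) ^ 3) =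
      197 + 201 * z + 200 * z ^ 2 + 199 * z ^ 3 + 197 * z ^ 4 + 204 * z ^ 5 + 203 * z ^ 6 + 194 * z ^ 7 + 192 * z ^ 8 + 200 * z ^ 9 + 200 * z ^ 10 := by
    linear_combination (131 + 136 * z + 134 * z ^ 2 + 133 * z ^ 3 + 131 * z ^ 4 + 134 * z ^ 5 + 135 * z ^ 6 + 61 * z ^ 7 + 66 * z ^ 8 + 68 * z ^ 9 + 66 * z ^ 10 + 65 * z ^ 11 + 66 * z ^ 12 + 66 * z ^ 13 + 66 * z ^ 14 + 70 * z ^ 15 + 68 * z ^ 16 + 67 * z ^ 17 + 61 * z ^ 18 + 66 * z ^ 19 + 68 * z ^ 20) * h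
  have e8 : (197 + 201 * z + 200 * z ^ 2 + 199 * z ^ 3 + 197 * z ^ 4 + 204 * z ^ 5 + 203 * z ^ 6 + 194 * z ^ 7 + 192 * z ^ 8 + 200 * z ^ 9 + 200 * z ^ 10) * (1 + z ^ 8 + (z ^ 8) ^ 3) =
      596 + 598 * z + 601 * z ^ 2 + 603 * z ^ 3 + 591 * z ^ 4 + 595 * z ^ 5 + 600 * z ^ 6 + 598 * z ^ 7 + 592 * z ^ 8 + 595 * z ^ 9 + 592 * z ^ 10 := by
    linear_combination (399 + 397 * z + 401 * z ^ 2 + 404 * z ^ 3 + 394 * z ^ 4 + 391 * z ^ 5 + 397 * z ^ 6 + 404 * z ^ 7 + 203 * z ^ 8 + 194 * z ^ 9 + 192 * z ^ 10 + 200 * z ^ 11 + 200 * z ^ 12 + 197 * z ^ 13 + 201 * z ^ 14 + 200 * z ^ 15 + 199 * z ^ 16 + 197 * z ^ 17 + 204 * z ^ 18 + 203 * z ^ 19 + 194 * z ^ 20 + 192 * z ^ 21 + 200 * z ^ 22 + 200 * z ^ 23) * h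
  have e9 : (596 + 598 * z + 601 * z ^ 2 + 603 * z ^ 3 + 591 * z ^ 4 + 595 * z ^ 5 + 600 * z ^ 6 + 598 * z ^ 7 + 592 * z ^ 8 + 595 * z ^ 9 + 592 * z ^ 10) * (1 + z ^ 9 + (z ^ 9) ^ 3) =
      1797 + 1799 * z + 1784 * z ^ 2 + 1793 * z ^ 3 + 1783 * z ^ 4 + 1789 * z ^ 5 + 1790 * z ^ 6 + 1794 * z ^ 7 + 1787 * z ^ 8 + 1782 * z ^ 9 + 1785 * z ^ 10 := by
    linear_combination (1201 + 1201 * z + 1183 * z ^ 2 + 1190 * z ^ 3 + 1192 * z ^ 4 + 1194 * z ^ 5 + 1190 * z ^ 6 + 1196 * z ^ 7 + 1195 * z ^ 8 + 591 * z ^ 9 + 595 * z ^ 10 + 600 * z ^ 11 + 598 * z ^ 12 + 592 * z ^ 13 + 595 * z ^ 14 + 592 * z ^ 15 + 596 * z ^ 16 + 598 * z ^ 17 + 601 * z ^ 18 + 603 * z ^ 19 + 591 * z ^ 20 + 595 * z ^ 21 + 600 * z ^ 22 + 598 * z ^ 23 + 592 * z ^ 24 + 595 * z ^ 25 + 592 * z ^ 26) * h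
  have e10 : (1797 + 1799 * z + 1784 * z ^ 2 + 1793 * z ^ 3 + 1783 * z ^ 4 + 1789 * z ^ 5 + 1790 * z ^ 6 + 1794 * z ^ 7 + 1787 * z ^ 8 + 1782 * z ^ 9 + 1785 * z ^ 10) * (1 + z ^ 10 + (z ^ 10) ^ 3) =
      5389 + 5366 * z + 5366 * z ^ 2 + 5366 * z ^ 3 + 5366 * z ^ 4 + 5366 * z ^ 5 + 5366 * z ^ 6 + 5366 * z ^ 7 + 5366 * z ^ 8 + 5366 * z ^ 9 + 5366 * z ^ 10 := by
    linear_combination (3592 + 3567 * z + 3582 * z ^ 2 + 3573 * z ^ 3 + 3583 * z ^ 4 + 3577 * z ^ 5 + 3576 * z ^ 6 + 3572 * z ^ 7 + 3579 * z ^ 8 + 3584 * z ^ 9 + 1784 * z ^ 10 + 1793 * z ^ 11 + 1783 * z ^ 12 + 1789 * z ^ 13 + 1790 * z ^ 14 + 1794 * z ^ 15 + 1787 * z ^ 16 + 1782 * z ^ 17 + 1785 * z ^ 18 + 1797 * z ^ 19 + 1799 * z ^ 20 + 1784 * z ^ 21 + 1793 * z ^ 22 + 1783 * z ^ 23 + 1789 * z ^ 24 + 1790 * z ^ 25 + 1794 * z ^ 26 + 1787 * z ^ 27 + 1782 * z ^ 28 + 1785 * z ^ 29) * h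
  have efin : 5389 + 5366 * z + 5366 * z ^ 2 + 5366 * z ^ 3 + 5366 * z ^ 4 + 5366 * z ^ 5 + 5366 * z ^ 6 + 5366 * z ^ 7 + 5366 * z ^ 8 + 5366 * z ^ 9 + 5366 * z ^ 10 = 23 := by
    linear_combination (5366) * hΦ
  rw [Finset.prod_Ico_succ_top (show 1 ≤ 10 by norm_num), Finset.prod_Ico_succ_top (show 1 ≤ 9 by norm_num), Finset.prod_Ico_succ_top (show 1 ≤ 8 by norm_num), Finset.prod_Ico_succ_top (show 1 ≤ 7 by norm_num), Finset.prod_Ico_succ_top (show 1 ≤ 6 by norm_num), Finset.prod_Ico_succ_top (show 1 ≤ 5 by norm_num), Finset.prod_Ico_succ_top (show 1 ≤ 4 by norm_num), Finset.prod_Ico_succ_top (show 1 ≤ 3 by norm_num), Finset.prod_Ico_succ_top (show 1 ≤ 2 by norm_num), Finset.prod_Ico_succ_top (show 1 ≤ 1 by norm_num), Finset.Ico_self, Finset.prod_empty, one_mul,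
    t1, e2, e3, e4, e5, e6, e7, e8, e9, e10, efin]


theorem norm_eleven_23 {K : Type*} [Field K] [NumberField K] [IsCyclotomicExtension {11} ℚ K]
    {ζ : K} (hζ : IsPrimitiveRoot ζ 11) :
    Algebra.norm ℤ (1 + hζ.toInteger + hζ.toInteger ^ 3) = 23 := by
  have : Fact (Nat.Prime 11) := ⟨by norm_num⟩
  have hcast : ((Algebra.norm ℤ (1 + hζ.toInteger + hζ.toInteger ^ 3) : ℤ) : ℚ) = 23 := by
    rw [Algebra.coe_norm_int]
    apply (algebraMap ℚ (AlgebraicClosure K)).injective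
    have hf : ((1 + hζ.toInteger + hζ.toInteger ^ 3 : 𝓞 K) : K) =
        aeval ζ (1 + X + X ^ 3 : ℚ[X]) := by
      have hc : (algebraMap (𝓞 K) K) hζ.toInteger = ζ := hζ.coe_toInteger
      simp [hc]
    rw [hf, norm_aeval_eq_prod_Ico hζ]
    set z := algebraMap K (AlgebraicClosure K) ζ with hz
    have hzp : IsPrimitiveRoot z 11 :=
      hζ.map_of_injective (algebraMap K (AlgebraicClosure K)).injective
    have h11 : z ^ 11 = 1 := hzp.pow_eq_one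
    have hΦ : 1 + z + z ^ 2 + z ^ 3 + z ^ 4 + z ^ 5 + z ^ 6 + z ^ 7 + z ^ 8 + z ^ 9 + z ^ 10 = 0 := by
      have := hzp.geom_sum_eq_zero (by norm_num)
      simpa [Finset.sum_range_succ] using this
    have := prod_conj_eleven z h11 hΦ
    simp only [map_add, map_one, aeval_X, map_pow, map_ofNat]
    rw [this]
  exact_mod_cast hcast

variable (K : Type*) [Field K] [NumberField K]

theorem minkowski_eleven_lt [IsCyclotomicExtension {11} ℚ K] :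
    (4 / π) ^ nrComplexPlaces K *
      ((Module.finrank ℚ K)! / (Module.finrank ℚ K) ^ (Module.finrank ℚ K) * √|discr K|) < 60 := by
  have : Fact (Nat.Prime 11) := ⟨by norm_num⟩
  rw [discr_prime 11 K, IsCyclotomicExtension.finrank (n := 11) K
    (irreducible_rat (by simp)), nrComplexPlaces_eq_totient_div_two 11,
    totient_prime (by norm_num : Nat.Prime 11)]
  norm_num
  have h1 : 4 / π < 4 / 3.14 := by
    apply div_lt_div_of_pos_left (by norm_num) (by norm_num) pi_gt_d2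
  have h2 : √(2357947691 : ℝ) < 48559 := by
    rw [Real.sqrt_lt' (by norm_num)]
    norm_num
  have h3 : (0 : ℝ) < 4 / π := by positivity
  calc (4 / π) ^ 5 * (567 / 1562500 * √2357947691)
      < (4 / 3.14) ^ 5 * (567 / 1562500 * 48559) := by gcongr
    _ < 60 := by norm_num

/-- lower bound for the order of an element of the units of `ZMod 11` -/
theorem five_le_orderOf_zmod_eleven (x : ZMod 11) (h10 : x ^ 10 = 1) (h1 : x ≠ 1)
    (h2 : x ^ 2 ≠ 1) : 5 ≤ orderOf x := by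
  have hd : orderOf x ∣ 10 := orderOf_dvd_of_pow_eq_one h10
  have hmem : orderOf x ∈ Nat.divisors 10 := Nat.mem_divisors.mpr ⟨hd, by norm_num⟩
  have hdiv : Nat.divisors 10 = {1, 2, 5, 10} := by decide
  rw [hdiv] at hmem
  simp only [Finset.mem_insert, Finset.mem_singleton] at hmem
  rcases hmem with h | h | h | h
  · exact absurd (orderOf_eq_one_iff.mp h) h1
  · exact absurd (h ▸ pow_orderOf_eq_one x) h2
  · omega
  · omega

theorem two_le_orderOf_zmod_eleven (x : ZMod 11) (h10 : x ^ 10 = 1) (h1 : x ≠ 1) :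
    2 ≤ orderOf x := by
  have hd : orderOf x ∣ 10 := orderOf_dvd_of_pow_eq_one h10
  have hpos : 0 < orderOf x := Nat.pos_of_dvd_of_pos hd (by norm_num)
  have hne : orderOf x ≠ 1 := fun h => h1 (orderOf_eq_one_iff.mp h)
  omega

/-- the ring of integers of the eleventh cyclotomic field is a principal ideal domain -/
theorem eleven_pid [IsCyclotomicExtension {11} ℚ K] : IsPrincipalIdealRing (𝓞 K) := by
  have : IsGalois ℚ K := IsCyclotomicExtension.isGalois {11} ℚ K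
  have hM := minkowski_eleven_lt K
  have hfl : ⌊(4 / π) ^ nrComplexPlaces K *
      ((Module.finrank ℚ K)! / (Module.finrank ℚ K) ^ (Module.finrank ℚ K) * √|discr K|)⌋₊ ≤ 59 := by
    rw [← Nat.lt_succ_iff, Nat.floor_lt (by positivity)]
    exact_mod_cast hM
  apply RingOfIntegers.isPrincipalIdealRing_of_isPrincipal_of_lt_or_isPrincipal_of_mem_primesOver_of_mem_Icc
  intro p hp hprime
  rw [Finset.mem_Icc] at hp
  have hp59 : p ≤ 59 := hp.2.trans hfl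
  have hcases : p = 2 ∨ p = 3 ∨ p = 5 ∨ p = 7 ∨ p = 11 ∨ p = 13 ∨ p = 17 ∨ p = 19 ∨ p = 23 ∨
      p = 29 ∨ p = 31 ∨ p = 37 ∨ p = 41 ∨ p = 43 ∨ p = 47 ∨ p = 53 ∨ p = 59 := by
    obtain ⟨h1, -⟩ := hp
    interval_cases p <;> first | omega | (exfalso; revert hprime; norm_num)
  have hB : ∀ n : ℕ, 59 < n → ⌊(4 / π) ^ nrComplexPlaces K *
      ((Module.finrank ℚ K)! / (Module.finrank ℚ K) ^ (Module.finrank ℚ K) * √|discr K|)⌋₊ < n :=
    fun n hn => lt_of_le_of_lt hfl hn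
  rcases hcases with rfl | rfl | rfl | rfl | rfl | rfl | rfl | rfl | rfl | rfl | rfl | rfl | rfl |
    rfl | rfl | rfl | rfl
  · refine exists_prime_over_large K 11 2 hprime (by norm_num) _ 10 ?_ (hB _ (by norm_num))
    have h5 := five_le_orderOf_zmod_eleven ((2 : ℕ) : ZMod 11) (by decide) (by decide) (by decide)
    have hd : orderOf ((2 : ℕ) : ZMod 11) ∣ 10 := orderOf_dvd_of_pow_eq_one (by decide)
    have hne : orderOf ((2 : ℕ) : ZMod 11) ≠ 5 := fun h =>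
      absurd (h ▸ pow_orderOf_eq_one ((2 : ℕ) : ZMod 11)) (by decide)
    have hmem : orderOf ((2 : ℕ) : ZMod 11) ∈ Nat.divisors 10 := Nat.mem_divisors.mpr ⟨hd, by norm_num⟩
    have hdiv : Nat.divisors 10 = {1, 2, 5, 10} := by decide
    rw [hdiv] at hmem
    simp only [Finset.mem_insert, Finset.mem_singleton] at hmem
    omega
  · exact exists_prime_over_large K 11 3 hprime (by norm_num) _ 5
      (five_le_orderOf_zmod_eleven _ (by decide) (by decide) (by decide)) (hB _ (by norm_num))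
  · exact exists_prime_over_large K 11 5 hprime (by norm_num) _ 5
      (five_le_orderOf_zmod_eleven _ (by decide) (by decide) (by decide)) (hB _ (by norm_num))
  · exact exists_prime_over_large K 11 7 hprime (by norm_num) _ 5
      (five_le_orderOf_zmod_eleven _ (by decide) (by decide) (by decide)) (hB _ (by norm_num))
  · have : Fact (Nat.Prime 11) := ⟨by norm_num⟩
    exact exists_principal_prime_over_self K 11 _
  · exact exists_prime_over_large K 11 13 hprime (by norm_num) _ 5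
      (five_le_orderOf_zmod_eleven _ (by decide) (by decide) (by decide)) (hB _ (by norm_num))
  · exact exists_prime_over_large K 11 17 hprime (by norm_num) _ 5
      (five_le_orderOf_zmod_eleven _ (by decide) (by decide) (by decide)) (hB _ (by norm_num))
  · exact exists_prime_over_large K 11 19 hprime (by norm_num) _ 5
      (five_le_orderOf_zmod_eleven _ (by decide) (by decide) (by decide)) (hB _ (by norm_num))
  · exact exists_principal_prime_over K 23 (by norm_num) _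
      (1 + (IsCyclotomicExtension.zeta_spec 11 ℚ K).toInteger +
        (IsCyclotomicExtension.zeta_spec 11 ℚ K).toInteger ^ 3)
      (by rw [norm_eleven_23]; rfl)
  · exact exists_prime_over_large K 11 29 hprime (by norm_num) _ 5
      (five_le_orderOf_zmod_eleven _ (by decide) (by decide) (by decide)) (hB _ (by norm_num))
  · exact exists_prime_over_large K 11 31 hprime (by norm_num) _ 5
      (five_le_orderOf_zmod_eleven _ (by decide) (by decide) (by decide)) (hB _ (by norm_num))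
  · exact exists_prime_over_large K 11 37 hprime (by norm_num) _ 5
      (five_le_orderOf_zmod_eleven _ (by decide) (by decide) (by decide)) (hB _ (by norm_num))
  · exact exists_prime_over_large K 11 41 hprime (by norm_num) _ 5
      (five_le_orderOf_zmod_eleven _ (by decide) (by decide) (by decide)) (hB _ (by norm_num))
  · exact exists_prime_over_large K 11 43 hprime (by norm_num) _ 2
      (two_le_orderOf_zmod_eleven _ (by decide) (by decide)) (hB _ (by norm_num))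
  · exact exists_prime_over_large K 11 47 hprime (by norm_num) _ 5
      (five_le_orderOf_zmod_eleven _ (by decide) (by decide) (by decide)) (hB _ (by norm_num))
  · exact exists_prime_over_large K 11 53 hprime (by norm_num) _ 5
      (five_le_orderOf_zmod_eleven _ (by decide) (by decide) (by decide)) (hB _ (by norm_num))
  · exact exists_prime_over_large K 11 59 hprime (by norm_num) _ 5
      (five_le_orderOf_zmod_eleven _ (by decide) (by decide) (by decide)) (hB _ (by norm_num))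

end Fermat.Agent.Lib.Kummer
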