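/-
Kummer project (S10 + S11): abstract index-counting core of Hilbert's Theorem 92.
Mathlib-only.
-/
import Mathlib

set_option autoImplicit false
set_option linter.style.haveILetI false

namespace Fermat.Agent.Lib.Kummer

section ChiMul

variable {A B C : Type*} [AddCommGroup A] [AddCommGroup B] [AddCommGroup C]

/-- Multiplicativity of the "Herbrand-type quotient" `|coker| / |ker|` under composition,
in product form (valid without any finiteness assumption, with the `0` conventions of
`Nat.card` and `AddSubgroup.index`). -/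
theorem chi_comp (f : A →+ B) (g : B →+ C) :
    (g.comp f).range.index * (Nat.card f.ker * Nat.card g.ker) =
      g.range.index * f.range.index * Nat.card (g.comp f).ker := by
  -- the three auxiliary numbers
  set x := Nat.card (f.range ⊓ g.ker : AddSubgroup B) with hx
  set y := (f.range).relIndex g.ker with hy
  set z := (f.range ⊔ g.ker).index with hz
  have h1 : Nat.card (g.comp f).ker = Nat.card f.ker * x := by
    have hle : f.ker ≤ (g.comp f).ker := fun a ha => by
      rw [AddMonoidHom.mem_ker] at ha ⊢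
      rw [AddMonoidHom.comp_apply, ha, map_zero]
    have h := AddSubgroup.relIndex_mul_relIndex (⊥ : AddSubgroup A) f.ker (g.comp f).ker bot_le hle
    rw [AddSubgroup.relIndex_bot_left, AddSubgroup.relIndex_bot_left,
      AddSubgroup.relIndex_ker] at h
    have hmap : ((g.comp f).ker).map f = f.range ⊓ g.ker := by
      have : (g.comp f).ker = g.ker.comap f := by
        ext a
        simp [AddMonoidHom.mem_ker]
      rw [this, AddSubgroup.map_comap_eq]
    rw [hmap] at h
    exact h.symm
  have h2 : Nat.card g.ker = x * y := by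
    have h := AddSubgroup.relIndex_mul_relIndex (⊥ : AddSubgroup B) (f.range ⊓ g.ker) g.ker bot_le
      inf_le_right
    rw [AddSubgroup.relIndex_bot_left, AddSubgroup.relIndex_bot_left,
      AddSubgroup.inf_relIndex_right] at h
    exact h.symm
  have h3 : f.range.index = y * z := by
    have h := AddSubgroup.relIndex_mul_index (H := f.range) (K := f.range ⊔ g.ker) le_sup_left
    rw [AddSubgroup.relIndex_sup_left] at h
    exact h.symm
  have h4 : (g.comp f).range.index = z * g.range.index := by
    rw [← AddMonoidHom.map_range, AddSubgroup.index_map]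
  rw [h1, h2, h3, h4]
  ring

theorem chi_comp_index_ne_zero (f : A →+ B) (g : B →+ C)
    (hf : f.range.index ≠ 0) (hg : g.range.index ≠ 0) : (g.comp f).range.index ≠ 0 := by
  rw [← AddMonoidHom.map_range, AddSubgroup.index_map]
  refine Nat.mul_ne_zero ?_ hg
  intro h0
  apply hf
  have := AddSubgroup.index_dvd_of_le (H := f.range) (K := f.range ⊔ g.ker) le_sup_left
  rw [h0] at this
  exact Nat.eq_zero_of_zero_dvd this

theorem card_ker_comp (f : A →+ B) (g : B →+ C) :
    Nat.card (g.comp f).ker = Nat.card f.ker * Nat.card (f.range ⊓ g.ker : AddSubgroup B) := by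
  have hle : f.ker ≤ (g.comp f).ker := fun a ha => by
    rw [AddMonoidHom.mem_ker] at ha ⊢
    rw [AddMonoidHom.comp_apply, ha, map_zero]
  have h := AddSubgroup.relIndex_mul_relIndex (⊥ : AddSubgroup A) f.ker (g.comp f).ker bot_le hle
  rw [AddSubgroup.relIndex_bot_left, AddSubgroup.relIndex_bot_left,
    AddSubgroup.relIndex_ker] at h
  have hmap : ((g.comp f).ker).map f = f.range ⊓ g.ker := by
    have : (g.comp f).ker = g.ker.comap f := by
      ext a
      simp [AddMonoidHom.mem_ker]
    rw [this, AddSubgroup.map_comap_eq]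
  rw [hmap] at h
  exact h.symm

theorem chi_comp_finite_ker (f : A →+ B) (g : B →+ C) [Finite f.ker] [Finite g.ker] :
    Finite (g.comp f).ker := by
  apply Nat.finite_of_card_ne_zero
  rw [card_ker_comp]
  have : Finite (f.range ⊓ g.ker : AddSubgroup B) :=
    Finite.of_injective (fun b : (f.range ⊓ g.ker : AddSubgroup B) => (⟨b.1, b.2.2⟩ : g.ker))
      (fun a b hab => Subtype.ext (congrArg (fun t : g.ker => (t : B)) hab))
  exact Nat.mul_ne_zero Nat.card_pos.ne' Nat.card_pos.ne'

end ChiMul

section FreeIndex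

/-- For a finite free `ℤ`-module `F`, the subgroup `p • F` has index `p ^ rank`. -/
theorem index_range_nsmul_of_free {F : Type*} [AddCommGroup F] [Module.Free ℤ F]
    [Module.Finite ℤ F] (p : ℕ) [NeZero p] :
    (nsmulAddMonoidHom p : F →+ F).range.index = p ^ Module.finrank ℤ F := by
  classical
  set n := Module.finrank ℤ F with hn
  let b : Module.Basis (Fin n) ℤ F := Module.finBasis ℤ F
  let φ : F →+ (Fin n → ZMod p) :=
    (AddMonoidHom.compLeft (Int.castAddHom (ZMod p)) (Fin n)).comp
      b.equivFun.toLinearMap.toAddMonoidHom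
  have hφ : ∀ x i, φ x i = ((b.repr x i : ℤ) : ZMod p) := fun x i => rfl
  have hsurj : Function.Surjective φ := by
    intro y
    have : ∀ i, ∃ z : ℤ, (z : ZMod p) = y i := fun i => ZMod.intCast_surjective (y i)
    choose z hz using this
    refine ⟨b.equivFun.symm z, ?_⟩
    funext i
    rw [hφ, ← hz i]
    congr 1
    have := congrFun (b.equivFun.apply_symm_apply z) i
    rw [Module.Basis.equivFun_apply] at this
    exact this
  have hker : φ.ker = (nsmulAddMonoidHom p : F →+ F).range := by
    ext x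
    rw [AddMonoidHom.mem_ker, AddMonoidHom.mem_range]
    constructor
    · intro hx
      have hdvd : ∀ i, (p : ℤ) ∣ b.repr x i := fun i => by
        have := congrFun hx i
        rw [hφ, Pi.zero_apply] at this
        exact (ZMod.intCast_zmod_eq_zero_iff_dvd _ _).mp this
      refine ⟨b.equivFun.symm fun i => b.repr x i / p, ?_⟩
      apply b.equivFun.injective
      funext i
      rw [nsmulAddMonoidHom_apply, map_nsmul, LinearEquiv.apply_symm_apply, Pi.smul_apply,
        Module.Basis.equivFun_apply, nsmul_eq_mul]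
      exact Int.mul_ediv_cancel' (hdvd i)
    · rintro ⟨y, rfl⟩
      funext i
      rw [hφ, nsmulAddMonoidHom_apply, map_nsmul, Pi.zero_apply, Finsupp.smul_apply,
        nsmul_eq_mul]
      push_cast
      simp
  rw [← hker, AddSubgroup.index_ker, AddMonoidHom.range_eq_top.mpr hsurj]
  rw [Nat.card_congr (AddSubgroup.topEquiv (G := Fin n → ZMod p)).toEquiv]
  simp

end FreeIndex

section FGIndex

variable {M : Type*} [AddCommGroup M] [Module.Finite ℤ M]

theorem finite_torsion_of_fg : Finite (Submodule.torsion ℤ M) := by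
  haveI : IsNoetherian ℤ M := isNoetherian_of_isNoetherianRing_of_finite ℤ M
  exact Module.finite_of_fg_torsion _ Submodule.torsion_isTorsion

theorem ker_nsmul_le_torsion (p : ℕ) [NeZero p] (x : M)
    (hx : x ∈ (nsmulAddMonoidHom p : M →+ M).ker) : x ∈ Submodule.torsion ℤ M := by
  rw [AddMonoidHom.mem_ker, nsmulAddMonoidHom_apply] at hx
  rw [Submodule.mem_torsion_iff]
  refine ⟨⟨(p : ℤ), ?_⟩, ?_⟩
  · rw [mem_nonZeroDivisors_iff_ne_zero]
    exact_mod_cast NeZero.ne p
  · show ((p : ℤ)) • x = 0
    rw [natCast_zsmul]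
    exact hx

theorem finite_ker_nsmul (p : ℕ) [NeZero p] : Finite (nsmulAddMonoidHom p : M →+ M).ker := by
  haveI := finite_torsion_of_fg (M := M)
  exact Finite.of_injective
    (fun x : (nsmulAddMonoidHom p : M →+ M).ker =>
      (⟨x.1, ker_nsmul_le_torsion p x.1 x.2⟩ : Submodule.torsion ℤ M))
    (fun a b hab => Subtype.ext (congrArg (fun t : Submodule.torsion ℤ M => (t : M)) hab))

/-- For a finitely generated abelian group `M`: `[M : pM] = p ^ rank M * |M[p]|`. -/
theorem index_range_nsmul (p : ℕ) [NeZero p] :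
    (nsmulAddMonoidHom p : M →+ M).range.index =
      p ^ Module.finrank ℤ M * Nat.card (nsmulAddMonoidHom p : M →+ M).ker := by
  classical
  set T := Submodule.torsion ℤ M with hT
  let π : M →+ (M ⧸ T) := T.mkQ.toAddMonoidHom
  have hπsurj : Function.Surjective π := T.mkQ_surjective
  have hπker : ∀ x, x ∈ π.ker ↔ x ∈ T := fun x => by
    rw [AddMonoidHom.mem_ker]
    exact Submodule.Quotient.mk_eq_zero T
  haveI hTfin : Finite T := finite_torsion_of_fg
  haveI : Finite π.ker :=
    Finite.of_injective (fun x : π.ker => (⟨x.1, (hπker x.1).mp x.2⟩ : T))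
      (fun a b hab => Subtype.ext (congrArg (fun t : T => (t : M)) hab))
  haveI := finite_ker_nsmul (M := M) p
  set pM : M →+ M := nsmulAddMonoidHom p with hpM
  set pQ : (M ⧸ T) →+ (M ⧸ T) := nsmulAddMonoidHom p with hpQ
  have hcomm : π.comp pM = pQ.comp π := by
    ext x
    simp [hpM, hpQ, map_nsmul]
  have e1 := chi_comp pM π
  have e2 := chi_comp π pQ
  rw [hcomm] at e1
  have hπidx : π.range.index = 1 := by
    rw [AddMonoidHom.range_eq_top.mpr hπsurj, AddSubgroup.index_top]
  have hfree : Module.finrank ℤ (M ⧸ T) = Module.finrank ℤ M :=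
    finrank_quotient_eq_of_le_torsion le_rfl
  have hpQidx : pQ.range.index = p ^ Module.finrank ℤ M := by
    rw [hpQ, index_range_nsmul_of_free, hfree]
  have hpQker : Nat.card pQ.ker = 1 := by
    have : pQ.ker = ⊥ := by
      rw [eq_bot_iff]
      intro x hx
      rw [AddMonoidHom.mem_ker, hpQ, nsmulAddMonoidHom_apply] at hx
      rw [AddSubgroup.mem_bot]
      have h0 : (p : ℤ) • x = 0 := by rw [natCast_zsmul]; exact hx
      exact (smul_eq_zero.mp h0).resolve_left (by exact_mod_cast NeZero.ne p)
    rw [this]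
    simp
  have hKfin : Finite (pQ.comp π).ker := by
    rw [← hcomm]
    exact chi_comp_finite_ker pM π
  have hK : Nat.card (pQ.comp π).ker ≠ 0 := Nat.card_pos.ne'
  rw [hπidx, hpQidx, hpQker] at e2
  rw [hπidx] at e1
  -- e1 : I * (k * t) = 1 * c * K ; e2 : I * (t * 1) = p^n * 1 * K
  have hmain : pM.range.index * Nat.card (pQ.comp π).ker =
      p ^ Module.finrank ℤ M * Nat.card pM.ker * Nat.card (pQ.comp π).ker := by
    calc pM.range.index * Nat.card (pQ.comp π).ker
        = 1 * pM.range.index * Nat.card (pQ.comp π).ker := by ring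
      _ = (pQ.comp π).range.index * (Nat.card pM.ker * Nat.card π.ker) := e1.symm
      _ = ((pQ.comp π).range.index * (Nat.card π.ker * 1)) * Nat.card pM.ker := by ring
      _ = (p ^ Module.finrank ℤ M * 1 * Nat.card (pQ.comp π).ker) * Nat.card pM.ker := by rw [e2]
      _ = _ := by ring
  exact Nat.eq_of_mul_eq_mul_right (Nat.pos_of_ne_zero hK) hmain

theorem index_range_nsmul_ne_zero (p : ℕ) [NeZero p] :
    (nsmulAddMonoidHom p : M →+ M).range.index ≠ 0 := by
  rw [index_range_nsmul]
  haveI := finite_ker_nsmul (M := M) p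
  exact Nat.mul_ne_zero (pow_ne_zero _ (NeZero.ne p)) Nat.card_pos.ne'

end FGIndex

section ChiQ

variable {A B C : Type*} [AddCommGroup A] [AddCommGroup B] [AddCommGroup C]

/-- A homomorphism with finite kernel and finite-index image. -/
structure IsFred (f : A →+ B) : Prop where
  finite_ker : Finite f.ker
  index_ne_zero : f.range.index ≠ 0

/-- The quotient `|coker f| / |ker f|`. -/
noncomputable def chiQ (f : A →+ B) : ℚ := (f.range.index : ℚ) / (Nat.card f.ker : ℚ)

theorem IsFred.card_ker_ne_zero {f : A →+ B} (hf : IsFred f) : Nat.card f.ker ≠ 0 := by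
  haveI := hf.finite_ker
  exact Nat.card_pos.ne'

theorem IsFred.comp {f : A →+ B} {g : B →+ C} (hf : IsFred f) (hg : IsFred g) :
    IsFred (g.comp f) := by
  haveI := hf.finite_ker
  haveI := hg.finite_ker
  exact ⟨chi_comp_finite_ker f g, chi_comp_index_ne_zero f g hf.index_ne_zero hg.index_ne_zero⟩

theorem IsFred.chiQ_pos {f : A →+ B} (hf : IsFred f) : 0 < chiQ f := by
  unfold chiQ
  apply div_pos
  · exact_mod_cast Nat.pos_of_ne_zero hf.index_ne_zero
  · exact_mod_cast Nat.pos_of_ne_zero hf.card_ker_ne_zero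

theorem chiQ_comp {f : A →+ B} {g : B →+ C} (hf : IsFred f) (hg : IsFred g) :
    chiQ (g.comp f) = chiQ g * chiQ f := by
  have h := chi_comp f g
  have hgf := hf.comp hg
  unfold chiQ
  have h1 : (Nat.card f.ker : ℚ) ≠ 0 := by exact_mod_cast hf.card_ker_ne_zero
  have h2 : (Nat.card g.ker : ℚ) ≠ 0 := by exact_mod_cast hg.card_ker_ne_zero
  have h3 : (Nat.card (g.comp f).ker : ℚ) ≠ 0 := by exact_mod_cast hgf.card_ker_ne_zero
  rw [div_mul_div_comm, div_eq_div_iff h3 (mul_ne_zero h2 h1)]
  have hq : ((g.comp f).range.index : ℚ) * ((Nat.card f.ker : ℚ) * (Nat.card g.ker : ℚ)) =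
      (g.range.index : ℚ) * (f.range.index : ℚ) * (Nat.card (g.comp f).ker : ℚ) := by
    exact_mod_cast h
  rw [← hq]
  ring

theorem isFred_of_bijective {f : A →+ B} (hf : Function.Bijective f) : IsFred f := by
  have hker : f.ker = ⊥ := (AddMonoidHom.ker_eq_bot_iff f).mpr hf.1
  have hrange : f.range = ⊤ := AddMonoidHom.range_eq_top.mpr hf.2
  refine ⟨?_, ?_⟩
  · rw [hker]
    infer_instance
  · rw [hrange, AddSubgroup.index_top]
    exact one_ne_zero

theorem chiQ_of_bijective {f : A →+ B} (hf : Function.Bijective f) : chiQ f = 1 := by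
  have hker : f.ker = ⊥ := (AddMonoidHom.ker_eq_bot_iff f).mpr hf.1
  have hrange : f.range = ⊤ := AddMonoidHom.range_eq_top.mpr hf.2
  unfold chiQ
  rw [hker, hrange, AddSubgroup.index_top]
  simp

/-- `index = chiQ * |ker|` as natural numbers, when `chiQ` is a known natural number. -/
theorem IsFred.index_eq_of_chiQ_eq {f : A →+ B} (hf : IsFred f) {m : ℕ} (h : chiQ f = (m : ℚ)) :
    f.range.index = m * Nat.card f.ker := by
  unfold chiQ at h
  have h1 : (Nat.card f.ker : ℚ) ≠ 0 := by exact_mod_cast hf.card_ker_ne_zero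
  rw [div_eq_iff h1] at h
  exact_mod_cast h

end ChiQ

section EndChi

open Polynomial

variable {M : Type*} [AddCommGroup M]

/-- Fredholm property for `ℤ`-linear endomorphisms. -/
def IsFredE (φ : Module.End ℤ M) : Prop := IsFred φ.toAddMonoidHom

/-- `|coker| / |ker|` for `ℤ`-linear endomorphisms. -/
noncomputable def chiE (φ : Module.End ℤ M) : ℚ := chiQ φ.toAddMonoidHom

theorem toAddMonoidHom_mul_eq (φ ψ : Module.End ℤ M) :
    (φ * ψ).toAddMonoidHom = φ.toAddMonoidHom.comp ψ.toAddMonoidHom := rfl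

theorem IsFredE.mul {φ ψ : Module.End ℤ M} (hφ : IsFredE φ) (hψ : IsFredE ψ) :
    IsFredE (φ * ψ) := by
  unfold IsFredE
  rw [toAddMonoidHom_mul_eq]
  exact IsFred.comp hψ hφ

theorem chiE_mul {φ ψ : Module.End ℤ M} (hφ : IsFredE φ) (hψ : IsFredE ψ) :
    chiE (φ * ψ) = chiE φ * chiE ψ := by
  unfold chiE
  rw [toAddMonoidHom_mul_eq]
  exact chiQ_comp hψ hφ

theorem isFredE_of_isUnit {φ : Module.End ℤ M} (hφ : IsUnit φ) : IsFredE φ :=
  isFred_of_bijective ((Module.End.isUnit_iff φ).mp hφ)

theorem chiE_of_isUnit {φ : Module.End ℤ M} (hφ : IsUnit φ) : chiE φ = 1 :=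
  chiQ_of_bijective ((Module.End.isUnit_iff φ).mp hφ)

theorem IsFredE.pow {φ : Module.End ℤ M} (hφ : IsFredE φ) (n : ℕ) : IsFredE (φ ^ n) := by
  induction n with
  | zero => rw [pow_zero]; exact isFredE_of_isUnit isUnit_one
  | succ n ih => rw [pow_succ]; exact ih.mul hφ

theorem chiE_pow {φ : Module.End ℤ M} (hφ : IsFredE φ) (n : ℕ) : chiE (φ ^ n) = chiE φ ^ n := by
  induction n with
  | zero => rw [pow_zero, pow_zero]; exact chiE_of_isUnit isUnit_one
  | succ n ih => rw [pow_succ, pow_succ, chiE_mul (hφ.pow n) hφ, ih]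

theorem natCast_toAddMonoidHom (p : ℕ) :
    ((p : Module.End ℤ M)).toAddMonoidHom = nsmulAddMonoidHom p := by
  ext x
  simp

theorem exists_unit_natCast_eq {M : Type*} [AddCommGroup M] (p : ℕ) [hp : Fact p.Prime]
    (s : Module.End ℤ M) (hs : ∑ j ∈ Finset.range p, s ^ j = 0) :
    ∃ u : Module.End ℤ M, IsUnit u ∧ (p : Module.End ℤ M) = (1 - s) ^ (p - 1) * u ∧
      Commute u (1 - s) := by
  classical
  set f : ℤ[X] := cyclotomic p ℤ with hfdef
  have hf : f = ∑ i ∈ Finset.range p, X ^ i := cyclotomic_prime ℤ p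
  have hirr : Irreducible f := cyclotomic.irreducible hp.out.pos
  have hprime : Prime f := hirr.prime
  haveI : IsDomain (AdjoinRoot f) := AdjoinRoot.isDomain_of_prime hprime
  have hdeg : f.degree ≠ 0 := by
    rw [hfdef, degree_cyclotomic]
    have : 0 < Nat.totient p := Nat.totient_pos.mpr hp.out.pos
    exact_mod_cast this.ne'
  have hinj : Function.Injective (algebraMap ℤ (AdjoinRoot f)) := by
    rw [AdjoinRoot.algebraMap_eq]
    exact AdjoinRoot.of.injective_of_degree_ne_zero hdeg
  haveI : CharZero (AdjoinRoot f) := charZero_of_injective_algebraMap hinj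
  set ζ : AdjoinRoot f := AdjoinRoot.root f with hζdef
  have hroot : (cyclotomic p (AdjoinRoot f)).IsRoot ζ := by
    have h := AdjoinRoot.isRoot_root f
    rw [← AdjoinRoot.algebraMap_eq, hfdef, map_cyclotomic] at h
    exact h
  have hζ : IsPrimitiveRoot ζ p := (isRoot_cyclotomic_iff_charZero hp.out.pos).mp hroot
  obtain ⟨n, hn⟩ : ∃ n, p = n + 1 := ⟨p - 1, (Nat.succ_pred_eq_of_pos hp.out.pos).symm⟩
  have hζ' : IsPrimitiveRoot ζ (n + 1) := hn ▸ hζ
  have hprod := IsPrimitiveRoot.prod_one_sub_pow_eq_order hζ'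
  -- factor each term
  have hfac : ∀ k ∈ Finset.range n, (1 - ζ ^ (k + 1)) = (1 - ζ) * ∑ i ∈ Finset.range (k + 1), ζ ^ i :=
    fun k _ => (mul_neg_geom_sum ζ (k + 1)).symm
  rw [Finset.prod_congr rfl hfac, Finset.prod_mul_distrib, Finset.prod_const, Finset.card_range]
    at hprod
  have hunit : IsUnit (∏ k ∈ Finset.range n, ∑ i ∈ Finset.range (k + 1), ζ ^ i) := by
    apply Finset.prod_induction _ IsUnit (fun a b ha hb => ha.mul hb) isUnit_one
    intro k hk
    apply hζ.geom_sum_isUnit hp.out.two_le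
    rw [Finset.mem_range] at hk
    apply Nat.Coprime.symm
    rw [Nat.Prime.coprime_iff_not_dvd hp.out]
    intro hdvd
    have := Nat.le_of_dvd (Nat.succ_pos k) hdvd
    omega
  set uA := ∏ k ∈ Finset.range n, ∑ i ∈ Finset.range (k + 1), ζ ^ i with huA
  -- the ring hom to `End`
  have hH : ∀ a : ℤ[X], a ∈ Ideal.span {f} →
      ((aeval s : ℤ[X] →ₐ[ℤ] Module.End ℤ M) : ℤ[X] →+* Module.End ℤ M) a = 0 := by
    intro a ha
    obtain ⟨b, rfl⟩ := Ideal.mem_span_singleton'.mp ha
    have h0 : (aeval s : ℤ[X] →ₐ[ℤ] Module.End ℤ M) f = 0 := by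
      rw [hf, map_sum]
      simpa using hs
    show (aeval s : ℤ[X] →ₐ[ℤ] Module.End ℤ M) (b * f) = 0
    rw [map_mul, h0, mul_zero]
  let Φ : AdjoinRoot f →+* Module.End ℤ M := Ideal.Quotient.lift (Ideal.span {f}) _ hH
  have hΦζ : Φ ζ = s := by
    show Φ (AdjoinRoot.mk f X) = s
    show (aeval s : ℤ[X] →ₐ[ℤ] Module.End ℤ M) X = s
    exact aeval_X s
  refine ⟨Φ uA, hunit.map Φ, ?_, ?_⟩
  · have h1 := congrArg Φ hprod
    rw [map_mul, map_pow, map_sub, map_one, hΦζ, map_add, map_natCast, map_one] at h1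
    have hn' : p - 1 = n := by omega
    rw [hn', h1, hn]
    push_cast
    rfl
  · have := (Commute.all uA (1 - ζ)).map Φ
    rwa [map_sub, map_one, hΦζ] at this


variable [Module.Finite ℤ M]

theorem isFredE_natCast (p : ℕ) [NeZero p] : IsFredE (p : Module.End ℤ M) := by
  unfold IsFredE
  rw [natCast_toAddMonoidHom]
  exact ⟨finite_ker_nsmul p, index_range_nsmul_ne_zero p⟩

theorem chiE_natCast (p : ℕ) [NeZero p] :
    chiE (p : Module.End ℤ M) = (p : ℚ) ^ Module.finrank ℤ M := by
  have hF := isFredE_natCast (M := M) p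
  unfold chiE chiQ
  unfold IsFredE at hF
  have h1 : (Nat.card ((p : Module.End ℤ M)).toAddMonoidHom.ker : ℚ) ≠ 0 := by
    exact_mod_cast hF.card_ker_ne_zero
  rw [div_eq_iff h1]
  have := index_range_nsmul (M := M) p
  rw [← natCast_toAddMonoidHom] at this
  exact_mod_cast this

/-- If `1 + s + ⋯ + s^(p-1) = 0` on a finitely generated abelian group `M` of rank `(p-1) m`,
then `1 - s` is Fredholm with `|coker| / |ker| = p ^ m`. -/
theorem chiE_one_sub (p : ℕ) [hp : Fact p.Prime] (s : Module.End ℤ M)
    (hs : ∑ j ∈ Finset.range p, s ^ j = 0) (m : ℕ) (hm : Module.finrank ℤ M = (p - 1) * m) :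
    IsFredE (1 - s) ∧ chiE (1 - s) = (p : ℚ) ^ m := by
  haveI : NeZero p := ⟨hp.out.ne_zero⟩
  obtain ⟨u, hu, hpu, hcomm⟩ := exists_unit_natCast_eq p s hs
  have hp1 : p - 1 = (p - 2) + 1 := by have := hp.out.two_le; omega
  have hFp := isFredE_natCast (M := M) p
  -- `p = (1 - s) * w = w * (1 - s)`
  set w : Module.End ℤ M := (1 - s) ^ (p - 2) * u with hw
  have hpw : (p : Module.End ℤ M) = (1 - s) * w := by
    rw [hpu, hp1, pow_succ', hw, mul_assoc]
  have hcw : Commute w (1 - s) := by
    rw [hw]
    exact ((Commute.refl (1 - s)).pow_left _).mul_left hcomm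
  have hpw' : (p : Module.End ℤ M) = w * (1 - s) := by rw [hpw, hcw.eq]
  have hF : IsFredE (1 - s) := by
    unfold IsFredE at hFp ⊢
    refine ⟨?_, ?_⟩
    · haveI := hFp.finite_ker
      refine Finite.of_injective
        (fun x : (1 - s).toAddMonoidHom.ker =>
          (⟨x.1, ?_⟩ : ((p : Module.End ℤ M)).toAddMonoidHom.ker))
        (fun a b hab => Subtype.ext (congrArg (fun t :
          ((p : Module.End ℤ M)).toAddMonoidHom.ker => (t : M)) hab))
      have hx := x.2
      rw [AddMonoidHom.mem_ker] at hx ⊢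
      show (p : Module.End ℤ M) x.1 = 0
      rw [hpw', Module.End.mul_apply]
      have : (1 - s) x.1 = 0 := hx
      rw [this, map_zero]
    · intro h0
      apply hFp.index_ne_zero
      have hle : ((p : Module.End ℤ M)).toAddMonoidHom.range ≤ (1 - s).toAddMonoidHom.range := by
        rintro y ⟨x, rfl⟩
        refine ⟨w x, ?_⟩
        show (1 - s) (w x) = (p : Module.End ℤ M) x
        rw [hpw]
        rfl
      have := AddSubgroup.index_dvd_of_le hle
      rw [h0] at this
      exact Nat.eq_zero_of_zero_dvd this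
  refine ⟨hF, ?_⟩
  have hchi : chiE (p : Module.End ℤ M) = chiE (1 - s) ^ (p - 1) := by
    conv_lhs => rw [hpu]
    rw [chiE_mul (hF.pow _) (isFredE_of_isUnit hu), chiE_pow hF, chiE_of_isUnit hu, mul_one]
  rw [chiE_natCast, hm, pow_mul'] at hchi
  have hpos : 0 ≤ chiE (1 - s) := (IsFred.chiQ_pos hF).le
  have hne : p - 1 ≠ 0 := by have := hp.out.two_le; omega
  exact ((pow_left_inj₀ (by positivity) hpos hne).mp hchi).symm

end EndChi

section Main

variable {E : Type*} [AddCommGroup E] [Module.Finite ℤ E]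

theorem coe_restrict_pow_apply (σ : Module.End ℤ E) (H : Submodule ℤ E)
    (h : ∀ x ∈ H, σ x ∈ H) (j : ℕ) (x : H) :
    (((σ.restrict h) ^ j) x : E) = (σ ^ j) (x : E) := by
  rw [Module.End.pow_restrict j h, LinearMap.restrict_apply]

/-- **Abstract Hilbert 92.**  Let `E` be a finitely generated abelian group with an endomorphism
`σ`, `σ ^ p = 1`, `p` prime, such that `rank E + 1 = p (rank E^σ + 1)`.  Then there is an
element of norm `0` which is not of the form `ε - σ ε`. -/
theorem exists_norm_zero_not_mem_range (p : ℕ) [hp : Fact p.Prime] (σ : Module.End ℤ E)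
    (hσ : σ ^ p = 1) (r : ℕ) (hr : Module.finrank ℤ (LinearMap.ker (1 - σ)) = r)
    (hE : Module.finrank ℤ E + 1 = p * (r + 1)) :
    ∃ η : E, (∑ j ∈ Finset.range p, σ ^ j) η = 0 ∧ ∀ ε : E, η ≠ ε - σ ε := by
  classical
  haveI : NeZero p := ⟨hp.out.ne_zero⟩
  haveI : IsNoetherian ℤ E := isNoetherian_of_isNoetherianRing_of_finite ℤ E
  set lam : Module.End ℤ E := 1 - σ with hlam
  set N : Module.End ℤ E := ∑ j ∈ Finset.range p, σ ^ j with hN
  have hlamN : lam * N = 0 := by rw [hlam, hN, mul_neg_geom_sum, hσ, sub_self]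
  have hNlam : N * lam = 0 := by rw [hlam, hN, geom_sum_mul_neg, hσ, sub_self]
  set E0 : Submodule ℤ E := LinearMap.ker lam with hE0
  set Mk : Submodule ℤ E := LinearMap.ker N with hMk
  -- elements of `E0` are fixed by all powers of `σ`, hence `N x = p • x`
  have hfix : ∀ x ∈ E0, σ x = x := fun x hx => by
    have : lam x = 0 := hx
    rw [hlam, LinearMap.sub_apply, Module.End.one_apply, sub_eq_zero] at this
    exact this.symm
  have hfixpow : ∀ x ∈ E0, ∀ j : ℕ, (σ ^ j) x = x := fun x hx j => by
    induction j with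
    | zero => rfl
    | succ j ih => rw [pow_succ, Module.End.mul_apply, hfix x hx, ih]
  have hNE0 : ∀ x ∈ E0, N x = p • x := fun x hx => by
    rw [hN, LinearMap.sum_apply, Finset.sum_congr rfl (fun j _ => hfixpow x hx j),
      Finset.sum_const, Finset.card_range]
  -- `σ` preserves `Mk`
  have hσN : N * σ = σ * N := by
    rw [hN, Finset.sum_mul, Finset.mul_sum]
    exact Finset.sum_congr rfl fun j _ => by rw [← pow_succ, ← pow_succ']
  have hσM : ∀ x ∈ Mk, σ x ∈ Mk := fun x hx => by
    show N (σ x) = 0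
    have : N x = 0 := hx
    rw [← Module.End.mul_apply, hσN, Module.End.mul_apply, this, map_zero]
  set sM : Module.End ℤ Mk := σ.restrict hσM with hsM
  have hsMsum : ∑ j ∈ Finset.range p, sM ^ j = 0 := by
    ext x
    rw [LinearMap.sum_apply, LinearMap.zero_apply, Submodule.coe_sum, Submodule.coe_zero]
    rw [Finset.sum_congr rfl (fun j _ => coe_restrict_pow_apply σ Mk hσM j x)]
    have : N (x : E) = 0 := x.2
    rw [hN, LinearMap.sum_apply] at this
    exact this
  have hone_sub : ∀ x : Mk, (((1 - sM) x : Mk) : E) = lam (x : E) := fun x => by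
    rw [LinearMap.sub_apply, Module.End.one_apply, Submodule.coe_sub, hlam, LinearMap.sub_apply,
      Module.End.one_apply]
    rfl
  -- ranks
  have hrankR : Module.finrank ℤ (LinearMap.range N) = r := by
    have hle : LinearMap.range N ≤ E0 := by
      rintro y ⟨x, rfl⟩
      show lam (N x) = 0
      rw [← Module.End.mul_apply, hlamN, LinearMap.zero_apply]
    set R0 : Submodule ℤ E0 := (LinearMap.range N).comap E0.subtype with hR0
    have h1 : Module.finrank ℤ R0 = Module.finrank ℤ (LinearMap.range N) :=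
      (Submodule.comapSubtypeEquivOfLe hle).finrank_eq
    have h2 := Submodule.finrank_quotient_add_finrank R0
    have h3 : Module.finrank ℤ (E0 ⧸ R0) = 0 := by
      rw [Module.finrank_eq_zero_iff_isTorsion]
      intro y
      obtain ⟨x, rfl⟩ := R0.mkQ_surjective y
      refine ⟨⟨(p : ℤ), mem_nonZeroDivisors_of_ne_zero (by exact_mod_cast hp.out.ne_zero)⟩, ?_⟩
      show (p : ℤ) • R0.mkQ x = 0
      rw [← map_smul, Submodule.mkQ_apply, Submodule.Quotient.mk_eq_zero, hR0,
        Submodule.mem_comap, Submodule.subtype_apply, natCast_zsmul,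
        AddSubmonoidClass.coe_nsmul, ← hNE0 x.1 x.2]
      exact ⟨x.1, rfl⟩
    rw [← h1]
    rw [h3, zero_add, hr] at h2
    exact h2
  have hrankM : Module.finrank ℤ Mk = (p - 1) * (r + 1) := by
    have h1 := Submodule.finrank_quotient_add_finrank Mk
    have h2 : Module.finrank ℤ (E ⧸ Mk) = Module.finrank ℤ (LinearMap.range N) :=
      (LinearMap.quotKerEquivRange N).finrank_eq
    rw [h2, hrankR] at h1
    have hp1 : 1 ≤ p := hp.out.one_le
    have : (p - 1) * (r + 1) = p * (r + 1) - (r + 1) := by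
      rw [Nat.sub_mul, one_mul]
    rw [this]
    omega
  -- the two quotient formulas
  obtain ⟨hFlam, hchilam⟩ := chiE_one_sub p sM hsMsum (r + 1) hrankM
  have hc := IsFred.index_eq_of_chiQ_eq hFlam (m := p ^ (r + 1)) (by
    rw [show chiQ (1 - sM).toAddMonoidHom = chiE (1 - sM) from rfl, hchilam]; push_cast; rfl)
  have ha := index_range_nsmul (M := E0) p
  rw [hr] at ha
  -- kernels have the same cardinality
  have hker : Nat.card (1 - sM).toAddMonoidHom.ker =
      Nat.card (nsmulAddMonoidHom p : E0 →+ E0).ker := by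
    refine Nat.card_congr
      { toFun := fun x => ⟨⟨x.1.1, ?_⟩, ?_⟩
        invFun := fun y => ⟨⟨y.1.1, ?_⟩, ?_⟩
        left_inv := fun x => rfl
        right_inv := fun y => rfl }
    · -- `x ∈ ker (1 - sM)` gives `lam x = 0`
      have hx := x.2
      rw [AddMonoidHom.mem_ker] at hx
      have hx' : (((1 - sM) x.1 : Mk) : E) = 0 := congrArg (fun t : Mk => (t : E)) hx
      rw [hone_sub] at hx'
      exact hx'
    · rw [AddMonoidHom.mem_ker, nsmulAddMonoidHom_apply]
      apply Subtype.ext
      rw [AddSubmonoidClass.coe_nsmul, Submodule.coe_zero]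
      have hx := x.2
      rw [AddMonoidHom.mem_ker] at hx
      have hx' : (((1 - sM) x.1 : Mk) : E) = 0 := congrArg (fun t : Mk => (t : E)) hx
      have hmem : x.1.1 ∈ E0 := by
        show lam x.1.1 = 0
        rw [hone_sub] at hx'
        exact hx'
      show p • (x.1.1 : E) = 0
      rw [← hNE0 _ hmem]
      exact x.1.2
    · -- `y ∈ E0`, `p • y = 0` gives `N y = 0`
      show N y.1.1 = 0
      rw [hNE0 _ y.1.2]
      have hy := y.2
      rw [AddMonoidHom.mem_ker, nsmulAddMonoidHom_apply] at hy
      have := congrArg (fun t : E0 => (t : E)) hy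
      simp only [AddSubmonoidClass.coe_nsmul, Submodule.coe_zero] at this
      exact this
    · rw [AddMonoidHom.mem_ker]
      apply Subtype.ext
      show ((1 - sM) _ : E) = 0
      rw [hone_sub]
      exact y.1.2
  -- the homomorphisms `lamM : E → Mk` and `N0 : E → E0`
  have hlamMk : ∀ x, lam x ∈ Mk := fun x => by
    show N (lam x) = 0
    rw [← Module.End.mul_apply, hNlam, LinearMap.zero_apply]
  have hNE0' : ∀ x, N x ∈ E0 := fun x => by
    show lam (N x) = 0
    rw [← Module.End.mul_apply, hlamN, LinearMap.zero_apply]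
  let lamM : E →+ Mk := (lam.codRestrict Mk hlamMk).toAddMonoidHom
  let N0 : E →+ E0 := (N.codRestrict E0 hNE0').toAddMonoidHom
  set H : AddSubgroup Mk := (1 - sM).toAddMonoidHom.range with hH
  set H' : AddSubgroup E0 := (nsmulAddMonoidHom p : E0 →+ E0).range with hH'
  set S : AddSubgroup E := Mk.toAddSubgroup ⊔ E0.toAddSubgroup with hS
  have hHle : H ≤ lamM.range := by
    rintro y ⟨x, rfl⟩
    refine ⟨(x : E), ?_⟩
    apply Subtype.ext
    show lam (x : E) = ((1 - sM) x : E)
    rw [hone_sub]
  have hH'le : H' ≤ N0.range := by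
    rintro y ⟨x, rfl⟩
    refine ⟨(x : E), ?_⟩
    apply Subtype.ext
    show N (x : E) = ((p • x : E0) : E)
    rw [hNE0 _ x.2, AddSubmonoidClass.coe_nsmul]
  have hcomap1 : H.comap lamM = S := by
    ext x
    rw [AddSubgroup.mem_comap, hS, AddSubgroup.mem_sup]
    constructor
    · rintro ⟨m, hm⟩
      have hm' : lam (m : E) = lam x := by
        have := congrArg (fun t : Mk => (t : E)) hm
        rw [← hone_sub]
        exact this
      refine ⟨(m : E), m.2, x - m, ?_, by abel⟩
      show lam (x - m) = 0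
      rw [map_sub, hm', sub_self]
    · rintro ⟨m, hm, e, he, rfl⟩
      refine ⟨⟨m, hm⟩, ?_⟩
      apply Subtype.ext
      show ((1 - sM) ⟨m, hm⟩ : E) = lam (m + e)
      have he0 : lam e = 0 := he
      rw [map_add, he0, add_zero, hone_sub]
  have hcomap2 : H'.comap N0 = S := by
    ext x
    rw [AddSubgroup.mem_comap, hS, AddSubgroup.mem_sup]
    constructor
    · rintro ⟨e, he⟩
      have he' : N (e : E) = N x := by
        have := congrArg (fun t : E0 => (t : E)) he
        simp only [nsmulAddMonoidHom_apply, AddSubmonoidClass.coe_nsmul] at this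
        rw [hNE0 _ e.2]
        exact this
      refine ⟨x - e, ?_, (e : E), e.2, by abel⟩
      show N (x - e) = 0
      rw [map_sub, he', sub_self]
    · rintro ⟨m, hm, e, he, rfl⟩
      refine ⟨⟨e, he⟩, ?_⟩
      apply Subtype.ext
      show ((p • (⟨e, he⟩ : E0) : E0) : E) = N (m + e)
      have hm0 : N m = 0 := hm
      rw [map_add, hm0, zero_add, hNE0 _ he, AddSubmonoidClass.coe_nsmul]
  -- index bookkeeping
  have e1 : S.index * lamM.range.index = H.index := by
    rw [← hcomap1, AddSubgroup.index_comap]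
    exact AddSubgroup.relIndex_mul_index hHle
  have e2 : S.index * N0.range.index = H'.index := by
    rw [← hcomap2, AddSubgroup.index_comap]
    exact AddSubgroup.relIndex_mul_index hH'le
  have hb : Nat.card (nsmulAddMonoidHom p : E0 →+ E0).ker ≠ 0 := by
    haveI := finite_ker_nsmul (M := E0) p
    exact Nat.card_pos.ne'
  set b := Nat.card (nsmulAddMonoidHom p : E0 →+ E0).ker with hbdef
  rw [hker] at hc
  -- `hc : H.index = p^(r+1) * b`, `ha : H'.index = p^r * b`
  have hx : lamM.range.index = p * N0.range.index := by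
    have hane : H'.index ≠ 0 := by
      rw [hH', ha]
      exact Nat.mul_ne_zero (pow_ne_zero _ hp.out.ne_zero) hb
    have hS0 : S.index ≠ 0 := fun h0 => hane (by rw [← e2, h0, zero_mul])
    have : S.index * lamM.range.index = S.index * (p * N0.range.index) := by
      rw [e1, hH, hc, mul_left_comm, e2, hH', ha, pow_succ]
      ring
    exact Nat.eq_of_mul_eq_mul_left (Nat.pos_of_ne_zero hS0) this
  have hy0 : N0.range.index ≠ 0 := by
    intro h0
    have hane : H'.index ≠ 0 := by
      rw [hH', ha]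
      exact Nat.mul_ne_zero (pow_ne_zero _ hp.out.ne_zero) hb
    exact hane (by rw [← e2, h0, mul_zero])
  have hne_top : lamM.range ≠ ⊤ := by
    intro htop
    have : lamM.range.index = 1 := by rw [htop, AddSubgroup.index_top]
    rw [hx] at this
    have h2 := hp.out.two_le
    have : p * N0.range.index ≥ 2 := by
      calc p * N0.range.index ≥ 2 * 1 :=
        Nat.mul_le_mul h2 (Nat.one_le_iff_ne_zero.mpr hy0)
        _ = 2 := by norm_num
    omega
  obtain ⟨η, hη⟩ : ∃ η : Mk, η ∉ lamM.range := by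
    by_contra hcon
    push Not at hcon
    exact hne_top (eq_top_iff.mpr fun x _ => hcon x)
  refine ⟨(η : E), η.2, fun ε hε => hη ⟨ε, ?_⟩⟩
  apply Subtype.ext
  show lam ε = (η : E)
  rw [hε, hlam, LinearMap.sub_apply, Module.End.one_apply]

end Main

end Fermat.Agent.Lib.Kummer
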