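/-
KUMMER project: auxiliary abstract lemmas for Hilbert 92.
-/
import Mathlib

set_option autoImplicit false

open NumberField Polynomial

namespace Fermat.Agent.Lib.Kummer

theorem exists_unit_natCast_eq_sub_one_pow_mul_aux {R : Type*} [Ring R] (p : ℕ)
    [hp : Fact p.Prime] (K : Type*) [Field K] [NumberField K] [IsCyclotomicExtension {p} ℚ K]
    (s : R) (hs : ∑ j ∈ Finset.range p, s ^ j = 0) :
    ∃ u : Rˣ, (p : R) = (s - 1) ^ (p - 1) * (u : R) ∧ Commute (u : R) s := by
  have : NeZero p := ⟨hp.out.ne_zero⟩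
  have hζ : IsPrimitiveRoot (IsCyclotomicExtension.zeta p ℚ K) p :=
    IsCyclotomicExtension.zeta_spec p ℚ K
  set pb := hζ.integralPowerBasis with hpb
  have hgen : pb.gen = hζ.toInteger := IsPrimitiveRoot.integralPowerBasis_gen hζ
  have hmin : minpoly ℤ pb.gen = cyclotomic p ℤ := by
    rw [hgen, cyclotomic_eq_minpoly hζ hp.out.pos, ← RingOfIntegers.minpoly_coe]
    rfl
  have hy : aeval s (minpoly ℤ pb.gen) = 0 := by
    rw [hmin, cyclotomic_prime, map_sum]
    simpa using hs
  let f : 𝓞 K →ₐ[ℤ] R := pb.lift s hy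
  have hfζ : f hζ.toInteger = s := by
    have := pb.lift_gen s hy
    rwa [hgen] at this
  obtain ⟨w, hw⟩ := IsCyclotomicExtension.Rat.associated_zeta_sub_one_pow_prime p hζ
  refine ⟨Units.map f.toRingHom.toMonoidHom w, ?_, ?_⟩
  · have := congrArg f hw
    rw [map_mul, map_pow, map_sub, map_one, hfζ, map_natCast] at this
    exact this.symm
  · show f w * s = s * f w
    rw [← hfζ, ← map_mul, ← map_mul, mul_comm]

/-- In any ring, if `1 + s + ... + s^(p-1) = 0` for a prime `p`, then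
`p = (s - 1)^(p-1) * u` for a unit `u` commuting with `s` (transported from `ℤ[ζ_p]`). -/
theorem exists_unit_natCast_eq_sub_one_pow_mul {R : Type*} [Ring R] (p : ℕ) [hp : Fact p.Prime]
    (s : R) (hs : ∑ j ∈ Finset.range p, s ^ j = 0) :
    ∃ u : Rˣ, (p : R) = (s - 1) ^ (p - 1) * (u : R) ∧ Commute (u : R) s :=
  haveI : NeZero p := ⟨hp.out.ne_zero⟩
  haveI : IsCyclotomicExtension {p} ℚ (CyclotomicField p ℚ) :=
    CyclotomicField.isCyclotomicExtension p ℚ
  exists_unit_natCast_eq_sub_one_pow_mul_aux p (CyclotomicField p ℚ) s hs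

end Fermat.Agent.Lib.Kummer
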