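/-
helper4: index-counting lemmas for the abstract Hilbert 92 argument (Kummer project).
Mathlib-only.
-/
import Mathlib

namespace Fermat.Agent.Lib.Kummer

open Module

section Prod

variable {A B : Type*} [AddCommGroup A] [AddCommGroup B]

theorem h4_range_nsmul_prod (n : ℕ) :
    (nsmulAddMonoidHom n : A × B →+ A × B).range =
      (nsmulAddMonoidHom n : A →+ A).range.prod (nsmulAddMonoidHom n : B →+ B).range := by
  ext ⟨a, b⟩
  simp only [AddMonoidHom.mem_range, AddSubgroup.mem_prod, nsmulAddMonoidHom_apply, Prod.exists,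
    Prod.smul_mk, Prod.mk.injEq]
  constructor
  · rintro ⟨x, y, hx, hy⟩; exact ⟨⟨x, hx⟩, ⟨y, hy⟩⟩
  · rintro ⟨⟨x, hx⟩, ⟨y, hy⟩⟩; exact ⟨x, y, hx, hy⟩

theorem h4_ker_nsmul_prod (n : ℕ) :
    (nsmulAddMonoidHom n : A × B →+ A × B).ker =
      (nsmulAddMonoidHom n : A →+ A).ker.prod (nsmulAddMonoidHom n : B →+ B).ker := by
  ext ⟨a, b⟩
  simp only [AddMonoidHom.mem_ker, AddSubgroup.mem_prod, nsmulAddMonoidHom_apply,
    Prod.smul_mk, Prod.mk_eq_zero]

theorem h4_card_prod_subgroup (H : AddSubgroup A) (K : AddSubgroup B) :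
    Nat.card (H.prod K) = Nat.card H * Nat.card K := by
  rw [← Nat.card_prod]
  exact Nat.card_congr (AddSubgroup.prodEquiv H K).toEquiv

end Prod

/-- The `ℤ`-rank of `F × T` with `T` finite is the rank of `F`. -/
theorem h4_finrank_prod_finite (F T : Type*) [AddCommGroup F] [AddCommGroup T]
    [Module.Finite ℤ F] [Finite T] : finrank ℤ (F × T) = finrank ℤ F := by
  have h := (LinearMap.ker (LinearMap.fst ℤ F T)).finrank_quotient_add_finrank
  rw [(LinearMap.quotKerEquivOfSurjective _ LinearMap.fst_surjective).finrank_eq] at h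
  have h0 : finrank ℤ (LinearMap.ker (LinearMap.fst ℤ F T)) = 0 := by
    apply Module.IsTorsion.finrank_eq_zero
    rintro ⟨⟨a, t⟩, hx⟩
    have ha : a = 0 := by simpa using hx
    subst ha
    have hc : (Nat.card T : ℤ) ≠ 0 := by
      exact_mod_cast Nat.card_pos.ne'
    refine ⟨⟨(Nat.card T : ℤ), mem_nonZeroDivisors_of_ne_zero hc⟩, ?_⟩
    ext
    · simp
    · simp [card_nsmul_eq_zero']
  omega

/-- `|(F × T)/n(F × T)| = n ^ rank F * |(F × T)[n]|` for `F` free of finite rank and `T` finite. -/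
theorem h4_index_range_nsmul_prod (F T : Type*) [AddCommGroup F] [AddCommGroup T]
    [Module.Free ℤ F] [Module.Finite ℤ F] [Finite T] (n : ℕ) (hn : n ≠ 0) :
    (nsmulAddMonoidHom n : F × T →+ F × T).range.index =
      n ^ finrank ℤ F * Nat.card (nsmulAddMonoidHom n : F × T →+ F × T).ker := by
  rw [h4_range_nsmul_prod, h4_ker_nsmul_prod, AddSubgroup.index_prod, h4_card_prod_subgroup,
    AddSubgroup.index_range_nsmul, AddSubgroup.index_range]
  have hker : (nsmulAddMonoidHom n : F →+ F).ker = ⊥ :=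
    (AddMonoidHom.ker_eq_bot_iff _).mpr
      (AddSubgroup.nsmulAddMonoidHom_injective_of_isTorsionFree hn)
  rw [hker]
  simp

/-- **(c)** For a finitely generated abelian group `M` and `n ≠ 0`:
`|M / nM| = n ^ rank M * |M[n]|`. -/
theorem h4_index_range_nsmul (M : Type*) [AddCommGroup M] [Module.Finite ℤ M] (n : ℕ)
    (hn : n ≠ 0) :
    (nsmulAddMonoidHom n : M →+ M).range.index =
      n ^ finrank ℤ M * Nat.card (nsmulAddMonoidHom n : M →+ M).ker := by
  classical
  have : AddGroup.FG M := Module.Finite.iff_addGroup_fg.mp inferInstance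
  obtain ⟨k, ι, _, q, hq, e, ⟨f⟩⟩ := AddCommGroup.equiv_free_prod_directSum_zmod M
  have : ∀ i, NeZero (q i ^ e i) := fun i => ⟨pow_ne_zero _ (hq i).ne_zero⟩
  have : Finite (DirectSum ι fun i => ZMod (q i ^ e i)) :=
    Finite.of_equiv _ DFinsupp.equivFunOnFintype.symm
  have h := h4_index_range_nsmul_prod (Fin k →₀ ℤ) (DirectSum ι fun i => ZMod (q i ^ e i)) n hn
  rw [← f.map_range_nsmulAddMonoidHom, AddSubgroup.index_map_equiv] at h
  rw [h, ← h4_finrank_prod_finite (Fin k →₀ ℤ) (DirectSum ι fun i => ZMod (q i ^ e i)),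
    ← f.toIntLinearEquiv.finrank_eq]
  congr 1
  have hk : (nsmulAddMonoidHom n :
        (Fin k →₀ ℤ) × (DirectSum ι fun i => ZMod (q i ^ e i)) →+ _).ker =
      AddSubgroup.map f.toAddMonoidHom (nsmulAddMonoidHom n : M →+ M).ker := by
    ext x
    simp only [AddMonoidHom.mem_ker, nsmulAddMonoidHom_apply, AddSubgroup.mem_map]
    constructor
    · intro hx
      refine ⟨f.symm x, ?_, by simp⟩
      rw [← map_nsmul, hx, map_zero]
    · rintro ⟨y, hy, rfl⟩
      rw [← map_nsmul, hy, map_zero]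
  rw [hk, AddSubgroup.card_map_of_injective f.injective]

/-- **(c)**, quotient-cardinality form. -/
theorem h4_card_quot_nsmul (M : Type*) [AddCommGroup M] [Module.Finite ℤ M] (n : ℕ)
    (hn : n ≠ 0) :
    Nat.card (M ⧸ (nsmulAddMonoidHom n : M →+ M).range) =
      n ^ finrank ℤ M * Nat.card (nsmulAddMonoidHom n : M →+ M).ker :=
  h4_index_range_nsmul M n hn

end Fermat.Agent.Lib.Kummer
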