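/-
KUMMER project: Hilbert's Theorem 92 (number-field part).
-/
import Mathlib
import Fermat.Agent.Lib.Kummer.Defs

set_option autoImplicit false
set_option linter.unusedSectionVars false

open NumberField

namespace Fermat.Agent.Lib.Kummer

noncomputable section

variable {K L : Type*} [Field K] [NumberField K] [Field L] [NumberField L] [Algebra K L]

/-- The action of `σ ∈ Gal(L/K)` on the units of `𝓞 L`. -/
def unitsAut (σ : L ≃ₐ[K] L) : (𝓞 L)ˣ ≃* (𝓞 L)ˣ :=
  Units.mapEquiv (galRestrict (𝓞 K) K L (𝓞 L) σ).toMulEquiv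

theorem coe_unitsAut (σ : L ≃ₐ[K] L) (ε : (𝓞 L)ˣ) :
    (((unitsAut σ ε : (𝓞 L)ˣ) : 𝓞 L) : L) = σ ((ε : 𝓞 L) : L) :=
  algebraMap_galRestrict_apply (𝓞 K) σ (ε : 𝓞 L)

theorem unitsAut_pow (σ : L ≃ₐ[K] L) (j : ℕ) (ε : (𝓞 L)ˣ) :
    ((unitsAut σ)^[j]) ε = unitsAut (σ ^ j) ε := by
  induction j generalizing ε with
  | zero =>
    apply Units.ext; apply RingOfIntegers.ext
    simp [coe_unitsAut]
  | succ j ih =>
    rw [Function.iterate_succ_apply', ih]
    apply Units.ext; apply RingOfIntegers.ext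
    rw [coe_unitsAut, coe_unitsAut, coe_unitsAut, pow_succ', AlgEquiv.mul_apply]

/-- The inclusion of the units of `𝓞 K` in those of `𝓞 L`. -/
def unitsIncl : (𝓞 K)ˣ →* (𝓞 L)ˣ := Units.map (algebraMap (𝓞 K) (𝓞 L)).toMonoidHom

theorem coe_unitsIncl (u : (𝓞 K)ˣ) :
    (((unitsIncl (L := L) u : (𝓞 L)ˣ) : 𝓞 L) : L) = algebraMap K L ((u : 𝓞 K) : K) := rfl

theorem unitsIncl_injective : Function.Injective (unitsIncl (K := K) (L := L)) := by
  intro u v h
  apply Units.ext; apply RingOfIntegers.ext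
  have := congrArg (fun w : (𝓞 L)ˣ => ((w : 𝓞 L) : L)) h
  simp only [coe_unitsIncl] at this
  exact (algebraMap K L).injective this

/-- A unit of `𝓞 L` fixed by a generator of the Galois group comes from `𝓞 K`. -/
theorem mem_range_unitsIncl_of_fixed [IsGalois K L] (σ : L ≃ₐ[K] L)
    (hσ : ∀ τ : L ≃ₐ[K] L, τ ∈ Subgroup.zpowers σ) (ε : (𝓞 L)ˣ) (hε : unitsAut σ ε = ε) :
    ε ∈ Set.range (unitsIncl (K := K) (L := L)) := by
  -- `ε` is fixed by every element of the Galois group
  have hfix : ∀ τ : L ≃ₐ[K] L, τ ((ε : 𝓞 L) : L) = ((ε : 𝓞 L) : L) := by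
    have h1 : σ ((ε : 𝓞 L) : L) = ((ε : 𝓞 L) : L) := by
      rw [← coe_unitsAut, hε]
    intro τ
    obtain ⟨n, rfl⟩ := Subgroup.mem_zpowers_iff.mp (hσ τ)
    have hstab : σ ∈ MulAction.stabilizer (L ≃ₐ[K] L) (((ε : 𝓞 L) : L)) := h1
    have := Subgroup.zpow_mem _ hstab n
    exact this
  obtain ⟨x, hx⟩ := (IsGalois.mem_range_algebraMap_iff_fixed (F := K) (E := L) _).mpr hfix
  -- `x` is integral
  have hxint : IsIntegral ℤ x := by
    have h2 : IsIntegral ℤ (algebraMap K L x) := by rw [hx]; exact (ε : 𝓞 L).2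
    exact (isIntegral_algHom_iff (IsScalarTower.toAlgHom ℤ K L)
      (algebraMap K L).injective).mp h2
  let y : 𝓞 K := ⟨x, hxint⟩
  have hy : algebraMap (𝓞 K) (𝓞 L) y = (ε : 𝓞 L) := by
    apply RingOfIntegers.ext
    exact hx
  have hunit : IsUnit y := by
    have h3 : IsUnit (algebraMap (𝓞 K) (𝓞 L) y) := by rw [hy]; exact ε.isUnit
    exact IsUnit.of_map (algebraMap (𝓞 K) (𝓞 L)) y h3
  refine ⟨hunit.unit, ?_⟩
  apply Units.ext
  exact hy

theorem unitsAut_unitsIncl (σ : L ≃ₐ[K] L) (u : (𝓞 K)ˣ) :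
    unitsAut σ (unitsIncl (L := L) u) = unitsIncl u := by
  apply Units.ext; apply RingOfIntegers.ext
  rw [coe_unitsAut, coe_unitsIncl, AlgEquiv.commutes]

theorem unitsAut_eq_self_iff [IsGalois K L] (σ : L ≃ₐ[K] L)
    (hσ : ∀ τ : L ≃ₐ[K] L, τ ∈ Subgroup.zpowers σ) (ε : (𝓞 L)ˣ) :
    unitsAut σ ε = ε ↔ ε ∈ (unitsIncl (K := K) (L := L)).range := by
  constructor
  · intro h
    exact mem_range_unitsIncl_of_fixed σ hσ ε h
  · rintro ⟨u, rfl⟩
    exact unitsAut_unitsIncl σ u

/-! ### Ranks -/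

theorem rank_add_one (F : Type*) [Field F] [NumberField F] :
    Units.rank F + 1 = Fintype.card (InfinitePlace F) := by
  unfold Units.rank
  have : 0 < Fintype.card (InfinitePlace F) := Fintype.card_pos
  omega

theorem finrank_units_add_one [IsGalois K L] {p : ℕ} (hodd : Odd p)
    (hdeg : Module.finrank K L = p) :
    Module.finrank ℤ (Additive (𝓞 L)ˣ) + 1 = p * (Units.rank K + 1) := by
  haveI : IsUnramifiedAtInfinitePlaces K L :=
    IsUnramifiedAtInfinitePlaces_of_odd_finrank (by rw [hdeg]; exact hodd)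
  rw [Units.finrank_eq, rank_add_one, rank_add_one,
    IsUnramifiedAtInfinitePlaces.card_infinitePlace K L, hdeg, mul_comm]

/-- The subgroup of fixed points (in additive notation) has `ℤ`-rank `rank K`. -/
theorem finrank_fixed [IsGalois K L] (σ : L ≃ₐ[K] L)
    (hσ : ∀ τ : L ≃ₐ[K] L, τ ∈ Subgroup.zpowers σ)
    (F : AddSubgroup (Additive (𝓞 L)ˣ))
    (hF : ∀ x : Additive (𝓞 L)ˣ, x ∈ F ↔ (unitsAut σ).toAdditive x = x) :
    Module.finrank ℤ F = Units.rank K := by
  have hFeq : F = (unitsIncl (K := K) (L := L)).range.toAddSubgroup := by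
    ext x
    rw [hF x]
    exact unitsAut_eq_self_iff σ hσ (Additive.toMul x)
  subst hFeq
  let e : (𝓞 K)ˣ ≃* (unitsIncl (K := K) (L := L)).range :=
    MonoidHom.ofInjective unitsIncl_injective
  let e' : Additive (𝓞 K)ˣ ≃+ (unitsIncl (K := K) (L := L)).range.toAddSubgroup :=
    e.toAdditive
  rw [← Units.finrank_eq]
  exact (LinearEquiv.finrank_eq e'.toIntLinearEquiv).symm

/-! ### The norm as a product over the powers of a generator -/

theorem orderOf_generator [IsGalois K L] {p : ℕ} (hdeg : Module.finrank K L = p)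
    (σ : L ≃ₐ[K] L) (hσ : ∀ τ : L ≃ₐ[K] L, τ ∈ Subgroup.zpowers σ) : orderOf σ = p := by
  rw [orderOf_eq_card_of_forall_mem_zpowers hσ, IsGalois.card_aut_eq_finrank, hdeg]

theorem prod_pow_generator [IsGalois K L] {p : ℕ} (hdeg : Module.finrank K L = p)
    (σ : L ≃ₐ[K] L) (hσ : ∀ τ : L ≃ₐ[K] L, τ ∈ Subgroup.zpowers σ) (x : L) :
    ∏ j ∈ Finset.range p, (σ ^ j) x = algebraMap K L (Algebra.norm K x) := by
  classical
  have hord := orderOf_generator hdeg σ hσ
  have hp : 0 < p := by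
    rw [← hdeg]; exact Module.finrank_pos
  rw [Algebra.norm_eq_prod_automorphisms, ← Fin.prod_univ_eq_prod_range (fun j => (σ ^ j) x) p]
  have hbij : Function.Bijective (fun j : Fin p => σ ^ (j : ℕ)) := by
    rw [Fintype.bijective_iff_injective_and_card]
    refine ⟨?_, ?_⟩
    · intro i j hij
      apply Fin.ext
      have hi : (i : ℕ) < orderOf σ := by rw [hord]; exact i.2
      have hj : (j : ℕ) < orderOf σ := by rw [hord]; exact j.2
      exact pow_injOn_Iio_orderOf (Set.mem_Iio.mpr hi) (Set.mem_Iio.mpr hj) hij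
    · rw [Fintype.card_fin, ← Nat.card_eq_fintype_card, IsGalois.card_aut_eq_finrank, hdeg]
  exact Fintype.prod_bijective _ hbij _ _ (fun j => rfl)

/-! ### Hilbert 92 from the abstract counting theorem -/

theorem toAdditive_iterate (f : (𝓞 L)ˣ ≃* (𝓞 L)ˣ) (j : ℕ) (x : Additive (𝓞 L)ˣ) :
    (f.toAdditive)^[j] x = Additive.ofMul (f^[j] (Additive.toMul x)) := by
  induction j generalizing x with
  | zero => rfl
  | succ j ih =>
    rw [Function.iterate_succ_apply', Function.iterate_succ_apply', ih]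
    rfl

/-- The shape of the abstract counting theorem needed (for the additive group of units). -/
def AbstractH92 (p : ℕ) (E : Type*) [AddCommGroup E] : Prop :=
  ∀ (s : E ≃+ E), (∀ x, s^[p] x = x) → ∀ (F : AddSubgroup E), (∀ x, x ∈ F ↔ s x = x) →
    ∀ r : ℕ, Module.finrank ℤ F = r → Module.finrank ℤ E + 1 = p * (r + 1) →
      ∃ η : E, (∑ j ∈ Finset.range p, s^[j] η = 0) ∧ ∀ ε : E, η ≠ ε - s ε

theorem hilbert92_of_abstract {p : ℕ} (hodd : Odd p) [IsGalois K L]
    (hdeg : Module.finrank K L = p) (habs : AbstractH92 p (Additive (𝓞 L)ˣ)) :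
    Hilbert92Holds K L := by
  intro σ hσ
  have hord := orderOf_generator hdeg σ hσ
  have hpow : σ ^ p = 1 := by rw [← hord]; exact pow_orderOf_eq_one σ
  set s : Additive (𝓞 L)ˣ ≃+ Additive (𝓞 L)ˣ := (unitsAut σ).toAdditive with hs
  have hiter : ∀ x, s^[p] x = x := by
    intro x
    rw [hs, toAdditive_iterate, unitsAut_pow, hpow]
    apply congrArg Additive.ofMul
    apply Units.ext; apply RingOfIntegers.ext
    rw [coe_unitsAut]; rfl
  let F : AddSubgroup (Additive (𝓞 L)ˣ) := (unitsIncl (K := K) (L := L)).range.toAddSubgroup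
  have hF : ∀ x, x ∈ F ↔ s x = x := by
    intro x
    exact (unitsAut_eq_self_iff σ hσ (Additive.toMul x)).symm
  obtain ⟨η, hη1, hη2⟩ := habs s hiter F hF (Units.rank K) (finrank_fixed σ hσ F hF)
    (finrank_units_add_one hodd hdeg)
  refine ⟨Additive.toMul η, ?_, ?_⟩
  · -- the norm is one
    have h1 : ∏ j ∈ Finset.range p, ((unitsAut σ)^[j]) (Additive.toMul η) = 1 := by
      have := congrArg Additive.toMul hη1
      rw [toMul_sum, toMul_zero] at this
      rw [← this]
      apply Finset.prod_congr rfl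
      intro j _
      rw [hs, toAdditive_iterate]
      rfl
    have h2 : ∏ j ∈ Finset.range p, (σ ^ j) (((Additive.toMul η : (𝓞 L)ˣ) : 𝓞 L) : L) = 1 := by
      have := congrArg (fun w : (𝓞 L)ˣ => ((w : 𝓞 L) : L)) h1
      simp only [Units.coe_prod, map_prod, Units.val_one, map_one] at this
      rw [← this]
      apply Finset.prod_congr rfl
      intro j _
      rw [unitsAut_pow]
      exact (coe_unitsAut (σ ^ j) (Additive.toMul η)).symm
    rw [prod_pow_generator hdeg σ hσ] at h2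
    exact (algebraMap K L).injective (by rw [h2, map_one])
  · intro ε hε
    apply hη2 (Additive.ofMul ε)
    -- η = ε - s ε
    have h3 : Additive.toMul η * unitsAut σ ε = ε := by
      apply Units.ext; apply RingOfIntegers.ext
      rw [Units.val_mul, RingOfIntegers.coe_eq_algebraMap, map_mul,
        ← RingOfIntegers.coe_eq_algebraMap, ← RingOfIntegers.coe_eq_algebraMap, coe_unitsAut]
      exact hε
    have h4 : Additive.toMul η = ε * (unitsAut σ ε)⁻¹ := eq_mul_inv_of_mul_eq h3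
    rw [hs]
    apply Additive.toMul.injective
    rw [h4]
    rfl

end

end Fermat.Agent.Lib.Kummer
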