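/-
KUMMER project: Hilbert's Theorem 92 — bridge between the abstract index-counting theorem
(`H92Abstract.exists_norm_zero_not_mem_range`) and the number-field part (`Hilbert92`).
-/
import Mathlib
import Fermat.Agent.Lib.Kummer.Defs
import Fermat.Agent.Lib.Kummer.Hilbert92
import Fermat.Agent.Lib.Kummer.H92Abstract

set_option autoImplicit false

open NumberField

namespace Fermat.Agent.Lib.Kummer

section Bridge

variable {E : Type*} [AddCommGroup E]

theorem toIntLinearMap_pow_apply (s : E ≃+ E) (j : ℕ) (x : E) :
    ((s.toAddMonoidHom.toIntLinearMap : Module.End ℤ E) ^ j) x = s^[j] x := by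
  induction j generalizing x with
  | zero => rfl
  | succ j ih =>
    rw [pow_succ, Module.End.mul_apply, ih, Function.iterate_succ_apply]
    rfl

/-- The abstract counting theorem in the shape consumed by `hilbert92_of_abstract`. -/
theorem abstractH92_of_finite (p : ℕ) [hp : Fact p.Prime] [Module.Finite ℤ E] :
    AbstractH92 p E := by
  intro s hiter F hF r hr hE
  set σ : Module.End ℤ E := s.toAddMonoidHom.toIntLinearMap with hσdef
  have hσp : σ ^ p = 1 := by
    ext x
    rw [toIntLinearMap_pow_apply, hiter, Module.End.one_apply]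
  have hmem : ∀ x, x ∈ LinearMap.ker (1 - σ) ↔ x ∈ F := fun x => by
    rw [LinearMap.mem_ker, LinearMap.sub_apply, Module.End.one_apply, sub_eq_zero, hF]
    exact eq_comm
  have hrank : Module.finrank ℤ (LinearMap.ker (1 - σ)) = r := by
    rw [← hr]
    let e : (LinearMap.ker (1 - σ)) ≃+ F :=
      { toFun := fun x => ⟨x.1, (hmem x.1).mp x.2⟩
        invFun := fun y => ⟨y.1, (hmem y.1).mpr y.2⟩
        left_inv := fun x => rfl
        right_inv := fun y => rfl
        map_add' := fun x y => rfl }
    exact (e.toIntLinearEquiv).finrank_eq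
  obtain ⟨η, hη, hne⟩ := exists_norm_zero_not_mem_range p σ hσp r hrank hE
  refine ⟨η, ?_, fun ε => hne ε⟩
  rw [LinearMap.sum_apply] at hη
  rw [← hη]
  exact Finset.sum_congr rfl fun j _ => (toIntLinearMap_pow_apply s j η).symm

end Bridge

variable {K L : Type*} [Field K] [NumberField K] [Field L] [NumberField L] [Algebra K L]

/-- **Hilbert's Theorem 92** for cyclic extensions of odd prime degree. -/
theorem hilbert92Holds_of_prime_degree {p : ℕ} [hp : Fact p.Prime] (hp2 : p ≠ 2) [IsGalois K L]
    (hdeg : Module.finrank K L = p) : Hilbert92Holds K L :=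
  hilbert92_of_abstract (hp.out.odd_of_ne_two hp2) hdeg (abstractH92_of_finite p)

end Fermat.Agent.Lib.Kummer
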