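/-
helper4: "Herbrand quotient" q(f) = [M : range f] / |ker f| of endomorphisms of abelian groups:
multiplicativity, value on multiplication by n, and THEOREM Q:
if 1 + s + ... + s^(p-1) = 0 on a f.g. abelian group M of rank (p-1) k then
[M : (s - 1) M] = p ^ k * |ker (s - 1)|.   (Kummer project, abstract Hilbert 92.)
-/
import Mathlib
import Fermat.Agent.Lib.Kummer.H92Aux
import Fermat.Agent.Lib.Kummer.H92Index

namespace Fermat.Agent.Lib.Kummer

open Module

section Q

variable {M : Type*} [AddCommGroup M]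

theorem h4_card_addSubgroupOf (H K : AddSubgroup M) :
    Nat.card (H.addSubgroupOf K) = Nat.card (H ⊓ K : AddSubgroup M) := by
  rw [← AddSubgroup.inf_addSubgroupOf_right]
  exact Nat.card_congr (AddSubgroup.addSubgroupOfEquivOfLe inf_le_right).toEquiv

theorem h4_card_inf_mul_relIndex (H K : AddSubgroup M) :
    Nat.card (H ⊓ K : AddSubgroup M) * H.relIndex K = Nat.card K := by
  rw [← h4_card_addSubgroupOf, AddSubgroup.relIndex, AddSubgroup.card_mul_index]

theorem h4_card_ker_comp (f g : M →+ M) :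
    Nat.card (f.comp g).ker = Nat.card g.ker * Nat.card (g.range ⊓ f.ker : AddSubgroup M) := by
  have hle : g.ker ≤ (f.comp g).ker := by
    intro x hx
    rw [AddMonoidHom.mem_ker] at hx ⊢
    rw [AddMonoidHom.comp_apply, hx, map_zero]
  have h1 := h4_card_inf_mul_relIndex g.ker (f.comp g).ker
  rw [inf_of_le_left hle, AddSubgroup.relIndex_ker, ← AddMonoidHom.comap_ker,
    AddSubgroup.map_comap_eq] at h1
  exact h1.symm

theorem h4_index_range_comp (f g : M →+ M) :
    (f.comp g).range.index = (g.range ⊔ f.ker).index * f.range.index := by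
  rw [← AddMonoidHom.map_range, AddSubgroup.index_map]

theorem h4_index_range_eq (f g : M →+ M) :
    g.range.index = g.range.relIndex f.ker * (g.range ⊔ f.ker).index := by
  rw [← AddSubgroup.relIndex_sup_left f.ker g.range,
    AddSubgroup.relIndex_mul_index (le_sup_left : g.range ≤ g.range ⊔ f.ker)]

theorem h4_q_comp (f g : M →+ M) :
    (f.comp g).range.index * (Nat.card f.ker * Nat.card g.ker) =
      f.range.index * g.range.index * Nat.card (f.comp g).ker := by
  rw [h4_card_ker_comp, h4_index_range_comp, h4_index_range_eq f g,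
    ← h4_card_inf_mul_relIndex g.range f.ker]
  ring

/-- An endomorphism with finite kernel and finite-index range. -/
def H4Good (f : M →+ M) : Prop := Nat.card f.ker ≠ 0 ∧ f.range.index ≠ 0

/-- The "Herbrand quotient" `[M : range f] / |ker f|` of an endomorphism. -/
noncomputable def h4q (f : M →+ M) : ℚ := (f.range.index : ℚ) / (Nat.card f.ker : ℚ)

theorem H4Good.comp {f g : M →+ M} (hf : H4Good f) (hg : H4Good g) : H4Good (f.comp g) := by
  refine ⟨?_, ?_⟩
  · rw [h4_card_ker_comp]
    have h := h4_card_inf_mul_relIndex g.range f.ker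
    have h2 : Nat.card (g.range ⊓ f.ker : AddSubgroup M) ≠ 0 := by
      intro h0
      rw [h0, zero_mul] at h
      exact hf.1 h.symm
    exact mul_ne_zero hg.1 h2
  · rw [h4_index_range_comp]
    have h := h4_index_range_eq f g
    have h2 : (g.range ⊔ f.ker).index ≠ 0 := by
      intro h0
      rw [h0, mul_zero] at h
      exact hg.2 h
    exact mul_ne_zero h2 hf.2

theorem h4q_comp {f g : M →+ M} (hf : H4Good f) (hg : H4Good g) :
    h4q (f.comp g) = h4q f * h4q g := by
  have h := h4_q_comp f g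
  have hfg := hf.comp hg
  unfold h4q
  have h1 : (Nat.card f.ker : ℚ) ≠ 0 := by exact_mod_cast hf.1
  have h2 : (Nat.card g.ker : ℚ) ≠ 0 := by exact_mod_cast hg.1
  have h3 : (Nat.card (f.comp g).ker : ℚ) ≠ 0 := by exact_mod_cast hfg.1
  have h' : ((f.comp g).range.index : ℚ) * ((Nat.card f.ker : ℚ) * (Nat.card g.ker : ℚ)) =
      (f.range.index : ℚ) * (g.range.index : ℚ) * (Nat.card (f.comp g).ker : ℚ) := by
    exact_mod_cast h
  field_simp
  linear_combination h'

theorem h4q_pos {f : M →+ M} (hf : H4Good f) : 0 < h4q f := by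
  unfold h4q
  have h1 : (0 : ℚ) < (Nat.card f.ker : ℚ) := by exact_mod_cast Nat.pos_of_ne_zero hf.1
  have h2 : (0 : ℚ) < (f.range.index : ℚ) := by exact_mod_cast Nat.pos_of_ne_zero hf.2
  positivity

theorem h4Good_of_bijective {f : M →+ M} (hf : Function.Bijective f) :
    H4Good f ∧ h4q f = 1 := by
  have hk : f.ker = ⊥ := (AddMonoidHom.ker_eq_bot_iff f).mpr hf.1
  have hr : f.range = ⊤ := AddMonoidHom.range_eq_top.mpr hf.2
  refine ⟨⟨?_, ?_⟩, ?_⟩
  · rw [hk]; simp
  · rw [hr]; simp
  · unfold h4q; rw [hk, hr]; simp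

theorem h4_finite_ker_nsmul (M : Type*) [AddCommGroup M] [Module.Finite ℤ M] (n : ℕ)
    (hn : n ≠ 0) : Finite (nsmulAddMonoidHom n : M →+ M).ker := by
  have : Finite (Submodule.torsion ℤ M) :=
    Module.finite_of_fg_torsion _ (Submodule.torsion_isTorsion (R := ℤ) (M := M))
  let φ : (nsmulAddMonoidHom n : M →+ M).ker → Submodule.torsion ℤ M := fun x =>
    ⟨x.1, by
      rw [Submodule.mem_torsion_iff]
      refine ⟨⟨(n : ℤ), mem_nonZeroDivisors_of_ne_zero (by exact_mod_cast hn)⟩, ?_⟩
      have := x.2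
      rw [AddMonoidHom.mem_ker, nsmulAddMonoidHom_apply] at this
      simpa using this⟩
  refine Finite.of_injective φ (fun x y h => Subtype.ext ?_)
  exact congrArg (fun z : Submodule.torsion ℤ M => (z : M)) h

/-- explicit identity coercion `AddMonoid.End M → (M →+ M)`. -/
def h4ofEnd (f : AddMonoid.End M) : M →+ M := f

@[simp] theorem h4ofEnd_apply (f : AddMonoid.End M) (x : M) : h4ofEnd f x = f x := rfl
theorem h4ofEnd_mul (f g : AddMonoid.End M) : h4ofEnd (f * g) = (h4ofEnd f).comp (h4ofEnd g) := rfl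
theorem h4ofEnd_one : h4ofEnd (1 : AddMonoid.End M) = AddMonoidHom.id M := rfl

theorem h4Good_pow {t : AddMonoid.End M} (ht : H4Good (h4ofEnd t)) (n : ℕ) :
    H4Good (h4ofEnd (t ^ n)) ∧ h4q (h4ofEnd (t ^ n)) = h4q (h4ofEnd t) ^ n := by
  induction n with
  | zero =>
    rw [pow_zero, pow_zero, h4ofEnd_one]
    exact h4Good_of_bijective (f := AddMonoidHom.id M) Function.bijective_id
  | succ n ih =>
    rw [pow_succ', h4ofEnd_mul]
    exact ⟨ht.comp ih.1, by rw [pow_succ', ← ih.2]; exact h4q_comp ht ih.1⟩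

end Q

/-- multiplication by `n` is good on a f.g. abelian group, with `q = n ^ rank`. -/
theorem h4Good_nsmul (M : Type*) [AddCommGroup M] [Module.Finite ℤ M] (n : ℕ) (hn : n ≠ 0) :
    H4Good (nsmulAddMonoidHom n : M →+ M) ∧
      h4q (nsmulAddMonoidHom n : M →+ M) = (n : ℚ) ^ finrank ℤ M := by
  have hfin := h4_finite_ker_nsmul M n hn
  have hc : Nat.card (nsmulAddMonoidHom n : M →+ M).ker ≠ 0 := Nat.card_pos.ne'
  have hidx := h4_index_range_nsmul M n hn
  have hi : (nsmulAddMonoidHom n : M →+ M).range.index ≠ 0 := by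
    rw [hidx]; exact mul_ne_zero (pow_ne_zero _ hn) hc
  refine ⟨⟨hc, hi⟩, ?_⟩
  unfold h4q
  rw [hidx]
  have hc' : (Nat.card (nsmulAddMonoidHom n : M →+ M).ker : ℚ) ≠ 0 := by exact_mod_cast hc
  push_cast
  field_simp

/-- **Theorem Q**, ring form. -/
theorem h4_index_range_sub_one (M : Type*) [AddCommGroup M] [Module.Finite ℤ M] (p : ℕ)
    [hp : Fact p.Prime] (s : AddMonoid.End M) (hs : ∑ j ∈ Finset.range p, s ^ j = 0) (k : ℕ)
    (hk : finrank ℤ M = (p - 1) * k) :
    Nat.card (h4ofEnd (s - 1)).ker ≠ 0 ∧ (h4ofEnd (s - 1)).range.index ≠ 0 ∧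
    (h4ofEnd (s - 1)).range.index = p ^ k * Nat.card (h4ofEnd (s - 1)).ker := by
  obtain ⟨u, hu, hcomm⟩ := exists_unit_natCast_eq_sub_one_pow_mul p s hs
  set t : AddMonoid.End M := s - 1 with ht
  have hp1 : p - 1 ≠ 0 := by have := hp.out.two_le; omega
  obtain ⟨m, hm⟩ := Nat.exists_eq_succ_of_ne_zero hp1
  have hct : Commute (u : AddMonoid.End M) t := hcomm.sub_right (Commute.one_right _)
  have hu' : (p : AddMonoid.End M) = (u : AddMonoid.End M) * t ^ (p - 1) := by
    rw [hu]; exact ((hct.pow_right _).eq).symm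
  -- p as an endomorphism
  have hpe : h4ofEnd (p : AddMonoid.End M) = nsmulAddMonoidHom p := by
    ext x
    rw [h4ofEnd_apply, AddMonoid.End.natCast_apply, nsmulAddMonoidHom_apply]
  obtain ⟨hgp, hqp⟩ := h4Good_nsmul M p hp.out.ne_zero
  rw [← hpe] at hgp hqp
  -- u is bijective
  have hub : Function.Bijective (h4ofEnd (u : AddMonoid.End M)) := by
    refine Function.bijective_iff_has_inverse.mpr
      ⟨h4ofEnd ((u⁻¹ : (AddMonoid.End M)ˣ) : AddMonoid.End M), fun x => ?_, fun x => ?_⟩
    · show h4ofEnd (((u⁻¹ : (AddMonoid.End M)ˣ) : AddMonoid.End M) * (u : AddMonoid.End M)) x = x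
      rw [Units.inv_mul]; rfl
    · show h4ofEnd ((u : AddMonoid.End M) * ((u⁻¹ : (AddMonoid.End M)ˣ) : AddMonoid.End M)) x = x
      rw [Units.mul_inv]; rfl
  obtain ⟨hgu, hqu⟩ := h4Good_of_bijective hub
  -- t is good
  have hgt : H4Good (h4ofEnd t) := by
    refine ⟨?_, ?_⟩
    · have hle : (h4ofEnd t).ker ≤ (h4ofEnd (p : AddMonoid.End M)).ker := by
        intro x hx
        have hx' : t x = 0 := hx
        show (p : AddMonoid.End M) x = 0
        have h2 : (t ^ (p - 1) : AddMonoid.End M) x = 0 := by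
          rw [hm, pow_succ]
          show (t ^ m : AddMonoid.End M) (t x) = 0
          rw [hx', map_zero]
        rw [hu']
        show (u : AddMonoid.End M) ((t ^ (p - 1) : AddMonoid.End M) x) = 0
        rw [h2, map_zero]
      have := Nat.finite_of_card_ne_zero hgp.1
      have : Finite (h4ofEnd t).ker :=
        Finite.of_injective (AddSubgroup.inclusion hle) (AddSubgroup.inclusion_injective hle)
      exact Nat.card_pos.ne'
    · have hle : (h4ofEnd (p : AddMonoid.End M)).range ≤ (h4ofEnd t).range := by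
        rintro x ⟨y, rfl⟩
        refine ⟨(t ^ m : AddMonoid.End M) ((u : AddMonoid.End M) y), ?_⟩
        rw [hu, hm, pow_succ']
        rfl
      exact fun h0 => hgp.2 (Nat.eq_zero_of_zero_dvd (h0 ▸ AddSubgroup.index_dvd_of_le hle))
  obtain ⟨hgtn, hqtn⟩ := h4Good_pow hgt (p - 1)
  have hq : h4q (h4ofEnd (p : AddMonoid.End M)) = h4q (h4ofEnd t) ^ (p - 1) := by
    rw [hu, h4ofEnd_mul]
    have := h4q_comp hgtn hgu
    rw [hqtn, hqu, mul_one] at this
    exact this
  rw [hqp, hk, pow_mul'] at hq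
  have hqt : h4q (h4ofEnd t) = (p : ℚ) ^ k :=
    ((pow_left_inj₀ (by positivity) (h4q_pos hgt).le hp1).mp hq).symm
  refine ⟨hgt.1, hgt.2, ?_⟩
  unfold h4q at hqt
  have hc' : (Nat.card (h4ofEnd t).ker : ℚ) ≠ 0 := by exact_mod_cast hgt.1
  rw [div_eq_iff hc'] at hqt
  exact_mod_cast hqt

/-- **Theorem Q**, pointwise form: if `1 + s + ⋯ + s^(p-1) = 0` on a f.g. abelian group `M` of
rank `(p-1) k`, then `s - id` has finite kernel, finite-index range, and
`[M : (s - 1) M] = p ^ k * |ker (s - 1)|`. -/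
theorem h4_index_range_sub_id (M : Type*) [AddCommGroup M] [Module.Finite ℤ M] (p : ℕ)
    [hp : Fact p.Prime] (s : M →+ M) (hs : ∀ x, ∑ j ∈ Finset.range p, (s^[j]) x = 0) (k : ℕ)
    (hk : finrank ℤ M = (p - 1) * k) :
    Nat.card (s - AddMonoidHom.id M).ker ≠ 0 ∧ (s - AddMonoidHom.id M).range.index ≠ 0 ∧
    (s - AddMonoidHom.id M).range.index = p ^ k * Nat.card (s - AddMonoidHom.id M).ker := by
  let S : AddMonoid.End M := s
  have hS : ∑ j ∈ Finset.range p, S ^ j = 0 := by
    have key : ∀ (n : ℕ) (x : M),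
        (∑ j ∈ Finset.range n, S ^ j) x = ∑ j ∈ Finset.range n, (s^[j]) x := by
      intro n x
      induction n with
      | zero => rfl
      | succ n ih =>
        rw [Finset.sum_range_succ, Finset.sum_range_succ, ← ih]
        show (∑ j ∈ Finset.range n, S ^ j) x + (S ^ n) x = _
        rw [AddMonoid.End.coe_pow]
        rfl
    ext x
    rw [key p x, hs x]
    rfl
  have h := h4_index_range_sub_one M p S hS k hk
  have he : h4ofEnd (S - 1) = s - AddMonoidHom.id M := by
    ext x; rfl
  rwa [he] at h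

end Fermat.Agent.Lib.Kummer
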