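/-
KUMMER project, piece (H94): Hilbert's Theorem 94 in the class-number-one case.
If `𝓞 K` is a PID, there is no unramified cyclic extension `L/K` of prime degree satisfying the
conclusion of Hilbert 92.

NOTE: `K L : Type` (universe `0`) because Mathlib's Hilbert 90
(`groupCohomology.exists_mul_galRestrict_of_norm_eq_one`) is only available there.
-/
import Mathlib
import Fermat.Agent.Lib.Kummer.Defs

set_option autoImplicit false
set_option linter.style.haveILetI false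
set_option linter.unusedVariables false

open NumberField Polynomial UniqueFactorizationMonoid

namespace Fermat.Agent.Lib.Kummer

section H94

variable {K L : Type*} [Field K] [NumberField K] [Field L] [NumberField L] [Algebra K L]

/-- In an unramified Galois extension, every nonzero Galois-invariant ideal of `𝓞 L` is extended
from `𝓞 K`. -/
theorem h94_exists_map_eq_of_invariant [IsGalois K L] (hunr : IsUnramifiedExt K L)
    (𝔟 : Ideal (𝓞 L)) (h0 : 𝔟 ≠ ⊥)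
    (hinv : ∀ τ : L ≃ₐ[K] L, 𝔟.comap (galRestrict (𝓞 K) K L (𝓞 L) τ) = 𝔟) :
    ∃ 𝔞 : Ideal (𝓞 K), 𝔞.map (algebraMap (𝓞 K) (𝓞 L)) = 𝔟 := by
  classical
  revert h0 hinv
  induction 𝔟 using IsNoetherian.induction with
  | hgt 𝔟 ih =>
  intro h0 hinv
  by_cases htop : 𝔟 = ⊤
  · exact ⟨⊤, by rw [htop, Ideal.map_top]⟩
  obtain ⟨𝔓, h𝔓max, h𝔟𝔓⟩ := Ideal.exists_le_maximal 𝔟 htop
  have h𝔓prime : 𝔓.IsPrime := h𝔓max.isPrime
  have h𝔓0 : 𝔓 ≠ ⊥ := fun h => h0 (le_bot_iff.mp (h ▸ h𝔟𝔓))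
  set 𝔭 : Ideal (𝓞 K) := 𝔓.under (𝓞 K) with h𝔭def
  have h𝔭prime : 𝔭.IsPrime := Ideal.IsPrime.under (𝓞 K) 𝔓
  have h𝔭0 : 𝔭 ≠ ⊥ := Ideal.under_ne_bot (𝓞 K) h𝔓0
  have h𝔭max : 𝔭.IsMaximal := h𝔭prime.isMaximal h𝔭0
  set 𝔮 : Ideal (𝓞 L) := 𝔭.map (algebraMap (𝓞 K) (𝓞 L)) with h𝔮def
  have h𝔮0 : 𝔮 ≠ ⊥ := Ideal.map_ne_bot_of_ne_bot h𝔭0
  have h𝔮𝔓 : 𝔮 ≤ 𝔓 := Ideal.map_comap_le
  have h𝔓over : 𝔓 ∈ Ideal.primesOver 𝔭 (𝓞 L) := ⟨h𝔓prime, ⟨rfl⟩⟩
  -- key step: `𝔮 ∣ 𝔟`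
  have hdvd : 𝔮 ∣ 𝔟 := by
    rw [dvd_iff_normalizedFactors_le_normalizedFactors h𝔮0 h0, Multiset.le_iff_count]
    intro a
    by_cases ha : a ∈ normalizedFactors 𝔮
    · obtain ⟨haprime, hle⟩ := (Ideal.mem_normalizedFactors_iff h𝔮0).1 ha
      have hcount : (normalizedFactors 𝔮).count a = 1 :=
        Ideal.count_normalizedFactors_eq (by simpa using hle)
          (hunr 𝔭 h𝔭prime h𝔭0 a haprime hle)
      rw [hcount, Multiset.one_le_count_iff_mem, Ideal.mem_normalizedFactors_iff h0]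
      refine ⟨haprime, ?_⟩
      have haover : a ∈ Ideal.primesOver 𝔭 (𝓞 L) := by
        refine ⟨haprime, ⟨?_⟩⟩
        have h1 : 𝔭 ≤ a.under (𝓞 K) := Ideal.map_le_iff_le_comap.mp hle
        have h2 : a.under (𝓞 K) ≠ ⊤ := (Ideal.IsPrime.under (𝓞 K) a).ne_top
        exact h𝔭max.eq_of_le h2 h1
      obtain ⟨σ, hσ⟩ := Ideal.exists_comap_galRestrict_eq (𝓞 K) K L (𝓞 L) h𝔓over haover
      rw [← hσ, ← hinv σ]
      exact Ideal.comap_mono h𝔟𝔓
    · rw [Multiset.count_eq_zero_of_notMem ha]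
      exact Nat.zero_le _
  obtain ⟨𝔟', h𝔟'⟩ := hdvd
  have h𝔟'0 : 𝔟' ≠ ⊥ := by
    rintro rfl
    exact h0 (by rw [h𝔟', Ideal.mul_bot])
  -- `𝔟'` is invariant
  have hinv' : ∀ τ : L ≃ₐ[K] L, 𝔟'.comap (galRestrict (𝓞 K) K L (𝓞 L) τ) = 𝔟' := by
    intro τ
    set e := galRestrict (𝓞 K) K L (𝓞 L) τ with he
    have hcm : ∀ I : Ideal (𝓞 L), I.comap e = I.map (e.symm : 𝓞 L →+* 𝓞 L) := by
      intro I
      exact (Ideal.map_symm (e : 𝓞 L ≃+* 𝓞 L)).symm
    have h1 : 𝔮.map (e.symm : 𝓞 L →+* 𝓞 L) = 𝔮 := by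
      rw [h𝔮def, Ideal.map_map]
      congr 1
      apply RingHom.ext
      intro x
      exact e.symm.commutes x
    have h2 := hinv τ
    rw [hcm, h𝔟', Ideal.map_mul, h1] at h2
    rw [hcm]
    exact mul_left_cancel₀ h𝔮0 h2
  have hlt : 𝔟 < 𝔟' := by
    refine lt_of_le_of_ne (h𝔟' ▸ Ideal.mul_le_right) ?_
    intro heq
    have h3 : 𝔮 * 𝔟' = 1 * 𝔟' := by rw [one_mul, ← h𝔟', heq]
    have h4 : 𝔮 = 1 := mul_right_cancel₀ h𝔟'0 h3
    exact h𝔓max.ne_top (top_le_iff.mp (by rw [← Ideal.one_eq_top, ← h4]; exact h𝔮𝔓))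
  obtain ⟨𝔞', h𝔞'⟩ := ih 𝔟' hlt h𝔟'0 hinv'
  exact ⟨𝔭 * 𝔞', by rw [Ideal.map_mul, h𝔞', h𝔟']⟩

end H94

section Main

variable {p : ℕ} [Fact p.Prime]

/-- **(H94)** If `𝓞 K` is a PID, an unramified Galois extension `L/K` of prime degree `p` cannot
satisfy the conclusion of Hilbert 92. -/
theorem false_of_isUnramifiedExt_of_pid (hp2 : p ≠ 2) (K L : Type) [Field K] [NumberField K]
    [Field L] [NumberField L] [Algebra K L] [IsGalois K L] [IsPrincipalIdealRing (𝓞 K)]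
    (hdeg : Module.finrank K L = p) (hunr : IsUnramifiedExt K L)
    (h92 : Hilbert92Holds K L) : False := by
  classical
  have hcard : Nat.card (L ≃ₐ[K] L) = p := by rw [IsGalois.card_aut_eq_finrank, hdeg]
  haveI : IsCyclic (L ≃ₐ[K] L) := isCyclic_of_prime_card hcard
  obtain ⟨σ, hσ⟩ := IsCyclic.exists_generator (α := L ≃ₐ[K] L)
  obtain ⟨η, hη1, hη2⟩ := h92 σ hσ
  -- integral Hilbert 90
  obtain ⟨β, hβ0, hβ⟩ := groupCohomology.exists_mul_galRestrict_of_norm_eq_one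
    (A := 𝓞 K) (B := 𝓞 L) (K := K) (L := L) hσ (η := (η : 𝓞 L)) hη1
  set g := galRestrict (𝓞 K) K L (𝓞 L) with hg
  -- the ideal `(β)` is Galois invariant
  have hspan0 : Ideal.span {β} ≠ ⊥ := by
    rw [Ne, Ideal.span_singleton_eq_bot]; exact hβ0
  let H : Subgroup (L ≃ₐ[K] L) :=
    { carrier := {τ | (Ideal.span {β}).comap (g τ) = Ideal.span {β}}
      one_mem' := by
        show (Ideal.span {β}).comap (g 1) = Ideal.span {β}
        rw [map_one]
        exact Ideal.comap_id _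
      mul_mem' := by
        intro τ₁ τ₂ h₁ h₂
        show (Ideal.span {β}).comap (g (τ₁ * τ₂)) = Ideal.span {β}
        have h3 : (Ideal.span {β}).comap (g (τ₁ * τ₂)) =
            ((Ideal.span {β}).comap (g τ₁)).comap (g τ₂) := by
          rw [map_mul]
          rfl
        rw [h3, h₁, h₂]
      inv_mem' := by
        intro τ h₁
        show (Ideal.span {β}).comap (g τ⁻¹) = Ideal.span {β}
        have h3 : (Ideal.span {β}).comap (g τ⁻¹) =
            (((Ideal.span {β}).comap (g τ)).comap (g τ⁻¹)) := by rw [h₁]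
        rw [h3]
        have h4 : (((Ideal.span {β}).comap (g τ)).comap (g τ⁻¹)) =
            (Ideal.span {β}).comap (g (τ * τ⁻¹)) := by
          rw [map_mul]
          rfl
        rw [h4, mul_inv_cancel, map_one]
        exact Ideal.comap_id _ }
  have hσH : σ ∈ H := by
    show (Ideal.span {β}).comap (g σ) = Ideal.span {β}
    have h1 : (Ideal.span {β}).map (g σ) = Ideal.span {β} := by
      rw [Ideal.map_span, Set.image_singleton, Ideal.span_singleton_eq_span_singleton]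
      refine ⟨η, ?_⟩
      rw [mul_comm]
      exact hβ
    conv_lhs => rw [← h1]
    exact Ideal.comap_map_of_bijective _ (g σ).bijective
  have hinv : ∀ τ : L ≃ₐ[K] L, (Ideal.span {β}).comap (g τ) = Ideal.span {β} := by
    intro τ
    have : τ ∈ H := (Subgroup.zpowers_le.mpr hσH) (hσ τ)
    exact this
  obtain ⟨𝔞, h𝔞⟩ := h94_exists_map_eq_of_invariant hunr (Ideal.span {β}) hspan0 hinv
  obtain ⟨m, hm⟩ := (IsPrincipalIdealRing.principal 𝔞).principal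
  have hm' : 𝔞 = Ideal.span {m} := hm
  rw [hm', Ideal.map_span, Set.image_singleton, Ideal.span_singleton_eq_span_singleton] at h𝔞
  obtain ⟨ε, hε⟩ := h𝔞
  -- `β = m ε`
  have hm0 : algebraMap (𝓞 K) (𝓞 L) m ≠ 0 := by
    intro h
    rw [h, zero_mul] at hε
    exact hβ0 hε.symm
  have h5 : (η : 𝓞 L) * g σ (ε : 𝓞 L) = (ε : 𝓞 L) := by
    have h6 : (η : 𝓞 L) * g σ (algebraMap (𝓞 K) (𝓞 L) m * ε) =
        algebraMap (𝓞 K) (𝓞 L) m * ε := by rw [hε]; exact hβ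
    rw [map_mul, (g σ).commutes] at h6
    have h7 : algebraMap (𝓞 K) (𝓞 L) m * ((η : 𝓞 L) * g σ (ε : 𝓞 L)) =
        algebraMap (𝓞 K) (𝓞 L) m * ε := by rw [← h6]; ring
    exact mul_left_cancel₀ hm0 h7
  apply hη2 ε
  have h8 := congrArg (algebraMap (𝓞 L) L) h5
  rw [map_mul, algebraMap_galRestrict_apply] at h8
  exact h8

end Main

end Fermat.Agent.Lib.Kummer
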