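/-
KUMMER project, piece (KL2): if `u` is a unit of `𝓞 K` (`K = ℚ(ζ_p)`) with `u ≡ 1 mod (ζ-1)^p`
which is not a `p`-th power, then `L = K(u^{1/p})` is unramified over `K` at all finite primes.

Proof: `θ = (α - 1)/λ` (`α^p = u`, `λ = ζ - 1`) is a root of the monic polynomial
`g = ((λX+1)^p - u)/λ^p ∈ 𝓞 K[X]`, and `g'(θ) = (p/λ^(p-1)) α^(p-1)` is a unit of `𝓞 L`; hence the
different ideal of `𝓞 L / 𝓞 K` is trivial.
-/
import Mathlib
import Fermat.Agent.Lib.Kummer.Defs

set_option autoImplicit false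

open NumberField Polynomial

namespace Fermat.Agent.Lib.Kummer

section PolyPart

variable {R : Type*} [CommRing R] [IsDomain R]

/-- If `l^(p-1) ∣ p` and `l^p ∣ u - 1` then `((lX+1)^p - u)/l^p` is a monic polynomial of degree
`p` over `R`. -/
theorem exists_monic_kummerPoly {p : ℕ} (hp : p.Prime) {l u : R} (hl0 : l ≠ 0)
    (hlp : l ^ (p - 1) ∣ (p : R)) (hu : l ^ p ∣ u - 1) :
    ∃ g : R[X], g.Monic ∧ g.natDegree = p ∧
      (C l * X + 1) ^ p - C u = C (l ^ p) * g := by
  have hp1 : 1 ≤ p := hp.one_lt.le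
  have hcoeff : ∀ i, ((C l * X + 1) ^ p - C u : R[X]).coeff i =
      (p.choose i : R) * l ^ i - if i = 0 then u else 0 := by
    intro i
    have h1 : (C l * X + 1 : R[X]) ^ p = ((X + 1) ^ p : R[X]).comp (C l * X) := by
      simp
    rw [coeff_sub, h1, comp_C_mul_X_coeff, coeff_X_add_one_pow, coeff_C]
  have hdvd : C (l ^ p) ∣ ((C l * X + 1) ^ p - C u : R[X]) := by
    rw [C_dvd_iff_dvd_coeff]
    intro i
    rw [hcoeff]
    rcases Nat.eq_zero_or_pos i with rfl | hi
    · simp only [Nat.choose_zero_right, Nat.cast_one, pow_zero, mul_one, if_true]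
      rw [← dvd_neg, neg_sub]
      exact hu
    · rw [if_neg hi.ne', sub_zero]
      rcases lt_trichotomy i p with hlt | rfl | hgt
      · have h2 : (p : R) ∣ (p.choose i : R) := by
          exact_mod_cast Nat.cast_dvd_cast (α := R) (hp.dvd_choose_self hi.ne' hlt)
        have h3 : l ^ (p - 1) * l ^ i ∣ (p.choose i : R) * l ^ i :=
          mul_dvd_mul_right (hlp.trans h2) _
        refine dvd_trans ?_ h3
        rw [← pow_add]
        exact pow_dvd_pow l (by omega)
      · simp
      · rw [Nat.choose_eq_zero_of_lt hgt]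
        simp
  obtain ⟨g, hg⟩ := hdvd
  have hlp0 : l ^ p ≠ 0 := pow_ne_zero _ hl0
  have hgcoeff : ∀ i, l ^ p * g.coeff i = (p.choose i : R) * l ^ i - if i = 0 then u else 0 := by
    intro i
    rw [← hcoeff, hg, coeff_C_mul]
  have hgp : g.coeff p = 1 := by
    have := hgcoeff p
    rw [Nat.choose_self, if_neg (by omega), sub_zero, Nat.cast_one, one_mul] at this
    exact mul_left_cancel₀ hlp0 (by rw [this, mul_one])
  have hgbig : ∀ i, p < i → g.coeff i = 0 := by
    intro i hi
    have := hgcoeff i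
    rw [Nat.choose_eq_zero_of_lt hi, if_neg (by omega)] at this
    simp only [Nat.cast_zero, zero_mul, sub_zero] at this
    exact (mul_eq_zero.mp this).resolve_left hlp0
  have hdeg : g.natDegree ≤ p := by
    rw [natDegree_le_iff_coeff_eq_zero]
    exact hgbig
  have hmonic : g.Monic := monic_of_natDegree_le_of_coeff_eq_one p hdeg hgp
  refine ⟨g, hmonic, ?_, hg⟩
  refine le_antisymm hdeg ?_
  exact le_natDegree_of_ne_zero (by rw [hgp]; exact one_ne_zero)

end PolyPart

attribute [local instance] FractionRing.liftAlgebra FractionRing.isScalarTower_liftAlgebra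

section Different

variable (K L : Type*) [Field K] [NumberField K] [Field L] [NumberField L] [Algebra K L]

/-- If the different ideal is trivial, the extension is unramified. -/
theorem isUnramifiedExt_of_differentIdeal_eq_top
    (h : differentIdeal (𝓞 K) (𝓞 L) = ⊤) : IsUnramifiedExt K L := by
  intro P hP hP0 Q hQ hPQ hPQ2
  have : P.IsMaximal := hP.isMaximal hP0
  have h1 : Q ^ 2 ∣ P.map (algebraMap (𝓞 K) (𝓞 L)) := Ideal.dvd_iff_le.mpr hPQ2
  have h2 := pow_sub_one_dvd_differentIdeal (𝓞 K) Q 2 hP0 h1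
  rw [h, show 2 - 1 = 1 from rfl, pow_one, Ideal.dvd_iff_le, top_le_iff] at h2
  exact hQ.ne_top h2

/-- If some integral generator has a unit value of the derivative of its minimal polynomial,
the different ideal is trivial. -/
theorem differentIdeal_eq_top_of_isUnit (x : 𝓞 L)
    (hx : Algebra.adjoin K {algebraMap (𝓞 L) L x} = ⊤)
    (hunit : IsUnit (aeval x (derivative (minpoly (𝓞 K) x)))) :
    differentIdeal (𝓞 K) (𝓞 L) = ⊤ :=
  Ideal.eq_top_of_isUnit_mem _ (aeval_derivative_mem_differentIdeal (𝓞 K) K L x hx) hunit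

end Different

section Main

variable {p : ℕ} [Fact p.Prime] {K : Type*} [Field K] [NumberField K]
  [IsCyclotomicExtension {p} ℚ K] {ζ : K}

/-- No `p`-th root of a non-`p`-th-power unit in `K`. -/
theorem forall_pow_ne_of_not_exists_unit (u : (𝓞 K)ˣ) (hnot : ¬ ∃ v : (𝓞 K)ˣ, u = v ^ p) :
    ∀ b : K, b ^ p ≠ (((u : 𝓞 K) : 𝓞 K) : K) := by
  have hp : p.Prime := Fact.out
  intro b hb
  have hbint : IsIntegral ℤ b := by
    apply IsIntegral.of_pow hp.pos
    rw [hb]
    exact RingOfIntegers.isIntegral_coe _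
  let b' : 𝓞 K := ⟨b, hbint⟩
  have hb' : b' ^ p = u := by
    apply RingOfIntegers.ext
    show algebraMap (𝓞 K) K (b' ^ p) = _
    rw [map_pow]
    exact hb
  have hbu : IsUnit b' := by
    have : IsUnit (b' ^ p) := hb' ▸ u.isUnit
    exact (isUnit_pow_iff hp.ne_zero).mp this
  obtain ⟨w, hw⟩ := hbu
  exact hnot ⟨w, Units.ext (by rw [Units.val_pow_eq_pow_val, hw, hb'])⟩

/-- **(KL2)** If `u ≡ 1 mod (ζ-1)^p` is a unit of `𝓞 K`, `K = ℚ(ζ_p)`, which is not a `p`-th
power, then `L = K(u^{1/p})` is unramified over `K` at every finite prime. (`hp2` is not needed.) -/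
theorem isUnramifiedExt_kummer (_hp2 : p ≠ 2) (hζ : IsPrimitiveRoot ζ p) (u : (𝓞 K)ˣ)
    (hu : (hζ.toInteger - 1) ^ p ∣ (u : 𝓞 K) - 1) (hnot : ¬ ∃ v : (𝓞 K)ˣ, u = v ^ p)
    (L : Type*) [Field L] [NumberField L] [Algebra K L]
    [IsSplittingField K L (X ^ p - C ((u : 𝓞 K) : K))] : IsUnramifiedExt K L := by
  have hp : p.Prime := Fact.out
  set l : 𝓞 K := hζ.toInteger - 1 with hl
  have hl0 : l ≠ 0 := hζ.zeta_sub_one_prime'.ne_zero
  obtain ⟨v, hv⟩ := IsCyclotomicExtension.Rat.associated_zeta_sub_one_pow_prime p hζ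
  rw [← hl] at hv
  have hlp : l ^ (p - 1) ∣ (p : 𝓞 K) := ⟨v, hv.symm⟩
  obtain ⟨g, hgm, hgd, hg⟩ := exists_monic_kummerPoly hp hl0 hlp hu
  have hno := forall_pow_ne_of_not_exists_unit u hnot
  have hirr : Irreducible (X ^ p - C (((u : 𝓞 K) : 𝓞 K) : K)) :=
    X_pow_sub_C_irreducible_of_prime hp hno
  have hprim : (primitiveRoots p K).Nonempty := ⟨ζ, (mem_primitiveRoots hp.pos).mpr hζ⟩
  set α : L := rootOfSplitsXPowSubC hp.pos (((u : 𝓞 K) : 𝓞 K) : K) L with hα_def
  have hα : α ^ p = algebraMap K L (((u : 𝓞 K) : 𝓞 K) : K) := rootOfSplitsXPowSubC_pow _ L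
  have hαtop : Algebra.adjoin K {α} = ⊤ :=
    Algebra.adjoin_root_eq_top_of_isSplittingField hprim hirr hα
  have hfin : Module.finrank K L = p := finrank_of_isSplittingField_X_pow_sub_C hprim hirr L
  -- the generator `θ = (α - 1)/λ`
  have hinjKL : Function.Injective (algebraMap (𝓞 K) L) :=
    FaithfulSMul.algebraMap_injective (𝓞 K) L
  have hinjL : Function.Injective (algebraMap (𝓞 L) L) :=
    FaithfulSMul.algebraMap_injective (𝓞 L) L
  have hinjKK : Function.Injective (algebraMap (𝓞 K) (𝓞 L)) :=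
    FaithfulSMul.algebraMap_injective (𝓞 K) (𝓞 L)
  set lL : L := algebraMap (𝓞 K) L l with hlL
  have hlL0 : lL ≠ 0 := by
    rw [hlL, Ne, map_eq_zero_iff _ hinjKL]
    exact hl0
  set θ : L := (α - 1) / lL with hθ
  have hθα : lL * θ + 1 = α := by
    rw [hθ]; field_simp; ring
  have huL : algebraMap K L (((u : 𝓞 K) : 𝓞 K) : K) = algebraMap (𝓞 K) L (u : 𝓞 K) :=
    (IsScalarTower.algebraMap_apply (𝓞 K) K L _).symm
  have hgθ : aeval θ g = 0 := by
    have h := congrArg (aeval θ) hg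
    simp only [map_sub, map_pow, map_add, map_mul, aeval_C, aeval_X, map_one] at h
    rw [← hlL, hθα, hα, huL, sub_self] at h
    exact (mul_eq_zero.mp h.symm).resolve_left (pow_ne_zero _ hlL0)
  have hint : IsIntegral (𝓞 K) θ := ⟨g, hgm, by rwa [← aeval_def]⟩
  set θ' : 𝓞 L := IsIntegralClosure.mk' (𝓞 L) θ hint with hθ'_def
  have hθ' : algebraMap (𝓞 L) L θ' = θ := IsIntegralClosure.algebraMap_mk' (𝓞 L) θ hint
  -- `θ` generates `L` over `K`
  have hθtop : Algebra.adjoin K {algebraMap (𝓞 L) L θ'} = ⊤ := by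
    rw [hθ', eq_top_iff, ← hαtop]
    apply Algebra.adjoin_le
    rw [Set.singleton_subset_iff, SetLike.mem_coe, ← hθα]
    refine add_mem (mul_mem ?_ (Algebra.subset_adjoin (Set.mem_singleton θ))) (one_mem _)
    rw [hlL, IsScalarTower.algebraMap_apply (𝓞 K) K L]
    exact Subalgebra.algebraMap_mem _ _
  -- `g` is the minimal polynomial of `θ'`
  have hgθ' : aeval θ' g = 0 := by
    apply hinjL
    rw [← aeval_algebraMap_apply, hθ', hgθ, map_zero]
  have hint' : IsIntegral (𝓞 K) θ' := ⟨g, hgm, by rwa [← aeval_def]⟩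
  have hdvd : minpoly (𝓞 K) θ' ∣ g := minpoly.isIntegrallyClosed_dvd hint' hgθ'
  have hdeg : (minpoly (𝓞 K) θ').natDegree = p := by
    have h1 : minpoly K θ = (minpoly (𝓞 K) θ).map (algebraMap (𝓞 K) K) :=
      minpoly.isIntegrallyClosed_eq_field_fractions' K hint
    have h2 : minpoly (𝓞 K) θ = minpoly (𝓞 K) θ' := by
      rw [← hθ']
      exact minpoly.algebraMap_eq hinjL θ'
    have h3 : (minpoly K θ).natDegree = Module.finrank K L := by
      rw [← Field.primitive_element_iff_minpoly_natDegree_eq]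
      apply IntermediateField.adjoin_eq_top_of_algebra
      rw [← hθ']
      exact hθtop
    rw [← hfin, ← h3, h1, h2, (minpoly.monic hint').natDegree_map]
  have hmin : minpoly (𝓞 K) θ' = g :=
    (eq_of_monic_of_dvd_of_natDegree_le (minpoly.monic hint') hgm hdvd (by rw [hdeg, hgd])).symm
  -- the derivative `g'(θ')` is a unit
  set l' : 𝓞 L := algebraMap (𝓞 K) (𝓞 L) l with hl'
  have hl'0 : l' ≠ 0 := by
    rw [hl', Ne, map_eq_zero_iff _ hinjKK]
    exact hl0
  set α' : 𝓞 L := l' * θ' + 1 with hα'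
  have hα'p : α' ^ p = algebraMap (𝓞 K) (𝓞 L) (u : 𝓞 K) := by
    have h := congrArg (aeval θ') hg
    simp only [map_sub, map_pow, map_add, map_mul, aeval_C, aeval_X, map_one] at h
    rw [hgθ', mul_zero, ← hl', ← hα', sub_eq_zero] at h
    exact h
  have hα'u : IsUnit α' := by
    rw [← isUnit_pow_iff hp.ne_zero, hα'p]
    exact u.isUnit.map _
  have hpL : (p : 𝓞 L) = l' ^ (p - 1) * algebraMap (𝓞 K) (𝓞 L) (v : 𝓞 K) := by
    rw [hl', ← map_pow, ← map_mul, hv, map_natCast]
  have hder : aeval θ' (derivative g) = algebraMap (𝓞 K) (𝓞 L) (v : 𝓞 K) * α' ^ (p - 1) := by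
    have h := congrArg (fun q => aeval θ' (derivative q)) hg
    simp only [derivative_C, derivative_pow, derivative_mul,
      derivative_X, derivative_one, map_sub, map_pow, map_add, map_mul, aeval_C, aeval_X, map_one,
      map_zero, zero_mul, mul_one, add_zero, zero_add, sub_zero, map_natCast] at h
    rw [← hl', ← hα'] at h
    have h' : l' ^ p * aeval θ' (derivative g) = ↑p * α' ^ (p - 1) * l' := by
      rw [h]; ring
    apply mul_left_cancel₀ (pow_ne_zero p hl'0)
    rw [h', hpL]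
    have hpow : l' ^ p = l' ^ (p - 1) * l' := by
      rw [← pow_succ, Nat.sub_add_cancel hp.one_lt.le]
    rw [hpow]
    ring
  have hunit : IsUnit (aeval θ' (derivative (minpoly (𝓞 K) θ'))) := by
    rw [hmin, hder]
    exact (v.isUnit.map _).mul (hα'u.pow _)
  exact isUnramifiedExt_of_differentIdeal_eq_top K L
    (differentIdeal_eq_top_of_isUnit K L θ' hθtop hunit)

end Main

end Fermat.Agent.Lib.Kummer
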