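/-
Kummer project (S10, S11): the ring of integers of the seventh cyclotomic field is a PID.
-/
import Mathlib
import Fermat.Agent.Lib.Kummer.PIDTools

set_option autoImplicit false

noncomputable section

namespace Fermat.Agent.Lib.Kummer

open NumberField Polynomial InfinitePlace Nat Real cyclotomic Ideal IsCyclotomicExtension.Rat

variable (K : Type*) [Field K] [NumberField K]

theorem minkowski_seven_lt [IsCyclotomicExtension {7} ℚ K] :
    (4 / π) ^ nrComplexPlaces K *
      ((Module.finrank ℚ K)! / (Module.finrank ℚ K) ^ (Module.finrank ℚ K) * √|discr K|) < 5 := by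
  have : Fact (Nat.Prime 7) := ⟨by norm_num⟩
  rw [discr_prime 7 K, IsCyclotomicExtension.finrank (n := 7) K
    (irreducible_rat (by simp)), nrComplexPlaces_eq_totient_div_two 7,
    totient_prime (by norm_num : Nat.Prime 7)]
  norm_num
  have h1 : 4 / π < 4 / 3.14 := by
    apply div_lt_div_of_pos_left (by norm_num) (by norm_num) pi_gt_d2
  have h2 : √(16807 : ℝ) < 129.65 := by
    rw [Real.sqrt_lt' (by norm_num)]
    norm_num
  have h3 : (0 : ℝ) < 4 / π := by positivity
  calc (4 / π) ^ 3 * (5 / 324 * √16807) < (4 / 3.14) ^ 3 * (5 / 324 * 129.65) := by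
        gcongr
    _ < 5 := by norm_num

/-- lower bound for the order of an element of the units of `ZMod 7` -/
theorem three_le_orderOf_zmod_seven (x : ZMod 7) (h6 : x ^ 6 = 1) (h1 : x ≠ 1)
    (h2 : x ^ 2 ≠ 1) : 3 ≤ orderOf x := by
  have hd : orderOf x ∣ 6 := orderOf_dvd_of_pow_eq_one h6
  have hpos : 0 < orderOf x := Nat.pos_of_dvd_of_pos hd (by norm_num)
  have hne1 : orderOf x ≠ 1 := fun h => h1 (orderOf_eq_one_iff.mp h)
  have hne2 : orderOf x ≠ 2 := fun h => h2 (h ▸ pow_orderOf_eq_one x)
  omega

/-- the ring of integers of the seventh cyclotomic field is a principal ideal domain -/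
theorem seven_pid [IsCyclotomicExtension {7} ℚ K] : IsPrincipalIdealRing (𝓞 K) := by
  have : IsGalois ℚ K := IsCyclotomicExtension.isGalois {7} ℚ K
  have hM := minkowski_seven_lt K
  have hfl : ⌊(4 / π) ^ nrComplexPlaces K *
      ((Module.finrank ℚ K)! / (Module.finrank ℚ K) ^ (Module.finrank ℚ K) * √|discr K|)⌋₊ ≤ 4 := by
    rw [← Nat.lt_succ_iff, Nat.floor_lt (by positivity)]
    exact_mod_cast hM
  apply RingOfIntegers.isPrincipalIdealRing_of_isPrincipal_of_lt_or_isPrincipal_of_mem_primesOver_of_mem_Icc
  intro p hp hprime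
  rw [Finset.mem_Icc] at hp
  have hp4 : p ≤ 4 := hp.2.trans hfl
  have h23 : p = 2 ∨ p = 3 := by
    interval_cases p <;> simp_all (config := {decide := true})
  rcases h23 with rfl | rfl
  · exact exists_prime_over_large K 7 2 hprime (by norm_num) _ 3
      (three_le_orderOf_zmod_seven _ (by decide) (by decide) (by decide))
      (lt_of_le_of_lt hfl (by norm_num))
  · exact exists_prime_over_large K 7 3 hprime (by norm_num) _ 3
      (three_le_orderOf_zmod_seven _ (by decide) (by decide) (by decide))
      (lt_of_le_of_lt hfl (by norm_num))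

end Fermat.Agent.Lib.Kummer
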