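/-
Kummer project (S10, S11): the ring of integers of the 13-th cyclotomic field is a PID.
Minkowski bound < 307; every prime p <= 306 other than 3, 13, 53, 79, 131, 157 has
p ^ (residue degree) > 306; the remaining primes have an explicit principal prime above them
(Kummer-Dedekind + explicit generators).
-/
import Mathlib
import Fermat.Agent.Lib.Kummer.PIDTools

set_option autoImplicit false

namespace Fermat.Agent.Lib.Kummer

section ThirteenMinkowski

open NumberField Polynomial InfinitePlace Nat Real Module IsCyclotomicExtension.Rat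

variable (K : Type*) [Field K] [NumberField K] [IsCyclotomicExtension {13} ℚ K]




theorem thirteen_minkowski_lt :
    (4 / π) ^ nrComplexPlaces K *
      ((finrank ℚ K)! / (finrank ℚ K) ^ (finrank ℚ K) * √|discr K|) < 307 := by
  have h13 : Fact (Nat.Prime 13) := ⟨by norm_num⟩
  rw [discr_prime 13 K, IsCyclotomicExtension.finrank (n := 13) K
    (cyclotomic.irreducible_rat (by simp)), nrComplexPlaces_eq_totient_div_two 13,
    totient_prime (by norm_num : Nat.Prime 13)]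
  have e1 : ((13 - 1) / 2 : ℕ) = 6 := by norm_num
  have e2 : (13 - 1 : ℕ) = 12 := by norm_num
  have e3 : (13 - 2 : ℕ) = 11 := by norm_num
  rw [e1, e2, e3]
  have e4 : |((((-1 : ℤ) ^ 6 * ((13 : ℕ) : ℤ) ^ 11 : ℤ)) : ℝ)| = (13 : ℝ) ^ 11 := by
    push_cast
    norm_num
  rw [e4]
  have e5 : ((12 ! : ℕ) : ℝ) = 479001600 := by
    norm_num [Nat.factorial]
  rw [e5]
  have hπ : (3.1415 : ℝ) < π := pi_gt_d4
  have h1 : 4 / π < 4 / 3.1415 := by
    apply div_lt_div_of_pos_left (by norm_num) (by norm_num) hπ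
  have h1' : (4 / π) ^ 6 < (4 / 3.1415 : ℝ) ^ 6 := by
    gcongr
  have hs : √((13 : ℝ) ^ 11) < 13 ^ 5 * 3.60556 := by
    rw [Real.sqrt_lt' (by positivity)]
    norm_num
  have hpos : (0 : ℝ) < 479001600 / ((12 : ℕ) : ℝ) ^ 12 := by positivity
  calc (4 / π) ^ 6 * (479001600 / ((12 : ℕ) : ℝ) ^ 12 * √((13 : ℝ) ^ 11))
      < (4 / 3.1415 : ℝ) ^ 6 * (479001600 / ((12 : ℕ) : ℝ) ^ 12 * (13 ^ 5 * 3.60556)) := by
        gcongr
    _ < 307 := by norm_num


end ThirteenMinkowski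

section ThirteenOrders


/-- Table of multiplicative orders modulo `13`. -/
def ord13 (r : ZMod 13) : ℕ := ![0, 1, 12, 3, 6, 4, 12, 12, 4, 3, 6, 12, 2] r

theorem ord13_pos : ∀ r : ZMod 13, r ≠ 0 → 0 < ord13 r := by decide

theorem ord13_spec : ∀ r : ZMod 13, r ≠ 0 →
    r ^ (ord13 r) = 1 ∧ ∀ m < ord13 r, 0 < m → r ^ m ≠ 1 := by decide

theorem orderOf_eq_ord13 (r : ZMod 13) (hr : r ≠ 0) : orderOf r = ord13 r := by
  rw [orderOf_eq_iff (ord13_pos r hr)]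
  exact ord13_spec r hr

set_option maxRecDepth 100000 in
theorem thirteen_key : ∀ p : ℕ, p ≤ 306 → p.Prime →
    p ∉ ({13, 3, 53, 79, 131, 157} : Finset ℕ) → 306 < p ^ ord13 (p : ZMod 13) := by
  decide


end ThirteenOrders

section ThirteenPrimes

open NumberField Polynomial Ideal RingOfIntegers NumberField.Ideal IsCyclotomicExtension.Rat

variable (K : Type*) [Field K] [NumberField K] [IsCyclotomicExtension {13} ℚ K]




/-- The chosen primitive 13-th root of unity in `𝓞 K`. -/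
noncomputable def zeta13 : 𝓞 K := (IsCyclotomicExtension.zeta_spec 13 ℚ K).toInteger

theorem zeta13_isPrimitiveRoot : IsPrimitiveRoot (zeta13 K) 13 :=
  (IsCyclotomicExtension.zeta_spec 13 ℚ K).toInteger_isPrimitiveRoot

theorem zeta13_sum : 1 + zeta13 K + zeta13 K ^ 2 + zeta13 K ^ 3 + zeta13 K ^ 4 + zeta13 K ^ 5
    + zeta13 K ^ 6 + zeta13 K ^ 7 + zeta13 K ^ 8 + zeta13 K ^ 9 + zeta13 K ^ 10 + zeta13 K ^ 11
    + zeta13 K ^ 12 = 0 := by
  have := (zeta13_isPrimitiveRoot K).geom_sum_eq_zero (by norm_num)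
  simpa [Finset.sum_range_succ] using this

theorem minpoly_zeta13 : minpoly ℤ (zeta13 K) = cyclotomic 13 ℤ := by
  have h := cyclotomic_eq_minpoly (IsCyclotomicExtension.zeta_spec 13 ℚ K) (by norm_num)
  rw [h, ← (IsCyclotomicExtension.zeta_spec 13 ℚ K).coe_toInteger, ← RingOfIntegers.minpoly_coe]
  rfl

theorem not_dvd_exponent_zeta13 (q : ℕ) [hq : Fact q.Prime] : ¬ q ∣ exponent (zeta13 K) := by
  have : exponent (zeta13 K) = 1 :=
    exponent_eq_one_iff.mpr <| adjoin_singleton_eq_top (IsCyclotomicExtension.zeta_spec 13 ℚ K)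
  rw [this]
  exact hq.out.not_dvd_one

/-- A principal prime above `q` from a monic irreducible factor `Q` of `Φ₁₃` mod `q` and a
generator `α` of `(q, Q(ζ))`. -/
theorem exists_isPrincipal_primesOver (q : ℕ) [hq : Fact q.Prime] (Q : ℤ[X]) (hQm : Q.Monic)
    (hQirr : Irreducible (Q.map (Int.castRingHom (ZMod q))))
    (hQdvd : Q.map (Int.castRingHom (ZMod q)) ∣ cyclotomic 13 (ZMod q))
    (α : 𝓞 K) (hα : span {(q : 𝓞 K), aeval (zeta13 K) Q} = span {α}) :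
    ∃ P ∈ primesOver (span {(q : ℤ)}) (𝓞 K), Submodule.IsPrincipal P := by
  have hmem : Q.map (Int.castRingHom (ZMod q)) ∈ monicFactorsMod (zeta13 K) q := by
    rw [Multiset.mem_toFinset, Polynomial.mem_normalizedFactors_iff
      (map_monic_ne_zero (minpoly.monic (zeta13 K).isIntegral))]
    refine ⟨hQirr, hQm.map _, ?_⟩
    rw [minpoly_zeta13, map_cyclotomic_int]
    exact hQdvd
  have hp := not_dvd_exponent_zeta13 K q
  refine ⟨span {(q : 𝓞 K), aeval (zeta13 K) Q}, ?_, ?_⟩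
  · rw [← primesOverSpanEquivMonicFactorsMod_symm_apply_eq_span hp hmem]
    exact ((primesOverSpanEquivMonicFactorsMod hp).symm ⟨_, hmem⟩).prop
  · rw [hα]
    exact ⟨⟨α, rfl⟩⟩


theorem cubic13_not_isRoot : ∀ x : ZMod 3, ¬ (X ^ 3 - (X + 1) : (ZMod 3)[X]).IsRoot x := by
  intro x
  simp only [IsRoot.def, eval_sub, eval_add, eval_pow, eval_X, eval_one]
  revert x
  decide

theorem exists_isPrincipal_primesOver_3 :
    ∃ P ∈ primesOver (span {((3 : ℕ) : ℤ)}) (𝓞 K), Submodule.IsPrincipal P := by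
  have hq : Fact (Nat.Prime 3) := ⟨by norm_num⟩
  have h13 : Fact (Nat.Prime 13) := ⟨by norm_num⟩
  set ζ := zeta13 K with hζdef
  have hsum := zeta13_sum K
  rw [← hζdef] at hsum
  have hdeg : ((X + 1 : ℤ[X])).degree < ((3 : ℕ) : WithBot ℕ) := by
    rw [show (X + 1 : ℤ[X]) = X + C 1 by simp, degree_X_add_C]
    norm_num
  have hdeg' : ((X + 1 : (ZMod 3)[X])).degree < ((3 : ℕ) : WithBot ℕ) := by
    rw [show (X + 1 : (ZMod 3)[X]) = X + C 1 by simp, degree_X_add_C]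
    norm_num
  have hmap : (X ^ 3 - (X + 1) : ℤ[X]).map (Int.castRingHom (ZMod 3)) = X ^ 3 - (X + 1) := by
    simp
  refine exists_isPrincipal_primesOver K 3 (X ^ 3 - (X + 1)) (monic_X_pow_sub hdeg) ?_ ?_
    (1 + ζ - ζ ^ 3) ?_
  · rw [hmap]
    apply irreducible_of_degree_le_three_of_not_isRoot
    · have : (X ^ 3 - (X + 1) : (ZMod 3)[X]).natDegree = 3 := by compute_degree!
      rw [this]; decide
    · exact cubic13_not_isRoot
  · rw [hmap]
    have h3 : (3 : (ZMod 3)[X]) = 0 := by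
      exact_mod_cast CharP.cast_eq_zero (ZMod 3)[X] 3
    have hfac : cyclotomic 13 (ZMod 3) = (X ^ 3 - (X + 1)) * (20 + 15 * X + 11 * X ^ 2 + 8 * X ^ 3
        + 6 * X ^ 4 + 4 * X ^ 5 + 3 * X ^ 6 + 2 * X ^ 7 + X ^ 8 + X ^ 9) := by
      rw [cyclotomic_prime]
      simp only [Finset.sum_range_succ, Finset.sum_range_zero]
      linear_combination (7 + 12 * X + 9 * X ^ 2) * h3
    rw [hfac]
    exact dvd_mul_right _ _
  · have e1 : (1 + ζ - ζ ^ 3) * (-1 - ζ ^ 2 - ζ ^ 3 - 2 * ζ ^ 5 - ζ ^ 7 - 2 * ζ ^ 8 + ζ ^ 9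
        - 3 * ζ ^ 10) = ((3 : ℕ) : 𝓞 K) := by
      push_cast
      linear_combination (-4 + 3 * ζ) * hsum
    have haev : aeval ζ (X ^ 3 - (X + 1) : ℤ[X]) = ζ ^ 3 - (ζ + 1) := by
      simp
    rw [haev]
    apply le_antisymm
    · rw [span_le]
      rintro x (rfl | hx)
      · exact mem_span_singleton.mpr ⟨_, e1.symm⟩
      · rw [Set.mem_singleton_iff] at hx
        rw [hx]
        exact mem_span_singleton.mpr ⟨-1, by ring⟩
    · rw [span_le]
      rintro x hx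
      rw [Set.mem_singleton_iff] at hx
      rw [hx]
      exact mem_span_pair.mpr ⟨0, -1, by ring⟩



set_option maxRecDepth 100000 in
theorem exists_isPrincipal_primesOver_53 :
    ∃ P ∈ primesOver (span {((53 : ℕ) : ℤ)}) (𝓞 K), Submodule.IsPrincipal P := by
  have hq : Fact (Nat.Prime 53) := ⟨by norm_num⟩
  have h13 : Fact (Nat.Prime 13) := ⟨by norm_num⟩
  set ζ := zeta13 K with hζdef
  have hsum := zeta13_sum K
  rw [← hζdef] at hsum
  refine exists_isPrincipal_primesOver K 53 (X - C 16) (monic_X_sub_C _) ?_ ?_ (1 - ζ + ζ ^ 3) ?_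
  · rw [Polynomial.map_sub, map_X, map_C]
    exact irreducible_X_sub_C _
  · rw [Polynomial.map_sub, map_X, map_C, dvd_iff_isRoot, IsRoot.def, cyclotomic_prime,
      eval_finsetSum]
    simp only [eval_pow, eval_X]
    decide +revert
  · have e1 : (1 - ζ + ζ ^ 3) * (25 + 10 * ζ + 19 * ζ ^ 2 + 3 * ζ ^ 3 + 2 * ζ ^ 4 - 8 * ζ ^ 5 - 2 * ζ ^ 6 + 5 * ζ ^ 7 + 22 * ζ ^ 8 + 33 * ζ ^ 9 + 37 * ζ ^ 10 + 24 * ζ ^ 11) = ((53 : ℕ) : 𝓞 K) := by
      push_cast
      linear_combination (-28 + 13 * ζ + 24 * ζ ^ 2) * hsum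
    have e2 : (1 - ζ + ζ ^ 3) * (-8 - 3 * ζ - 6 * ζ ^ 2 - ζ ^ 3 - ζ ^ 4 + 2 * ζ ^ 5 - 2 * ζ ^ 7 - 7 * ζ ^ 8 - 10 * ζ ^ 9 - 11 * ζ ^ 10 - 7 * ζ ^ 11) = ζ - 16 := by
      linear_combination (8 - 4 * ζ - 7 * ζ ^ 2) * hsum
    have e3 : (77 : 𝓞 K) * ((53 : ℕ) : 𝓞 K) + (255 + 16 * ζ + ζ ^ 2) * (ζ - 16) = 1 - ζ + ζ ^ 3 := by
      push_cast
      ring
    have haev : aeval ζ (X - C (16 : ℤ)) = ζ - 16 := by
      rw [map_sub, aeval_X, aeval_C, eq_intCast]
      norm_num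
    rw [haev]
    apply le_antisymm
    · rw [span_le]
      rintro x (rfl | hx)
      · exact mem_span_singleton.mpr ⟨_, e1.symm⟩
      · rw [Set.mem_singleton_iff] at hx
        rw [hx]
        exact mem_span_singleton.mpr ⟨_, e2.symm⟩
    · rw [span_le]
      rintro x hx
      rw [Set.mem_singleton_iff] at hx
      rw [hx]
      exact mem_span_pair.mpr ⟨_, _, e3⟩


set_option maxRecDepth 100000 in
theorem exists_isPrincipal_primesOver_79 :
    ∃ P ∈ primesOver (span {((79 : ℕ) : ℤ)}) (𝓞 K), Submodule.IsPrincipal P := by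
  have hq : Fact (Nat.Prime 79) := ⟨by norm_num⟩
  have h13 : Fact (Nat.Prime 13) := ⟨by norm_num⟩
  set ζ := zeta13 K with hζdef
  have hsum := zeta13_sum K
  rw [← hζdef] at hsum
  refine exists_isPrincipal_primesOver K 79 (X - C 62) (monic_X_sub_C _) ?_ ?_ (1 - ζ - ζ ^ 4) ?_
  · rw [Polynomial.map_sub, map_X, map_C]
    exact irreducible_X_sub_C _
  · rw [Polynomial.map_sub, map_X, map_C, dvd_iff_isRoot, IsRoot.def, cyclotomic_prime,
      eval_finsetSum]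
    simp only [eval_pow, eval_X]
    decide +revert
  · have e1 : (1 - ζ - ζ ^ 4) * (62 + 63 * ζ + 49 * ζ ^ 2 + 8 * ζ ^ 3 + 29 * ζ ^ 4 + 51 * ζ ^ 5 + 59 * ζ ^ 6 + 26 * ζ ^ 7 + 14 * ζ ^ 8 + 24 * ζ ^ 9 + 42 * ζ ^ 10 + 27 * ζ ^ 11) = ((79 : ℕ) : 𝓞 K) := by
      push_cast
      linear_combination (-17 + 18 * ζ - 15 * ζ ^ 2 - 27 * ζ ^ 3) * hsum
    have e2 : (1 - ζ - ζ ^ 4) * (-49 - 49 * ζ - 38 * ζ ^ 2 - 6 * ζ ^ 3 - 23 * ζ ^ 4 - 40 * ζ ^ 5 - 46 * ζ ^ 6 - 20 * ζ ^ 7 - 11 * ζ ^ 8 - 19 * ζ ^ 9 - 33 * ζ ^ 10 - 21 * ζ ^ 11) = ζ - 62 := by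
      linear_combination (13 - 14 * ζ + 12 * ζ ^ 2 + 21 * ζ ^ 3) * hsum
    have e3 : (-187043 : 𝓞 K) * ((79 : ℕ) : 𝓞 K) + (-238329 - 3844 * ζ - 62 * ζ ^ 2 - ζ ^ 3) * (ζ - 62) = 1 - ζ - ζ ^ 4 := by
      push_cast
      ring
    have haev : aeval ζ (X - C (62 : ℤ)) = ζ - 62 := by
      rw [map_sub, aeval_X, aeval_C, eq_intCast]
      norm_num
    rw [haev]
    apply le_antisymm
    · rw [span_le]
      rintro x (rfl | hx)
      · exact mem_span_singleton.mpr ⟨_, e1.symm⟩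
      · rw [Set.mem_singleton_iff] at hx
        rw [hx]
        exact mem_span_singleton.mpr ⟨_, e2.symm⟩
    · rw [span_le]
      rintro x hx
      rw [Set.mem_singleton_iff] at hx
      rw [hx]
      exact mem_span_pair.mpr ⟨_, _, e3⟩


set_option maxRecDepth 100000 in
theorem exists_isPrincipal_primesOver_131 :
    ∃ P ∈ primesOver (span {((131 : ℕ) : ℤ)}) (𝓞 K), Submodule.IsPrincipal P := by
  have hq : Fact (Nat.Prime 131) := ⟨by norm_num⟩
  have h13 : Fact (Nat.Prime 13) := ⟨by norm_num⟩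
  set ζ := zeta13 K with hζdef
  have hsum := zeta13_sum K
  rw [← hζdef] at hsum
  refine exists_isPrincipal_primesOver K 131 (X - C 80) (monic_X_sub_C _) ?_ ?_ (1 - ζ - ζ ^ 3) ?_
  · rw [Polynomial.map_sub, map_X, map_C]
    exact irreducible_X_sub_C _
  · rw [Polynomial.map_sub, map_X, map_C, dvd_iff_isRoot, IsRoot.def, cyclotomic_prime,
      eval_finsetSum]
    simp only [eval_pow, eval_X]
    decide +revert
  · have e1 : (1 - ζ - ζ ^ 3) * (111 + 78 * ζ + 17 * ζ ^ 2 + 67 * ζ ^ 3 + 84 * ζ ^ 4 + 40 * ζ ^ 5 + 46 * ζ ^ 6 + 69 * ζ ^ 7 + 48 * ζ ^ 8 + 33 * ζ ^ 9 + 41 * ζ ^ 10 + 28 * ζ ^ 11) = ((131 : ℕ) : 𝓞 K) := by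
      push_cast
      linear_combination (-20 - 13 * ζ - 28 * ζ ^ 2) * hsum
    have e2 : (1 - ζ - ζ ^ 3) * (-68 - 47 * ζ - 10 * ζ ^ 2 - 41 * ζ ^ 3 - 51 * ζ ^ 4 - 24 * ζ ^ 5 - 28 * ζ ^ 6 - 42 * ζ ^ 7 - 29 * ζ ^ 8 - 20 * ζ ^ 9 - 25 * ζ ^ 10 - 17 * ζ ^ 11) = ζ - 80 := by
      linear_combination (12 + 8 * ζ + 17 * ζ ^ 2) * hsum
    have e3 : (-3909 : 𝓞 K) * ((131 : ℕ) : 𝓞 K) + (-6401 - 80 * ζ - ζ ^ 2) * (ζ - 80) = 1 - ζ - ζ ^ 3 := by
      push_cast
      ring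
    have haev : aeval ζ (X - C (80 : ℤ)) = ζ - 80 := by
      rw [map_sub, aeval_X, aeval_C, eq_intCast]
      norm_num
    rw [haev]
    apply le_antisymm
    · rw [span_le]
      rintro x (rfl | hx)
      · exact mem_span_singleton.mpr ⟨_, e1.symm⟩
      · rw [Set.mem_singleton_iff] at hx
        rw [hx]
        exact mem_span_singleton.mpr ⟨_, e2.symm⟩
    · rw [span_le]
      rintro x hx
      rw [Set.mem_singleton_iff] at hx
      rw [hx]
      exact mem_span_pair.mpr ⟨_, _, e3⟩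


set_option maxRecDepth 100000 in
theorem exists_isPrincipal_primesOver_157 :
    ∃ P ∈ primesOver (span {((157 : ℕ) : ℤ)}) (𝓞 K), Submodule.IsPrincipal P := by
  have hq : Fact (Nat.Prime 157) := ⟨by norm_num⟩
  have h13 : Fact (Nat.Prime 13) := ⟨by norm_num⟩
  set ζ := zeta13 K with hζdef
  have hsum := zeta13_sum K
  rw [← hζdef] at hsum
  refine exists_isPrincipal_primesOver K 157 (X - C 75) (monic_X_sub_C _) ?_ ?_ (1 - ζ + ζ ^ 2 + ζ ^ 4) ?_
  · rw [Polynomial.map_sub, map_X, map_C]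
    exact irreducible_X_sub_C _
  · rw [Polynomial.map_sub, map_X, map_C, dvd_iff_isRoot, IsRoot.def, cyclotomic_prime,
      eval_finsetSum]
    simp only [eval_pow, eval_X]
    decide +revert
  · have e1 : (1 - ζ + ζ ^ 2 + ζ ^ 4) * (89 + 86 * ζ + 42 * ζ ^ 2 + 77 * ζ ^ 3 + 67 * ζ ^ 4 + 25 * ζ ^ 5 + 37 * ζ ^ 6 + 56 * ζ ^ 7 + 73 * ζ ^ 8 + 113 * ζ ^ 9 + 124 * ζ ^ 10 + 76 * ζ ^ 11) = ((157 : ℕ) : 𝓞 K) := by
      push_cast
      linear_combination (-68 + 65 * ζ + 48 * ζ ^ 2 + 76 * ζ ^ 3) * hsum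
    have e2 : (1 - ζ + ζ ^ 2 + ζ ^ 4) * (-43 - 41 * ζ - 20 * ζ ^ 2 - 37 * ζ ^ 3 - 32 * ζ ^ 4 - 12 * ζ ^ 5 - 18 * ζ ^ 6 - 27 * ζ ^ 7 - 35 * ζ ^ 8 - 54 * ζ ^ 9 - 59 * ζ ^ 10 - 36 * ζ ^ 11) = ζ - 75 := by
      linear_combination (32 - 31 * ζ - 23 * ζ ^ 2 - 36 * ζ ^ 3) * hsum
    have e3 : (201568 : 𝓞 K) * ((157 : ℕ) : 𝓞 K) + (421949 + 5626 * ζ + 75 * ζ ^ 2 + ζ ^ 3) * (ζ - 75) = 1 - ζ + ζ ^ 2 + ζ ^ 4 := by
      push_cast
      ring
    have haev : aeval ζ (X - C (75 : ℤ)) = ζ - 75 := by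
      rw [map_sub, aeval_X, aeval_C, eq_intCast]
      norm_num
    rw [haev]
    apply le_antisymm
    · rw [span_le]
      rintro x (rfl | hx)
      · exact mem_span_singleton.mpr ⟨_, e1.symm⟩
      · rw [Set.mem_singleton_iff] at hx
        rw [hx]
        exact mem_span_singleton.mpr ⟨_, e2.symm⟩
    · rw [span_le]
      rintro x hx
      rw [Set.mem_singleton_iff] at hx
      rw [hx]
      exact mem_span_pair.mpr ⟨_, _, e3⟩

end ThirteenPrimes

section ThirteenAssembly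

open NumberField Polynomial InfinitePlace Nat Real Module Ideal IsCyclotomicExtension.Rat

variable (K : Type*) [Field K] [NumberField K] [IsCyclotomicExtension {13} ℚ K]

/-- The ring of integers of the `13`-th cyclotomic field is a principal ideal domain. -/
theorem thirteen_pid : IsPrincipalIdealRing (𝓞 K) := by
  have : IsGalois ℚ K := IsCyclotomicExtension.isGalois {13} ℚ K
  have hM := thirteen_minkowski_lt K
  have hfl : ⌊(4 / π) ^ nrComplexPlaces K *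
      ((finrank ℚ K)! / (finrank ℚ K) ^ (finrank ℚ K) * √|discr K|)⌋₊ ≤ 306 := by
    rw [← Nat.lt_succ_iff, Nat.floor_lt (by positivity)]
    exact_mod_cast hM
  apply RingOfIntegers.isPrincipalIdealRing_of_isPrincipal_of_lt_or_isPrincipal_of_mem_primesOver_of_mem_Icc
  intro p hp hprime
  rw [Finset.mem_Icc] at hp
  have hp306 : p ≤ 306 := hp.2.trans hfl
  have hB : ∀ n : ℕ, 306 < n → ⌊(4 / π) ^ nrComplexPlaces K *
      ((finrank ℚ K)! / (finrank ℚ K) ^ (finrank ℚ K) * √|discr K|)⌋₊ < n :=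
    fun n hn => lt_of_le_of_lt hfl hn
  by_cases hmem : p ∈ ({13, 3, 53, 79, 131, 157} : Finset ℕ)
  · simp only [Finset.mem_insert, Finset.mem_singleton] at hmem
    rcases hmem with rfl | rfl | rfl | rfl | rfl | rfl
    · have : Fact (Nat.Prime 13) := ⟨by norm_num⟩
      exact exists_principal_prime_over_self K 13 _
    · obtain ⟨P, hP, hPp⟩ := exists_isPrincipal_primesOver_3 K
      exact ⟨P, hP, Or.inr hPp⟩
    · obtain ⟨P, hP, hPp⟩ := exists_isPrincipal_primesOver_53 K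
      exact ⟨P, hP, Or.inr hPp⟩
    · obtain ⟨P, hP, hPp⟩ := exists_isPrincipal_primesOver_79 K
      exact ⟨P, hP, Or.inr hPp⟩
    · obtain ⟨P, hP, hPp⟩ := exists_isPrincipal_primesOver_131 K
      exact ⟨P, hP, Or.inr hPp⟩
    · obtain ⟨P, hP, hPp⟩ := exists_isPrincipal_primesOver_157 K
      exact ⟨P, hP, Or.inr hPp⟩
  · have h13 : ¬ p ∣ 13 := by
      intro hdvd
      have : p = 13 := (Nat.prime_dvd_prime_iff_eq hprime (by norm_num)).mp hdvd
      apply hmem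
      rw [this]
      simp
    have hne : ((p : ℕ) : ZMod 13) ≠ 0 := by
      intro h0
      rw [ZMod.natCast_eq_zero_iff] at h0
      have : p = 13 := ((Nat.prime_dvd_prime_iff_eq (by norm_num) hprime).mp h0).symm
      apply hmem
      rw [this]
      simp
    exact exists_prime_over_large K 13 p hprime h13 _ (ord13 (p : ZMod 13))
      (le_of_eq (orderOf_eq_ord13 _ hne).symm) (hB _ (thirteen_key p hp306 hprime hmem))

end ThirteenAssembly

end Fermat.Agent.Lib.Kummer
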