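/-
KUMMER project: final assembly.

* `kummersLemma_of_pid`: Kummer's lemma for `K = ℚ(ζ_p)` with `𝓞 K` a PID, from (KL1)
  `exists_unit_sub_one_of_not_pow`, (KL2) `isUnramifiedExt_kummer`, (H92)
  `hilbert92Holds_of_prime_degree` and (H94) `false_of_isUnramifiedExt_of_pid`.
* `flt_of_pid`: Fermat's Last Theorem for a prime exponent `p ≥ 5` with `ℤ[ζ_p]` a PID.
* `flt_five`, `flt_seven`, `flt_eleven`, `flt_thirteen`.
-/
import Mathlib
import Fermat.Agent.Lib.Kummer.Defs
import Fermat.Agent.Lib.Kummer.KummerReduce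
import Fermat.Agent.Lib.Kummer.KummerUnramified
import Fermat.Agent.Lib.Kummer.Hilbert94
import Fermat.Agent.Lib.Kummer.H92Main
import Fermat.Agent.Lib.Kummer.CaseI
import Fermat.Agent.Lib.Kummer.CaseII
import Fermat.Agent.Lib.Kummer.SevenPID
import Fermat.Agent.Lib.Kummer.ElevenPID
import Fermat.Agent.Lib.Kummer.ThirteenPID

set_option autoImplicit false

open NumberField Polynomial

namespace Fermat.Agent.Lib.Kummer

/-- **Kummer's lemma** for `K = ℚ(ζ_p)` (in universe `0`) when `𝓞 K` is a PID. -/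
theorem kummersLemma_of_pid {p : ℕ} [Fact p.Prime] (hp2 : p ≠ 2) (K : Type) [Field K]
    [NumberField K] [IsCyclotomicExtension {p} ℚ K] [IsPrincipalIdealRing (𝓞 K)] :
    KummersLemmaHolds p K := by
  have hp : p.Prime := Fact.out
  intro u hu
  by_contra hnot
  have hζ := IsCyclotomicExtension.zeta_spec p ℚ K
  obtain ⟨w, hw, hwnot⟩ := exists_unit_sub_one_of_not_pow hp2 hζ u hu hnot
  have hno := forall_pow_ne_of_not_exists_unit w hwnot
  have hirr : Irreducible (X ^ p - C (((w : 𝓞 K) : 𝓞 K) : K)) :=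
    X_pow_sub_C_irreducible_of_prime hp hno
  have hprim : (primitiveRoots p K).Nonempty := ⟨_, (mem_primitiveRoots hp.pos).mpr hζ⟩
  let L := (X ^ p - C (((w : 𝓞 K) : 𝓞 K) : K)).SplittingField
  have : NumberField L := NumberField.of_module_finite K L
  have : IsGalois K L :=
    IsGalois.of_separable_splitting_field (p := X ^ p - C (((w : 𝓞 K) : 𝓞 K) : K)) hirr.separable
  have hdeg : Module.finrank K L = p := finrank_of_isSplittingField_X_pow_sub_C hprim hirr L
  have hunr : IsUnramifiedExt K L := isUnramifiedExt_kummer hp2 hζ w hw hwnot L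
  exact false_of_isUnramifiedExt_of_pid hp2 K L hdeg hunr
    (hilbert92Holds_of_prime_degree hp2 hdeg)

/-- Fermat's Last Theorem for a prime exponent `p ≥ 5` such that `ℤ[ζ_p]` is a PID. -/
theorem flt_of_pid {p : ℕ} [Fact p.Prime] (hp5 : 5 ≤ p) (K : Type) [Field K]
    [NumberField K] [IsCyclotomicExtension {p} ℚ K] [IsPrincipalIdealRing (𝓞 K)] :
    FermatLastTheoremFor p :=
  fermatLastTheoremFor_of_cases (caseI_of_pid hp5 K)
    (caseII_of_pid hp5 K (kummersLemma_of_pid (by omega) K))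

theorem flt_five : FermatLastTheoremFor 5 := by
  have : Fact (Nat.Prime 5) := ⟨by norm_num⟩
  have : IsCyclotomicExtension {5} ℚ (CyclotomicField 5 ℚ) :=
    CyclotomicField.isCyclotomicExtension 5 ℚ
  have := IsCyclotomicExtension.Rat.five_pid (CyclotomicField 5 ℚ)
  exact flt_of_pid le_rfl (CyclotomicField 5 ℚ)

theorem flt_seven : FermatLastTheoremFor 7 := by
  have : Fact (Nat.Prime 7) := ⟨by norm_num⟩
  have : IsCyclotomicExtension {7} ℚ (CyclotomicField 7 ℚ) :=
    CyclotomicField.isCyclotomicExtension 7 ℚ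
  have := seven_pid (CyclotomicField 7 ℚ)
  exact flt_of_pid (by norm_num) (CyclotomicField 7 ℚ)

theorem flt_eleven : FermatLastTheoremFor 11 := by
  have : Fact (Nat.Prime 11) := ⟨by norm_num⟩
  have : IsCyclotomicExtension {11} ℚ (CyclotomicField 11 ℚ) :=
    CyclotomicField.isCyclotomicExtension 11 ℚ
  have := eleven_pid (CyclotomicField 11 ℚ)
  exact flt_of_pid (by norm_num) (CyclotomicField 11 ℚ)

theorem flt_thirteen : FermatLastTheoremFor 13 := by
  have : Fact (Nat.Prime 13) := ⟨by norm_num⟩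
  have : IsCyclotomicExtension {13} ℚ (CyclotomicField 13 ℚ) :=
    CyclotomicField.isCyclotomicExtension 13 ℚ
  have := thirteen_pid (CyclotomicField 13 ℚ)
  exact flt_of_pid (by norm_num) (CyclotomicField 13 ℚ)

end Fermat.Agent.Lib.Kummer
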