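/-
KUMMER project, piece (KL1): reduction step of Kummer's lemma.
A unit `u` of `ℤ[ζ_p]` congruent to a rational integer modulo `p` which is not a `p`-th power
yields a unit `w = u ^ (p - 1) ≡ 1 mod (ζ - 1) ^ p` which is not a `p`-th power.
-/
import Mathlib
import Fermat.Agent.Lib.Kummer.Defs

set_option autoImplicit false
set_option linter.style.haveILetI false

open NumberField Polynomial

namespace Fermat.Agent.Lib.Kummer

section KL1

variable {p : ℕ} [Fact p.Prime] {K : Type*} [Field K] [NumberField K]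
  [IsCyclotomicExtension {p} ℚ K] {ζ : K}

/-- Every Galois conjugate of `y : 𝓞 K` is congruent to `y` modulo `ζ - 1`. -/
theorem kl1_lambda_dvd_galRestrict_sub (hζ : IsPrimitiveRoot ζ p) (σ : K ≃ₐ[ℚ] K) (y : 𝓞 K) :
    hζ.toInteger - 1 ∣ galRestrict ℤ ℚ K (𝓞 K) σ y - y := by
  have hprime : Prime (hζ.toInteger - 1) := hζ.zeta_sub_one_prime'
  set τ := galRestrict ℤ ℚ K (𝓞 K) σ with hτ
  have hmem : y ∈ Algebra.adjoin ℤ {hζ.integralPowerBasis.gen} := by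
    rw [PowerBasis.adjoin_gen_eq_top]; trivial
  rw [IsPrimitiveRoot.integralPowerBasis_gen] at hmem
  induction hmem using Algebra.adjoin_induction with
  | mem x hx =>
    rw [Set.mem_singleton_iff] at hx
    subst hx
    -- `τ ζ` is a `p`-th root of unity, hence a power of `ζ`
    have h1 : (τ hζ.toInteger) ^ p = 1 := by
      rw [← map_pow, hζ.toInteger_isPrimitiveRoot.pow_eq_one, map_one]
    have : NeZero p := ⟨(Fact.out : p.Prime).ne_zero⟩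
    obtain ⟨k, -, hk⟩ := hζ.toInteger_isPrimitiveRoot.eq_pow_of_pow_eq_one h1
    rw [← hk]
    have h2 : hζ.toInteger ^ k - hζ.toInteger =
        (hζ.toInteger ^ k - 1 ^ k) - (hζ.toInteger - 1) := by ring
    rw [h2]
    exact dvd_sub (sub_dvd_pow_sub_pow _ _ k) dvd_rfl
  | algebraMap r => simp
  | add x y _ _ hx hy =>
    have : τ (x + y) - (x + y) = (τ x - x) + (τ y - y) := by rw [map_add]; ring
    rw [this]
    exact dvd_add hx hy
  | mul x y _ _ hx hy =>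
    have : τ (x * y) - x * y = τ x * (τ y - y) + (τ x - x) * y := by rw [map_mul]; ring
    rw [this]
    exact dvd_add (Dvd.dvd.mul_left hy _) (Dvd.dvd.mul_right hx _)

omit [IsCyclotomicExtension {p} ℚ K] in
/-- The trace of `y : 𝓞 K` is the sum of its Galois conjugates. -/
theorem kl1_algebraMap_trace_eq_sum [IsGalois ℚ K] (y : 𝓞 K) :
    algebraMap ℤ (𝓞 K) (Algebra.trace ℤ (𝓞 K) y) =
      ∑ σ : K ≃ₐ[ℚ] K, galRestrict ℤ ℚ K (𝓞 K) σ y := by
  apply FaithfulSMul.algebraMap_injective (𝓞 K) K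
  have h1 : algebraMap (𝓞 K) K (algebraMap ℤ (𝓞 K) (Algebra.trace ℤ (𝓞 K) y)) =
      algebraMap ℚ K (Algebra.trace ℚ K (y : K)) := by
    rw [← Algebra.coe_trace_int]
    simp
  rw [h1, trace_eq_sum_automorphisms, map_sum]
  refine Finset.sum_congr rfl fun σ _ => ?_
  exact (algebraMap_galRestrict_apply ℤ σ y).symm

/-- If `p` divides the trace of `y`, then `ζ - 1` divides `y`. -/
theorem kl1_lambda_dvd_of_dvd_trace (hζ : IsPrimitiveRoot ζ p) (y : 𝓞 K)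
    (hy : (p : ℤ) ∣ Algebra.trace ℤ (𝓞 K) y) : hζ.toInteger - 1 ∣ y := by
  haveI : IsGalois ℚ K := IsCyclotomicExtension.isGalois {p} ℚ K
  haveI : NeZero p := ⟨(Fact.out : p.Prime).ne_zero⟩
  have hlp : hζ.toInteger - 1 ∣ (p : 𝓞 K) := by
    have := (IsCyclotomicExtension.Rat.zeta_sub_one_dvd_intCast_iff' p hζ (n := (p : ℤ))).mpr dvd_rfl
    simpa using this
  -- the sum of the differences
  have h1 : ∑ σ : K ≃ₐ[ℚ] K, (galRestrict ℤ ℚ K (𝓞 K) σ y - y) =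
      algebraMap ℤ (𝓞 K) (Algebra.trace ℤ (𝓞 K) y) - ((p - 1 : ℕ) : 𝓞 K) * y := by
    rw [Finset.sum_sub_distrib, ← kl1_algebraMap_trace_eq_sum, Finset.sum_const, Finset.card_univ,
      ← Nat.card_eq_fintype_card, IsGalois.card_aut_eq_finrank,
      IsCyclotomicExtension.finrank K (Polynomial.cyclotomic.irreducible_rat (NeZero.pos p)),
      Nat.totient_prime Fact.out, nsmul_eq_mul]
  have h2 : hζ.toInteger - 1 ∣ ∑ σ : K ≃ₐ[ℚ] K, (galRestrict ℤ ℚ K (𝓞 K) σ y - y) :=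
    Finset.dvd_sum fun σ _ => kl1_lambda_dvd_galRestrict_sub hζ σ y
  have h3 : hζ.toInteger - 1 ∣ algebraMap ℤ (𝓞 K) (Algebra.trace ℤ (𝓞 K) y) := by
    obtain ⟨t, ht⟩ := hy
    rw [ht, map_mul]
    refine Dvd.dvd.mul_right ?_ _
    simpa using hlp
  rw [h1] at h2
  have h4 : hζ.toInteger - 1 ∣ ((p - 1 : ℕ) : 𝓞 K) * y := by
    have := dvd_sub h3 h2
    rwa [sub_sub_cancel] at this
  have hp1 : 1 ≤ p := (Fact.out : p.Prime).one_le
  have h5 : ((p - 1 : ℕ) : 𝓞 K) * y = (p : 𝓞 K) * y - y := by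
    rw [Nat.cast_sub hp1]; ring
  rw [h5] at h4
  have h6 : hζ.toInteger - 1 ∣ (p : 𝓞 K) * y := Dvd.dvd.mul_right hlp _
  have := dvd_sub h6 h4
  rwa [sub_sub_cancel] at this

/-- A unit `1 + p y` of norm `1` is congruent to `1` modulo `(ζ - 1) ^ p`. -/
theorem kl1_pow_dvd_of_norm_eq_one (hζ : IsPrimitiveRoot ζ p) (w y : 𝓞 K)
    (hw : w - 1 = (p : 𝓞 K) * y) (hnorm : Algebra.norm ℤ w = 1) :
    (hζ.toInteger - 1) ^ p ∣ w - 1 := by
  have hp : p.Prime := Fact.out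
  obtain ⟨r, hr⟩ := Algebra.norm_one_add_smul (A := ℤ) (B := 𝓞 K) (p : ℤ) y
  have hw' : w = 1 + (p : ℤ) • y := by
    rw [zsmul_eq_mul, Int.cast_natCast, ← hw]; ring
  rw [← hw', hnorm] at hr
  have hp0 : (p : ℤ) ≠ 0 := by exact_mod_cast hp.ne_zero
  have htr : (p : ℤ) ∣ Algebra.trace ℤ (𝓞 K) y := by
    have h1 : (p : ℤ) * (Algebra.trace ℤ (𝓞 K) y + r * p) = 0 := by linarith
    have h2 : Algebra.trace ℤ (𝓞 K) y + r * p = 0 := by
      rcases mul_eq_zero.1 h1 with h | h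
      · exact absurd h hp0
      · exact h
    exact ⟨-r, by linarith⟩
  obtain ⟨z, hz⟩ := kl1_lambda_dvd_of_dvd_trace hζ y htr
  have hassoc := IsCyclotomicExtension.Rat.associated_zeta_sub_one_pow_prime p hζ
  have hpow : (hζ.toInteger - 1) ^ p = (hζ.toInteger - 1) ^ (p - 1) * (hζ.toInteger - 1) := by
    rw [← pow_succ, Nat.sub_add_cancel hp.one_le]
  rw [hw, hz, hpow]
  exact mul_dvd_mul hassoc.dvd (Dvd.intro _ rfl)

/-- **(KL1)** reduction step of Kummer's lemma. -/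
theorem exists_unit_sub_one_of_not_pow (hp2 : p ≠ 2) (hζ : IsPrimitiveRoot ζ p) (u : (𝓞 K)ˣ)
    (hu : ∃ n : ℤ, (p : 𝓞 K) ∣ (u : 𝓞 K) - n) (hnot : ¬ ∃ v : (𝓞 K)ˣ, u = v ^ p) :
    ∃ w : (𝓞 K)ˣ, (hζ.toInteger - 1) ^ p ∣ (w : 𝓞 K) - 1 ∧ ¬ ∃ v : (𝓞 K)ˣ, w = v ^ p := by
  have hp : p.Prime := Fact.out
  refine ⟨u ^ (p - 1), ?_, ?_⟩
  · obtain ⟨n, x, hx⟩ := hu
    have hprime : Prime (hζ.toInteger - 1) := hζ.zeta_sub_one_prime'
    have hlp : hζ.toInteger - 1 ∣ (p : 𝓞 K) := by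
      have := (IsCyclotomicExtension.Rat.zeta_sub_one_dvd_intCast_iff' p hζ
        (n := (p : ℤ))).mpr dvd_rfl
      simpa using this
    -- `p ∤ n`
    have hpn : ¬ (p : ℤ) ∣ n := by
      rintro ⟨t, rfl⟩
      have h1 : (p : 𝓞 K) ∣ (u : 𝓞 K) := by
        have h2 : (u : 𝓞 K) = (p : 𝓞 K) * x + (p : 𝓞 K) * (t : 𝓞 K) := by
          have : (u : 𝓞 K) = ((u : 𝓞 K) - ((p : ℤ) * t : ℤ)) + ((p : ℤ) * t : ℤ) := by ring
          rw [this, hx]; push_cast; ring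
        rw [h2]
        exact dvd_add (Dvd.intro _ rfl) (Dvd.intro _ rfl)
      exact hprime.not_isUnit (isUnit_of_dvd_unit (hlp.trans h1) u.isUnit)
    have hcop : IsCoprime n (p : ℤ) :=
      ((Nat.prime_iff_prime_int.mp hp).coprime_iff_not_dvd.2 hpn).symm
    obtain ⟨t, ht⟩ := (Int.modEq_iff_dvd.1 (Int.ModEq.pow_card_sub_one_eq_one hp hcop).symm)
    -- `u ^ (p - 1) - 1 = p * y`
    obtain ⟨s, hs⟩ := sub_dvd_pow_sub_pow (u : 𝓞 K) (n : 𝓞 K) (p - 1)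
    have hw : ((u ^ (p - 1) : (𝓞 K)ˣ) : 𝓞 K) - 1 = (p : 𝓞 K) * (x * s + (t : 𝓞 K)) := by
      have h3 : ((n ^ (p - 1) - 1 : ℤ) : 𝓞 K) = (((p : ℤ) * t : ℤ) : 𝓞 K) := by rw [ht]
      push_cast at h3
      have h4 : ((u ^ (p - 1) : (𝓞 K)ˣ) : 𝓞 K) - 1 =
          ((u : 𝓞 K) ^ (p - 1) - (n : 𝓞 K) ^ (p - 1)) + ((n : 𝓞 K) ^ (p - 1) - 1) := by
        push_cast; ring
      rw [h4, hs, hx, h3]; ring
    -- the norm is `1`
    have hnorm : Algebra.norm ℤ ((u ^ (p - 1) : (𝓞 K)ˣ) : 𝓞 K) = 1 := by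
      have h5 : IsUnit (Algebra.norm ℤ (u : 𝓞 K)) := u.isUnit.map (Algebra.norm ℤ)
      have heven : Even (p - 1) := hp.even_sub_one hp2
      push_cast
      rw [map_pow]
      rcases Int.isUnit_iff.1 h5 with h | h
      · rw [h, one_pow]
      · rw [h, heven.neg_one_pow]
    exact kl1_pow_dvd_of_norm_eq_one hζ _ _ hw hnorm
  · rintro ⟨v, hv⟩
    refine hnot ⟨u * v⁻¹, ?_⟩
    have hpow : u ^ p = u ^ (p - 1) * u := by
      rw [← pow_succ, Nat.sub_add_cancel hp.one_le]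
    rw [mul_pow, inv_pow, ← hv, hpow, mul_comm (u ^ (p - 1)) u, mul_assoc, mul_inv_cancel,
      mul_one]

end KL1

end Fermat.Agent.Lib.Kummer
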