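/-
Kummer project (S10, S11): explicit elements of small norm in the ring of integers of the
thirteenth cyclotomic field (norms 27, 53, 79, 131, 157), used for the class number one proof.
-/
import Mathlib
import Fermat.Agent.Lib.Kummer.PIDTools

set_option autoImplicit false

noncomputable section

namespace Fermat.Agent.Lib.Kummer

open NumberField Polynomial InfinitePlace Nat Real cyclotomic Ideal IsCyclotomicExtension.Rat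

theorem prod_conj_thirteen_27 {E : Type*} [CommRing E] (z : E) (h : z ^ 13 = 1)
    (hΦ : 1 + z + z ^ 2 + z ^ 3 + z ^ 4 + z ^ 5 + z ^ 6 + z ^ 7 + z ^ 8 + z ^ 9 + z ^ 10 + z ^ 11 + z ^ 12 = 0) :
    ∏ k ∈ Finset.Ico 1 13, (1 + z ^ k - (z ^ k) ^ 3) = 27 := by
  have t1 : (1 + z ^ 1 - (z ^ 1) ^ 3) = 1 + z - z ^ 3 := by ring
  have e2 : (1 + z - z ^ 3) * (1 + z ^ 2 - (z ^ 2) ^ 3) =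
      1 + z + z ^ 2 - z ^ 5 - z ^ 6 - z ^ 7 + z ^ 9 := by
    linear_combination (0) * h
  have e3 : (1 + z + z ^ 2 - z ^ 5 - z ^ 6 - z ^ 7 + z ^ 9) * (1 + z ^ 3 - (z ^ 3) ^ 3) =
      1 + 2 * z + 2 * z ^ 2 + 2 * z ^ 3 + z ^ 4 - z ^ 5 - z ^ 6 - z ^ 7 - z ^ 8 - z ^ 9 - 2 * z ^ 10 - z ^ 11 + z ^ 12 := by
    linear_combination (z + z ^ 2 + z ^ 3 - z ^ 5) * h
  have e4 : (1 + 2 * z + 2 * z ^ 2 + 2 * z ^ 3 + z ^ 4 - z ^ 5 - z ^ 6 - z ^ 7 - z ^ 8 - z ^ 9 - 2 * z ^ 10 - z ^ 11 + z ^ 12) * (1 + z ^ 4 - (z ^ 4) ^ 3) =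
      -2 - 2 * z - z ^ 2 + 2 * z ^ 3 + 3 * z ^ 4 + 2 * z ^ 5 + 2 * z ^ 6 + 2 * z ^ 7 + z ^ 8 - 2 * z ^ 10 - 3 * z ^ 11 - z ^ 12 := by
    linear_combination (-3 - 4 * z - 3 * z ^ 2 + z ^ 4 + z ^ 5 + z ^ 6 + z ^ 7 + z ^ 8 + 2 * z ^ 9 + z ^ 10 - z ^ 11) * h
  have e5 : (-2 - 2 * z - z ^ 2 + 2 * z ^ 3 + 3 * z ^ 4 + 2 * z ^ 5 + 2 * z ^ 6 + 2 * z ^ 7 + z ^ 8 - 2 * z ^ 10 - 3 * z ^ 11 - z ^ 12) * (1 + z ^ 5 - (z ^ 5) ^ 3) =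
      2 - z - z ^ 2 + z ^ 3 + 3 * z ^ 4 - 2 * z ^ 5 - 3 * z ^ 6 - z ^ 7 + z ^ 8 + z ^ 9 - z ^ 10 - z ^ 11 + 3 * z ^ 12 := by
    linear_combination (4 + z - z ^ 3 - 2 * z ^ 5 - 3 * z ^ 6 - 2 * z ^ 7 - 2 * z ^ 8 - 2 * z ^ 9 - z ^ 10 + 2 * z ^ 12 + 3 * z ^ 13 + z ^ 14) * h
  have e6 : (2 - z - z ^ 2 + z ^ 3 + 3 * z ^ 4 - 2 * z ^ 5 - 3 * z ^ 6 - z ^ 7 + z ^ 8 + z ^ 9 - z ^ 10 - z ^ 11 + 3 * z ^ 12) * (1 + z ^ 6 - (z ^ 6) ^ 3) =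
      -z + z ^ 2 + z ^ 3 - z ^ 4 - z ^ 5 - z ^ 7 - z ^ 8 - z ^ 9 + 4 * z ^ 10 + z ^ 12 := by
    linear_combination (-2 + 2 * z ^ 2 - 4 * z ^ 4 + z ^ 5 + z ^ 6 + z ^ 7 - z ^ 8 - 3 * z ^ 9 + 2 * z ^ 10 + 3 * z ^ 11 + z ^ 12 - z ^ 13 - z ^ 14 + z ^ 15 + z ^ 16 - 3 * z ^ 17) * h
  have e7 : (-z + z ^ 2 + z ^ 3 - z ^ 4 - z ^ 5 - z ^ 7 - z ^ 8 - z ^ 9 + 4 * z ^ 10 + z ^ 12) * (1 + z ^ 7 - (z ^ 7) ^ 3) =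
      1 - 2 * z + z ^ 2 + z ^ 3 + 4 * z ^ 4 - 5 * z ^ 5 + z ^ 6 - 2 * z ^ 7 - 2 * z ^ 8 + z ^ 9 + 4 * z ^ 10 - 2 * z ^ 11 + z ^ 12 := by
    linear_combination (1 - z + 5 * z ^ 4 - 4 * z ^ 5 + z ^ 6 - z ^ 7 + z ^ 9 - z ^ 10 - z ^ 11 + z ^ 12 + z ^ 13 + z ^ 15 + z ^ 16 + z ^ 17 - 4 * z ^ 18 - z ^ 20) * h
  have e8 : (1 - 2 * z + z ^ 2 + z ^ 3 + 4 * z ^ 4 - 5 * z ^ 5 + z ^ 6 - 2 * z ^ 7 - 2 * z ^ 8 + z ^ 9 + 4 * z ^ 10 - 2 * z ^ 11 + z ^ 12) * (1 + z ^ 8 - (z ^ 8) ^ 3) =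
      -5 - 2 * z - 5 * z ^ 2 + 4 * z ^ 3 + 4 * z ^ 4 + z ^ 5 + z ^ 6 - 2 * z ^ 7 - 5 * z ^ 8 + z ^ 9 + 4 * z ^ 10 - 2 * z ^ 11 + 7 * z ^ 12 := by
    linear_combination (-6 - 6 * z ^ 2 + 3 * z ^ 3 + 6 * z ^ 5 - 4 * z ^ 8 + 2 * z ^ 9 - z ^ 10 - z ^ 11 + 2 * z ^ 12 - z ^ 13 - z ^ 14 - 4 * z ^ 15 + 5 * z ^ 16 - z ^ 17 + 2 * z ^ 18 + 2 * z ^ 19 - z ^ 20 - 4 * z ^ 21 + 2 * z ^ 22 - z ^ 23) * h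
  have e9 : (-5 - 2 * z - 5 * z ^ 2 + 4 * z ^ 3 + 4 * z ^ 4 + z ^ 5 + z ^ 6 - 2 * z ^ 7 - 5 * z ^ 8 + z ^ 9 + 4 * z ^ 10 - 2 * z ^ 11 + 7 * z ^ 12) * (1 + z ^ 9 - (z ^ 9) ^ 3) =
      -8 + 4 * z - 2 * z ^ 2 + 7 * z ^ 3 - 5 * z ^ 4 - 2 * z ^ 5 + 4 * z ^ 6 - 5 * z ^ 7 + 4 * z ^ 8 + z ^ 9 + z ^ 10 - 11 * z ^ 11 + 13 * z ^ 12 := by
    linear_combination (-3 + 6 * z + 3 * z ^ 2 + 3 * z ^ 3 - 9 * z ^ 4 - 3 * z ^ 5 + 3 * z ^ 6 - 3 * z ^ 7 + 9 * z ^ 8 + 5 * z ^ 9 - z ^ 10 - 4 * z ^ 11 + 2 * z ^ 12 - 7 * z ^ 13 + 5 * z ^ 14 + 2 * z ^ 15 + 5 * z ^ 16 - 4 * z ^ 17 - 4 * z ^ 18 - z ^ 19 - z ^ 20 + 2 * z ^ 21 + 5 * z ^ 22 - z ^ 23 - 4 * z ^ 24 + 2 * z ^ 25 - 7 * z ^ 26) * h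
  have e10 : (-8 + 4 * z - 2 * z ^ 2 + 7 * z ^ 3 - 5 * z ^ 4 - 2 * z ^ 5 + 4 * z ^ 6 - 5 * z ^ 7 + 4 * z ^ 8 + z ^ 9 + z ^ 10 - 11 * z ^ 11 + 13 * z ^ 12) * (1 + z ^ 10 - (z ^ 10) ^ 3) =
      -2 - 2 * z + 7 * z ^ 2 - 2 * z ^ 3 - 2 * z ^ 4 - 2 * z ^ 5 + 7 * z ^ 6 - 11 * z ^ 7 - 2 * z ^ 8 + 16 * z ^ 9 - 11 * z ^ 10 - 2 * z ^ 11 + 7 * z ^ 12 := by
    linear_combination (6 - 6 * z + 9 * z ^ 2 - 9 * z ^ 3 + 3 * z ^ 4 + 3 * z ^ 6 - 6 * z ^ 7 - 6 * z ^ 8 + 15 * z ^ 9 - 4 * z ^ 10 + 5 * z ^ 11 - 4 * z ^ 12 - z ^ 13 - z ^ 14 + 11 * z ^ 15 - 13 * z ^ 16 + 8 * z ^ 17 - 4 * z ^ 18 + 2 * z ^ 19 - 7 * z ^ 20 + 5 * z ^ 21 + 2 * z ^ 22 - 4 * z ^ 23 + 5 * z ^ 24 - 4 * z ^ 25 - z ^ 26 - z ^ 27 + 11 * z ^ 28 - 13 * z ^ 29) * h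
  have e11 : (-2 - 2 * z + 7 * z ^ 2 - 2 * z ^ 3 - 2 * z ^ 4 - 2 * z ^ 5 + 7 * z ^ 6 - 11 * z ^ 7 - 2 * z ^ 8 + 16 * z ^ 9 - 11 * z ^ 10 - 2 * z ^ 11 + 7 * z ^ 12) * (1 + z ^ 11 - (z ^ 11) ^ 3) =
      -2 + 7 * z + 7 * z ^ 2 - 20 * z ^ 3 + 16 * z ^ 4 - 11 * z ^ 5 - 2 * z ^ 6 + 7 * z ^ 7 - 11 * z ^ 8 + 7 * z ^ 9 - 2 * z ^ 10 - 2 * z ^ 11 + 7 * z ^ 12 := by
    linear_combination (9 * z - 18 * z ^ 3 + 18 * z ^ 4 - 9 * z ^ 5 - 9 * z ^ 6 + 18 * z ^ 7 - 9 * z ^ 8 - 9 * z ^ 9 + 9 * z ^ 10 + 2 * z ^ 11 + 2 * z ^ 12 - 7 * z ^ 13 + 11 * z ^ 14 + 2 * z ^ 15 - 16 * z ^ 16 + 11 * z ^ 17 + 2 * z ^ 18 - 7 * z ^ 19 + 2 * z ^ 20 + 2 * z ^ 21 - 7 * z ^ 22 + 2 * z ^ 23 + 2 * z ^ 24 + 2 * z ^ 25 - 7 * z ^ 26 + 11 * z ^ 27 + 2 * z ^ 28 - 16 * z ^ 29 + 11 * z ^ 30 + 2 *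 z ^ 31 - 7 * z ^ 32) * h
  have e12 : (-2 + 7 * z + 7 * z ^ 2 - 20 * z ^ 3 + 16 * z ^ 4 - 11 * z ^ 5 - 2 * z ^ 6 + 7 * z ^ 7 - 11 * z ^ 8 + 7 * z ^ 9 - 2 * z ^ 10 - 2 * z ^ 11 + 7 * z ^ 12) * (1 + z ^ 12 - (z ^ 12) ^ 3) =
      25 - 2 * z - 2 * z ^ 2 - 2 * z ^ 3 - 2 * z ^ 4 - 2 * z ^ 5 - 2 * z ^ 6 - 2 * z ^ 7 - 2 * z ^ 8 - 2 * z ^ 9 - 2 * z ^ 10 - 2 * z ^ 11 - 2 * z ^ 12 := by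
    linear_combination (27 - 9 * z - 9 * z ^ 2 + 18 * z ^ 3 - 18 * z ^ 4 + 9 * z ^ 5 - 9 * z ^ 7 + 9 * z ^ 8 - 9 * z ^ 9 - 7 * z ^ 12 + 20 * z ^ 13 - 16 * z ^ 14 + 11 * z ^ 15 + 2 * z ^ 16 - 7 * z ^ 17 + 11 * z ^ 18 - 7 * z ^ 19 + 2 * z ^ 20 + 2 * z ^ 21 - 7 * z ^ 22 + 2 * z ^ 23 - 7 * z ^ 24 - 7 * z ^ 25 + 20 * z ^ 26 - 16 * z ^ 27 + 11 * z ^ 28 + 2 * z ^ 29 - 7 * z ^ 30 + 11 * z ^ 31 - 7 * z ^ 32 + 2 * z ^ 33 + 2 * z ^ 34 - 7 * z ^ 35) * h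
  have efin : 25 - 2 * z - 2 * z ^ 2 - 2 * z ^ 3 - 2 * z ^ 4 - 2 * z ^ 5 - 2 * z ^ 6 - 2 * z ^ 7 - 2 * z ^ 8 - 2 * z ^ 9 - 2 * z ^ 10 - 2 * z ^ 11 - 2 * z ^ 12 = 27 := by
    linear_combination (-2) * hΦ
  rw [Finset.prod_Ico_succ_top (show 1 ≤ 12 by norm_num), Finset.prod_Ico_succ_top (show 1 ≤ 11 by norm_num), Finset.prod_Ico_succ_top (show 1 ≤ 10 by norm_num), Finset.prod_Ico_succ_top (show 1 ≤ 9 by norm_num), Finset.prod_Ico_succ_top (show 1 ≤ 8 by norm_num), Finset.prod_Ico_succ_top (show 1 ≤ 7 by norm_num), Finset.prod_Ico_succ_top (show 1 ≤ 6 by norm_num), Finset.prod_Ico_succ_top (show 1 ≤ 5 by norm_num), Finset.prod_Ico_succ_top (show 1 ≤ 4 by norm_num), Finset.prod_Ico_succ_top (show 1 ≤ 3 by norm_num), Finset.prod_Ico_succ_top (show 1 ≤ 2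 by norm_num), Finset.prod_Ico_succ_top (show 1 ≤ 1 by norm_num), Finset.Ico_self, Finset.prod_empty, one_mul,
    t1, e2, e3, e4, e5, e6, e7, e8, e9, e10, e11, e12, efin]

theorem prod_conj_thirteen_53 {E : Type*} [CommRing E] (z : E) (h : z ^ 13 = 1)
    (hΦ : 1 + z + z ^ 2 + z ^ 3 + z ^ 4 + z ^ 5 + z ^ 6 + z ^ 7 + z ^ 8 + z ^ 9 + z ^ 10 + z ^ 11 + z ^ 12 = 0) :
    ∏ k ∈ Finset.Ico 1 13, (1 + z ^ k + (z ^ k) ^ 3) = 53 := by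
  have t1 : (1 + z ^ 1 + (z ^ 1) ^ 3) = 1 + z + z ^ 3 := by ring
  have e2 : (1 + z + z ^ 3) * (1 + z ^ 2 + (z ^ 2) ^ 3) =
      1 + z + z ^ 2 + 2 * z ^ 3 + z ^ 5 + z ^ 6 + z ^ 7 + z ^ 9 := by
    linear_combination (0) * h
  have e3 : (1 + z + z ^ 2 + 2 * z ^ 3 + z ^ 5 + z ^ 6 + z ^ 7 + z ^ 9) * (1 + z ^ 3 + (z ^ 3) ^ 3) =
      1 + 2 * z + 2 * z ^ 2 + 4 * z ^ 3 + z ^ 4 + 3 * z ^ 5 + 3 * z ^ 6 + z ^ 7 + z ^ 8 + 3 * z ^ 9 + 2 * z ^ 10 + z ^ 11 + 3 * z ^ 12 := by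
    linear_combination (z + z ^ 2 + z ^ 3 + z ^ 5) * h
  have e4 : (1 + 2 * z + 2 * z ^ 2 + 4 * z ^ 3 + z ^ 4 + 3 * z ^ 5 + 3 * z ^ 6 + z ^ 7 + z ^ 8 + 3 * z ^ 9 + 2 * z ^ 10 + z ^ 11 + 3 * z ^ 12) * (1 + z ^ 4 + (z ^ 4) ^ 3) =
      6 + 6 * z + 7 * z ^ 2 + 8 * z ^ 3 + 5 * z ^ 4 + 8 * z ^ 5 + 6 * z ^ 6 + 6 * z ^ 7 + 5 * z ^ 8 + 8 * z ^ 9 + 6 * z ^ 10 + 5 * z ^ 11 + 5 * z ^ 12 := by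
    linear_combination (5 + 4 * z + 5 * z ^ 2 + 4 * z ^ 3 + 3 * z ^ 4 + 3 * z ^ 5 + z ^ 6 + z ^ 7 + 3 * z ^ 8 + 2 * z ^ 9 + z ^ 10 + 3 * z ^ 11) * h
  have e5 : (6 + 6 * z + 7 * z ^ 2 + 8 * z ^ 3 + 5 * z ^ 4 + 8 * z ^ 5 + 6 * z ^ 6 + 6 * z ^ 7 + 5 * z ^ 8 + 8 * z ^ 9 + 6 * z ^ 10 + 5 * z ^ 11 + 5 * z ^ 12) * (1 + z ^ 5 + (z ^ 5) ^ 3) =
      16 + 19 * z + 19 * z ^ 2 + 19 * z ^ 3 + 17 * z ^ 4 + 22 * z ^ 5 + 17 * z ^ 6 + 21 * z ^ 7 + 19 * z ^ 8 + 19 * z ^ 9 + 19 * z ^ 10 + 19 * z ^ 11 + 17 * z ^ 12 := by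
    linear_combination (10 + 13 * z + 12 * z ^ 2 + 11 * z ^ 3 + 12 * z ^ 4 + 8 * z ^ 5 + 5 * z ^ 6 + 8 * z ^ 7 + 6 * z ^ 8 + 6 * z ^ 9 + 5 * z ^ 10 + 8 * z ^ 11 + 6 * z ^ 12 + 5 * z ^ 13 + 5 * z ^ 14) * h
  have e6 : (16 + 19 * z + 19 * z ^ 2 + 19 * z ^ 3 + 17 * z ^ 4 + 22 * z ^ 5 + 17 * z ^ 6 + 21 * z ^ 7 + 19 * z ^ 8 + 19 * z ^ 9 + 19 * z ^ 10 + 19 * z ^ 11 + 17 * z ^ 12) * (1 + z ^ 6 + (z ^ 6) ^ 3) =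
      56 + 57 * z + 57 * z ^ 2 + 57 * z ^ 3 + 53 * z ^ 4 + 55 * z ^ 5 + 52 * z ^ 6 + 59 * z ^ 7 + 57 * z ^ 8 + 55 * z ^ 9 + 58 * z ^ 10 + 58 * z ^ 11 + 55 * z ^ 12 := by
    linear_combination (40 + 38 * z + 38 * z ^ 2 + 38 * z ^ 3 + 36 * z ^ 4 + 33 * z ^ 5 + 19 * z ^ 6 + 19 * z ^ 7 + 19 * z ^ 8 + 17 * z ^ 9 + 22 * z ^ 10 + 17 * z ^ 11 + 21 * z ^ 12 + 19 * z ^ 13 + 19 * z ^ 14 + 19 * z ^ 15 + 19 * z ^ 16 + 17 * z ^ 17) * h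
  have e7 : (56 + 57 * z + 57 * z ^ 2 + 57 * z ^ 3 + 53 * z ^ 4 + 55 * z ^ 5 + 52 * z ^ 6 + 59 * z ^ 7 + 57 * z ^ 8 + 55 * z ^ 9 + 58 * z ^ 10 + 58 * z ^ 11 + 55 * z ^ 12) * (1 + z ^ 7 + (z ^ 7) ^ 3) =
      163 + 168 * z + 173 * z ^ 2 + 169 * z ^ 3 + 166 * z ^ 4 + 171 * z ^ 5 + 165 * z ^ 6 + 170 * z ^ 7 + 170 * z ^ 8 + 169 * z ^ 9 + 172 * z ^ 10 + 168 * z ^ 11 + 163 * z ^ 12 := by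
    linear_combination (107 + 111 * z + 116 * z ^ 2 + 112 * z ^ 3 + 113 * z ^ 4 + 116 * z ^ 5 + 113 * z ^ 6 + 55 * z ^ 7 + 56 * z ^ 8 + 57 * z ^ 9 + 57 * z ^ 10 + 57 * z ^ 11 + 53 * z ^ 12 + 55 * z ^ 13 + 52 * z ^ 14 + 59 * z ^ 15 + 57 * z ^ 16 + 55 * z ^ 17 + 58 * z ^ 18 + 58 * z ^ 19 + 55 * z ^ 20) * h
  have e8 : (163 + 168 * z + 173 * z ^ 2 + 169 * z ^ 3 + 166 * z ^ 4 + 171 * z ^ 5 + 165 * z ^ 6 + 170 * z ^ 7 + 170 * z ^ 8 + 169 * z ^ 9 + 172 * z ^ 10 + 168 * z ^ 11 + 163 * z ^ 12) * (1 + z ^ 8 + (z ^ 8) ^ 3) =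
      507 + 502 * z + 509 * z ^ 2 + 510 * z ^ 3 + 500 * z ^ 4 + 513 * z ^ 5 + 503 * z ^ 6 + 502 * z ^ 7 + 505 * z ^ 8 + 505 * z ^ 9 + 508 * z ^ 10 + 500 * z ^ 11 + 497 * z ^ 12 := by
    linear_combination (344 + 334 * z + 336 * z ^ 2 + 341 * z ^ 3 + 334 * z ^ 4 + 342 * z ^ 5 + 338 * z ^ 6 + 332 * z ^ 7 + 172 * z ^ 8 + 168 * z ^ 9 + 163 * z ^ 10 + 163 * z ^ 11 + 168 * z ^ 12 + 173 * z ^ 13 + 169 * z ^ 14 + 166 * z ^ 15 + 171 * z ^ 16 + 165 * z ^ 17 + 170 * z ^ 18 + 170 * z ^ 19 + 169 * z ^ 20 + 172 * z ^ 21 + 168 * z ^ 22 + 163 * z ^ 23) * h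
  have e9 : (507 + 502 * z + 509 * z ^ 2 + 510 * z ^ 3 + 500 * z ^ 4 + 513 * z ^ 5 + 503 * z ^ 6 + 502 * z ^ 7 + 505 * z ^ 8 + 505 * z ^ 9 + 508 * z ^ 10 + 500 * z ^ 11 + 497 * z ^ 12) * (1 + z ^ 9 + (z ^ 9) ^ 3) =
      1504 + 1522 * z + 1514 * z ^ 2 + 1521 * z ^ 3 + 1515 * z ^ 4 + 1518 * z ^ 5 + 1524 * z ^ 6 + 1505 * z ^ 7 + 1504 * z ^ 8 + 1517 * z ^ 9 + 1515 * z ^ 10 + 1517 * z ^ 11 + 1507 * z ^ 12 := by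
    linear_combination (997 + 1020 * z + 1005 * z ^ 2 + 1011 * z ^ 3 + 1015 * z ^ 4 + 1005 * z ^ 5 + 1021 * z ^ 6 + 1003 * z ^ 7 + 999 * z ^ 8 + 505 * z ^ 9 + 505 * z ^ 10 + 508 * z ^ 11 + 500 * z ^ 12 + 497 * z ^ 13 + 507 * z ^ 14 + 502 * z ^ 15 + 509 * z ^ 16 + 510 * z ^ 17 + 500 * z ^ 18 + 513 * z ^ 19 + 503 * z ^ 20 + 502 * z ^ 21 + 505 * z ^ 22 + 505 * z ^ 23 + 508 * z ^ 24 + 500 * z ^ 25 + 497 * z ^ 26) * h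
  have e10 : (1504 + 1522 * z + 1514 * z ^ 2 + 1521 * z ^ 3 + 1515 * z ^ 4 + 1518 * z ^ 5 + 1524 * z ^ 6 + 1505 * z ^ 7 + 1504 * z ^ 8 + 1517 * z ^ 9 + 1515 * z ^ 10 + 1517 * z ^ 11 + 1507 * z ^ 12) * (1 + z ^ 10 + (z ^ 10) ^ 3) =
      4542 + 4552 * z + 4549 * z ^ 2 + 4552 * z ^ 3 + 4524 * z ^ 4 + 4544 * z ^ 5 + 4555 * z ^ 6 + 4541 * z ^ 7 + 4536 * z ^ 8 + 4542 * z ^ 9 + 4543 * z ^ 10 + 4544 * z ^ 11 + 4525 * z ^ 12 := by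
    linear_combination (3038 + 3030 * z + 3035 * z ^ 2 + 3031 * z ^ 3 + 3009 * z ^ 4 + 3026 * z ^ 5 + 3031 * z ^ 6 + 3036 * z ^ 7 + 3032 * z ^ 8 + 3025 * z ^ 9 + 1524 * z ^ 10 + 1505 * z ^ 11 + 1504 * z ^ 12 + 1517 * z ^ 13 + 1515 * z ^ 14 + 1517 * z ^ 15 + 1507 * z ^ 16 + 1504 * z ^ 17 + 1522 * z ^ 18 + 1514 * z ^ 19 + 1521 * z ^ 20 + 1515 * z ^ 21 + 1518 * z ^ 22 + 1524 * z ^ 23 + 1505 * z ^ 24 + 1504 * z ^ 25 + 1517 * z ^ 26 + 1515 * z ^ 27 + 1517 * z ^ 28 + 1507 * z ^ 29) * h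
  have e11 : (4542 + 4552 * z + 4549 * z ^ 2 + 4552 * z ^ 3 + 4524 * z ^ 4 + 4544 * z ^ 5 + 4555 * z ^ 6 + 4541 * z ^ 7 + 4536 * z ^ 8 + 4542 * z ^ 9 + 4543 * z ^ 10 + 4544 * z ^ 11 + 4525 * z ^ 12) * (1 + z ^ 11 + (z ^ 11) ^ 3) =
      13646 + 13645 * z + 13609 * z ^ 2 + 13638 * z ^ 3 + 13622 * z ^ 4 + 13629 * z ^ 5 + 13616 * z ^ 6 + 13625 * z ^ 7 + 13631 * z ^ 8 + 13635 * z ^ 9 + 13620 * z ^ 10 + 13610 * z ^ 11 + 13621 * z ^ 12 := by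
    linear_combination (9104 + 9093 * z + 9060 * z ^ 2 + 9086 * z ^ 3 + 9098 * z ^ 4 + 9085 * z ^ 5 + 9061 * z ^ 6 + 9084 * z ^ 7 + 9095 * z ^ 8 + 9093 * z ^ 9 + 9077 * z ^ 10 + 4524 * z ^ 11 + 4544 * z ^ 12 + 4555 * z ^ 13 + 4541 * z ^ 14 + 4536 * z ^ 15 + 4542 * z ^ 16 + 4543 * z ^ 17 + 4544 * z ^ 18 + 4525 * z ^ 19 + 4542 * z ^ 20 + 4552 * z ^ 21 + 4549 * z ^ 22 + 4552 * z ^ 23 + 4524 * z ^ 24 + 4544 * z ^ 25 + 4555 * z ^ 26 + 4541 * z ^ 27 + 4536 * z ^ 28 + 4542 * z ^ 29 + 4543 * z ^ 30 + 4544 * z ^ 31 + 4525 * z ^ 32) * h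
  have e12 : (13646 + 13645 * z + 13609 * z ^ 2 + 13638 * z ^ 3 + 13622 * z ^ 4 + 13629 * z ^ 5 + 13616 * z ^ 6 + 13625 * z ^ 7 + 13631 * z ^ 8 + 13635 * z ^ 9 + 13620 * z ^ 10 + 13610 * z ^ 11 + 13621 * z ^ 12) * (1 + z ^ 12 + (z ^ 12) ^ 3) =
      40929 + 40876 * z + 40876 * z ^ 2 + 40876 * z ^ 3 + 40876 * z ^ 4 + 40876 * z ^ 5 + 40876 * z ^ 6 + 40876 * z ^ 7 + 40876 * z ^ 8 + 40876 * z ^ 9 + 40876 * z ^ 10 + 40876 * z ^ 11 + 40876 * z ^ 12 := by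
    linear_combination (27283 + 27231 * z + 27267 * z ^ 2 + 27238 * z ^ 3 + 27254 * z ^ 4 + 27247 * z ^ 5 + 27260 * z ^ 6 + 27251 * z ^ 7 + 27245 * z ^ 8 + 27241 * z ^ 9 + 27256 * z ^ 10 + 27266 * z ^ 11 + 13609 * z ^ 12 + 13638 * z ^ 13 + 13622 * z ^ 14 + 13629 * z ^ 15 + 13616 * z ^ 16 + 13625 * z ^ 17 + 13631 * z ^ 18 + 13635 * z ^ 19 + 13620 * z ^ 20 + 13610 * z ^ 21 + 13621 * z ^ 22 + 13646 * z ^ 23 + 13645 * z ^ 24 + 13609 * z ^ 25 + 13638 * z ^ 26 + 13622 * z ^ 27 + 13629 * z ^ 28 + 13616 * z ^ 29 + 13625 * z ^ 30 + 13631 * z ^ 31 + 13635 * z ^ 32 + 13620 * z ^ 33 + 13610 * z ^ 34 + 13621 * z ^ 35) * h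
  have efin : 40929 + 40876 * z + 40876 * z ^ 2 + 40876 * z ^ 3 + 40876 * z ^ 4 + 40876 * z ^ 5 + 40876 * z ^ 6 + 40876 * z ^ 7 + 40876 * z ^ 8 + 40876 * z ^ 9 + 40876 * z ^ 10 + 40876 * z ^ 11 + 40876 * z ^ 12 = 53 := by
    linear_combination (40876) * hΦ
  rw [Finset.prod_Ico_succ_top (show 1 ≤ 12 by norm_num), Finset.prod_Ico_succ_top (show 1 ≤ 11 by norm_num), Finset.prod_Ico_succ_top (show 1 ≤ 10 by norm_num), Finset.prod_Ico_succ_top (show 1 ≤ 9 by norm_num), Finset.prod_Ico_succ_top (show 1 ≤ 8 by norm_num), Finset.prod_Ico_succ_top (show 1 ≤ 7 by norm_num), Finset.prod_Ico_succ_top (show 1 ≤ 6 by norm_num), Finset.prod_Ico_succ_top (show 1 ≤ 5 by norm_num), Finset.prod_Ico_succ_top (show 1 ≤ 4 by norm_num), Finset.prod_Ico_succ_top (show 1 ≤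 3 by norm_num), Finset.prod_Ico_succ_top (show 1 ≤ 2 by norm_num), Finset.prod_Ico_succ_top (show 1 ≤ 1 by norm_num), Finset.Ico_self, Finset.prod_empty, one_mul,
    t1, e2, e3, e4, e5, e6, e7, e8, e9, e10, e11, e12, efin]

theorem prod_conj_thirteen_79 {E : Type*} [CommRing E] (z : E) (h : z ^ 13 = 1)
    (hΦ : 1 + z + z ^ 2 + z ^ 3 + z ^ 4 + z ^ 5 + z ^ 6 + z ^ 7 + z ^ 8 + z ^ 9 + z ^ 10 + z ^ 11 + z ^ 12 = 0) :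
    ∏ k ∈ Finset.Ico 1 13, (1 + z ^ k - (z ^ k) ^ 4) = 79 := by
  have t1 : (1 + z ^ 1 - (z ^ 1) ^ 4) = 1 + z - z ^ 4 := by ring
  have e2 : (1 + z - z ^ 4) * (1 + z ^ 2 - (z ^ 2) ^ 4) =
      1 + z + z ^ 2 + z ^ 3 - z ^ 4 - z ^ 6 - z ^ 8 - z ^ 9 + z ^ 12 := by
    linear_combination (0) * h
  have e3 : (1 + z + z ^ 2 + z ^ 3 - z ^ 4 - z ^ 6 - z ^ 8 - z ^ 9 + z ^ 12) * (1 + z ^ 3 - (z ^ 3) ^ 4) =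
      z ^ 2 + 3 * z ^ 3 + 2 * z ^ 5 - 2 * z ^ 9 - 2 * z ^ 11 - z ^ 12 := by
    linear_combination (-1 - z + z ^ 3 + z ^ 5 + z ^ 7 + z ^ 8 - z ^ 11) * h
  have e4 : (z ^ 2 + 3 * z ^ 3 + 2 * z ^ 5 - 2 * z ^ 9 - 2 * z ^ 11 - z ^ 12) * (1 + z ^ 4 - (z ^ 4) ^ 4) =
      -2 + 2 * z + 2 * z ^ 3 + z ^ 5 - 2 * z ^ 6 + 3 * z ^ 7 - 2 * z ^ 8 - 2 * z ^ 11 + z ^ 12 := by
    linear_combination (-2 + 2 * z - z ^ 2 - z ^ 3 - z ^ 5 - 3 * z ^ 6 - 2 * z ^ 8 + 2 * z ^ 12 + 2 * z ^ 14 + z ^ 15) * h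
  have e5 : (-2 + 2 * z + 2 * z ^ 3 + z ^ 5 - 2 * z ^ 6 + 3 * z ^ 7 - 2 * z ^ 8 - 2 * z ^ 11 + z ^ 12) * (1 + z ^ 5 - (z ^ 5) ^ 4) =
      -2 - z + 2 * z ^ 2 + z ^ 4 + z ^ 5 - z ^ 6 + 5 * z ^ 7 - 2 * z ^ 8 - z ^ 10 - 4 * z ^ 11 + 3 * z ^ 12 := by
    linear_combination (-3 * z + 2 * z ^ 2 - 2 * z ^ 3 + z ^ 4 + 2 * z ^ 5 - z ^ 6 + 2 * z ^ 7 - 2 * z ^ 8 - 2 * z ^ 10 - z ^ 12 + 2 * z ^ 13 - 3 * z ^ 14 + 2 * z ^ 15 + 2 * z ^ 18 - z ^ 19) * h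
  have e6 : (-2 - z + 2 * z ^ 2 + z ^ 4 + z ^ 5 - z ^ 6 + 5 * z ^ 7 - 2 * z ^ 8 - z ^ 10 - 4 * z ^ 11 + 3 * z ^ 12) * (1 + z ^ 6 - (z ^ 6) ^ 4) =
      1 - 3 * z + z ^ 2 - 2 * z ^ 3 - 2 * z ^ 4 - z ^ 5 - z ^ 6 + 4 * z ^ 7 + z ^ 8 + 4 * z ^ 9 - 3 * z ^ 10 - z ^ 11 + 3 * z ^ 12 := by
    linear_combination (3 - 2 * z - z ^ 2 - 2 * z ^ 3 - 3 * z ^ 4 - 2 * z ^ 5 + 2 * z ^ 6 + z ^ 8 + 4 * z ^ 9 - 3 * z ^ 10 + 2 * z ^ 11 + z ^ 12 - 2 * z ^ 13 - z ^ 15 - z ^ 16 + z ^ 17 - 5 * z ^ 18 + 2 * z ^ 19 + z ^ 21 + 4 * z ^ 22 - 3 * z ^ 23) * h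
  have e7 : (1 - 3 * z + z ^ 2 - 2 * z ^ 3 - 2 * z ^ 4 - z ^ 5 - z ^ 6 + 4 * z ^ 7 + z ^ 8 + 4 * z ^ 9 - 3 * z ^ 10 - z ^ 11 + 3 * z ^ 12) * (1 + z ^ 7 - (z ^ 7) ^ 4) =
      1 - 2 * z + z ^ 2 + 5 * z ^ 3 - 6 * z ^ 4 + 4 * z ^ 6 + 6 * z ^ 7 - z ^ 8 + z ^ 9 - 6 * z ^ 10 - 7 * z ^ 11 + 5 * z ^ 12 := by
    linear_combination (z + 7 * z ^ 3 - 4 * z ^ 4 + z ^ 5 + 5 * z ^ 6 + z ^ 7 + z ^ 8 - 4 * z ^ 9 - z ^ 10 - 4 * z ^ 11 + 3 * z ^ 12 + z ^ 13 - 3 * z ^ 14 - z ^ 15 + 3 * z ^ 16 - z ^ 17 + 2 * z ^ 18 + 2 * z ^ 19 + z ^ 20 + z ^ 21 - 4 * z ^ 22 - z ^ 23 - 4 * z ^ 24 + 3 * z ^ 25 + z ^ 26 - 3 * z ^ 27) * h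
  have e8 : (1 - 2 * z + z ^ 2 + 5 * z ^ 3 - 6 * z ^ 4 + 4 * z ^ 6 + 6 * z ^ 7 - z ^ 8 + z ^ 9 - 6 * z ^ 10 - 7 * z ^ 11 + 5 * z ^ 12) * (1 + z ^ 8 - (z ^ 8) ^ 4) =
      -5 + 3 * z + 6 * z ^ 2 + 10 * z ^ 3 + 2 * z ^ 4 - 11 * z ^ 5 - 4 * z ^ 6 + 13 * z ^ 7 - z ^ 8 - 6 * z ^ 9 + z ^ 10 - 2 * z ^ 11 - 5 * z ^ 12 := by
    linear_combination (-6 + 5 * z + 5 * z ^ 2 + 5 * z ^ 3 + 8 * z ^ 4 - 11 * z ^ 5 - 8 * z ^ 6 + 7 * z ^ 7 - z ^ 8 - 5 * z ^ 9 + 6 * z ^ 10 - 4 * z ^ 12 - 6 * z ^ 13 + z ^ 14 - z ^ 15 + 6 * z ^ 16 + 7 * z ^ 17 - 5 * z ^ 18 - z ^ 19 + 2 * z ^ 20 - z ^ 21 - 5 * z ^ 22 + 6 * z ^ 23 - 4 * z ^ 25 - 6 * z ^ 26 + z ^ 27 - z ^ 28 + 6 * z ^ 29 + 7 * z ^ 30 - 5 * z ^ 31) * h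
  have e9 : (-5 + 3 * z + 6 * z ^ 2 + 10 * z ^ 3 + 2 * z ^ 4 - 11 * z ^ 5 - 4 * z ^ 6 + 13 * z ^ 7 - z ^ 8 - 6 * z ^ 9 + z ^ 10 - 2 * z ^ 11 - 5 * z ^ 12) * (1 + z ^ 9 - (z ^ 9) ^ 4) =
      -13 - 10 * z + 13 * z ^ 2 + 27 * z ^ 3 - 12 * z ^ 4 - 16 * z ^ 5 + 3 * z ^ 6 + 10 * z ^ 7 - 4 * z ^ 8 - 6 * z ^ 9 + 9 * z ^ 10 + z ^ 11 - z ^ 12 := by
    linear_combination (-8 - 13 * z + 7 * z ^ 2 + 17 * z ^ 3 - 14 * z ^ 4 - 5 * z ^ 5 + 7 * z ^ 6 - 3 * z ^ 7 - 3 * z ^ 8 + 5 * z ^ 9 + 5 * z ^ 10 - 3 * z ^ 11 - 6 * z ^ 12 - 10 * z ^ 13 - 2 * z ^ 14 + 11 * z ^ 15 + 4 * z ^ 16 - 13 * z ^ 17 + z ^ 18 + 6 * z ^ 19 - z ^ 20 + 2 * z ^ 21 + 5 * z ^ 22 + 5 * z ^ 23 - 3 * z ^ 24 - 6 * z ^ 25 - 10 * z ^ 26 - 2 * z ^ 27 + 11 * z ^ 28 + 4 * z ^ 29 - 13 * z ^ 30 + z ^ 31 + 6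 * z ^ 32 - z ^ 33 + 2 * z ^ 34 + 5 * z ^ 35) * h
  have e10 : (-13 - 10 * z + 13 * z ^ 2 + 27 * z ^ 3 - 12 * z ^ 4 - 16 * z ^ 5 + 3 * z ^ 6 + 10 * z ^ 7 - 4 * z ^ 8 - 6 * z ^ 9 + 9 * z ^ 10 + z ^ 11 - z ^ 12) * (1 + z ^ 10 - (z ^ 10) ^ 4) =
      15 - 9 * z + 7 * z ^ 2 + 17 * z ^ 3 - 29 * z ^ 4 - 8 * z ^ 5 + 13 * z ^ 6 + 16 * z ^ 7 - 13 * z ^ 8 - 3 * z ^ 9 + 2 * z ^ 10 - 18 * z ^ 11 + 11 * z ^ 12 := by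
    linear_combination (28 + z - 6 * z ^ 2 - 10 * z ^ 3 - 17 * z ^ 4 + 8 * z ^ 5 + 10 * z ^ 6 + 6 * z ^ 7 - 9 * z ^ 8 + 3 * z ^ 9 + 6 * z ^ 10 - 9 * z ^ 11 - z ^ 12 + z ^ 13 + 13 * z ^ 14 + 10 * z ^ 15 - 13 * z ^ 16 - 27 * z ^ 17 + 12 * z ^ 18 + 16 * z ^ 19 - 3 * z ^ 20 - 10 * z ^ 21 + 4 * z ^ 22 + 6 * z ^ 23 - 9 * z ^ 24 - z ^ 25 + z ^ 26 + 13 * z ^ 27 + 10 * z ^ 28 - 13 * z ^ 29 - 27 * z ^ 30 + 12 * z ^ 31 + 16 * z ^ 32 - 3 * z ^ 33 - 10 * z ^ 34 + 4 * z ^ 35 + 6 * z ^ 36 - 9 * z ^ 37 - z ^ 38 + z ^ 39) * h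
  have e11 : (15 - 9 * z + 7 * z ^ 2 + 17 * z ^ 3 - 29 * z ^ 4 - 8 * z ^ 5 + 13 * z ^ 6 + 16 * z ^ 7 - 13 * z ^ 8 - 3 * z ^ 9 + 2 * z ^ 10 - 18 * z ^ 11 + 11 * z ^ 12) * (1 + z ^ 11 - (z ^ 11) ^ 4) =
      35 + 11 * z - 24 * z ^ 2 + 27 * z ^ 3 - 27 * z ^ 4 - 7 * z ^ 5 + 9 * z ^ 6 + 6 * z ^ 7 - 28 * z ^ 8 + 8 * z ^ 9 + 21 * z ^ 10 - 16 * z ^ 11 - 14 * z ^ 12 := by
    linear_combination (20 + 20 * z - 31 * z ^ 2 + 10 * z ^ 3 + 2 * z ^ 4 + z ^ 5 - 4 * z ^ 6 - 10 * z ^ 7 - 15 * z ^ 8 + 11 * z ^ 9 + 19 * z ^ 10 - 13 * z ^ 11 - 16 * z ^ 12 + 13 * z ^ 13 + 3 * z ^ 14 - 2 * z ^ 15 + 18 * z ^ 16 - 11 * z ^ 17 - 15 * z ^ 18 + 9 * z ^ 19 - 7 * z ^ 20 - 17 * z ^ 21 + 29 * z ^ 22 + 8 * z ^ 23 - 13 * z ^ 24 - 16 * z ^ 25 + 13 * z ^ 26 + 3 * z ^ 27 - 2 * z ^ 28 +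 18 * z ^ 29 - 11 * z ^ 30 - 15 * z ^ 31 + 9 * z ^ 32 - 7 * z ^ 33 - 17 * z ^ 34 + 29 * z ^ 35 + 8 * z ^ 36 - 13 * z ^ 37 - 16 * z ^ 38 + 13 * z ^ 39 + 3 * z ^ 40 - 2 * z ^ 41 + 18 * z ^ 42 - 11 * z ^ 43) * h
  have e12 : (35 + 11 * z - 24 * z ^ 2 + 27 * z ^ 3 - 27 * z ^ 4 - 7 * z ^ 5 + 9 * z ^ 6 + 6 * z ^ 7 - 28 * z ^ 8 + 8 * z ^ 9 + 21 * z ^ 10 - 16 * z ^ 11 - 14 * z ^ 12) * (1 + z ^ 12 - (z ^ 12) ^ 4) =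
      73 - 6 * z - 6 * z ^ 2 - 6 * z ^ 3 - 6 * z ^ 4 - 6 * z ^ 5 - 6 * z ^ 6 - 6 * z ^ 7 - 6 * z ^ 8 - 6 * z ^ 9 - 6 * z ^ 10 - 6 * z ^ 11 - 6 * z ^ 12 := by
    linear_combination (38 - 17 * z + 18 * z ^ 2 - 33 * z ^ 3 + 21 * z ^ 4 + z ^ 5 - 15 * z ^ 6 - 12 * z ^ 7 + 22 * z ^ 8 - 14 * z ^ 9 - 27 * z ^ 10 + 10 * z ^ 11 - 27 * z ^ 12 + 27 * z ^ 13 + 7 * z ^ 14 - 9 * z ^ 15 - 6 * z ^ 16 + 28 * z ^ 17 - 8 * z ^ 18 - 21 * z ^ 19 + 16 * z ^ 20 + 14 * z ^ 21 - 35 * z ^ 22 - 11 * z ^ 23 + 24 * z ^ 24 - 27 * z ^ 25 + 27 * z ^ 26 + 7 * z ^ 27 - 9 * z ^ 28 - 6 * z ^ 29 + 28 * z ^ 30 - 8 * z ^ 31 - 21 * z ^ 32 + 16 * z ^ 33 + 14 * z ^ 34 - 35 * z ^ 35 - 11 * z ^ 36 + 24 * z ^ 37 - 27 * z ^ 38 + 27 * z ^ 39 + 7 * z ^ 40 - 9 * z ^ 41 - 6 * z ^ 42 + 28 * z ^ 43 -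 8 * z ^ 44 - 21 * z ^ 45 + 16 * z ^ 46 + 14 * z ^ 47) * h
  have efin : 73 - 6 * z - 6 * z ^ 2 - 6 * z ^ 3 - 6 * z ^ 4 - 6 * z ^ 5 - 6 * z ^ 6 - 6 * z ^ 7 - 6 * z ^ 8 - 6 * z ^ 9 - 6 * z ^ 10 - 6 * z ^ 11 - 6 * z ^ 12 = 79 := by
    linear_combination (-6) * hΦ
  rw [Finset.prod_Ico_succ_top (show 1 ≤ 12 by norm_num), Finset.prod_Ico_succ_top (show 1 ≤ 11 by norm_num), Finset.prod_Ico_succ_top (show 1 ≤ 10 by norm_num), Finset.prod_Ico_succ_top (show 1 ≤ 9 by norm_num), Finset.prod_Ico_succ_top (show 1 ≤ 8 by norm_num), Finset.prod_Ico_succ_top (show 1 ≤ 7 by norm_num), Finset.prod_Ico_succ_top (show 1 ≤ 6 by norm_num), Finset.prod_Ico_succ_top (show 1 ≤ 5 by norm_num), Finset.prod_Ico_succ_top (show 1 ≤ 4 by norm_num), Finset.prod_Ico_succ_top (show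 1 ≤ 3 by norm_num), Finset.prod_Ico_succ_top (show 1 ≤ 2 by norm_num), Finset.prod_Ico_succ_top (show 1 ≤ 1 by norm_num), Finset.Ico_self, Finset.prod_empty, one_mul,
    t1, e2, e3, e4, e5, e6, e7, e8, e9, e10, e11, e12, efin]

theorem prod_conj_thirteen_131 {E : Type*} [CommRing E] (z : E) (h : z ^ 13 = 1)
    (hΦ : 1 + z + z ^ 2 + z ^ 3 + z ^ 4 + z ^ 5 + z ^ 6 + z ^ 7 + z ^ 8 + z ^ 9 + z ^ 10 + z ^ 11 + z ^ 12 = 0) :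
    ∏ k ∈ Finset.Ico 1 13, (1 - z ^ k - (z ^ k) ^ 3) = 131 := by
  have t1 : (1 - z ^ 1 - (z ^ 1) ^ 3) = 1 - z - z ^ 3 := by ring
  have e2 : (1 - z - z ^ 3) * (1 - z ^ 2 - (z ^ 2) ^ 3) =
      1 - z - z ^ 2 + z ^ 5 - z ^ 6 + z ^ 7 + z ^ 9 := by
    linear_combination (0) * h
  have e3 : (1 - z - z ^ 2 + z ^ 5 - z ^ 6 + z ^ 7 + z ^ 9) * (1 - z ^ 3 - (z ^ 3) ^ 3) =
      1 - 2 * z - 2 * z ^ 3 + z ^ 4 + z ^ 5 - z ^ 6 + z ^ 7 - z ^ 8 + z ^ 9 + z ^ 11 - z ^ 12 := by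
    linear_combination (-z + z ^ 2 - z ^ 3 - z ^ 5) * h
  have e4 : (1 - 2 * z - 2 * z ^ 3 + z ^ 4 + z ^ 5 - z ^ 6 + z ^ 7 - z ^ 8 + z ^ 9 + z ^ 11 - z ^ 12) * (1 - z ^ 4 - (z ^ 4) ^ 3) =
      2 - 2 * z + z ^ 2 - 2 * z ^ 3 - z ^ 4 + 4 * z ^ 5 - 2 * z ^ 6 + 4 * z ^ 7 - 3 * z ^ 8 + z ^ 11 - z ^ 12 := by
    linear_combination (1 + z ^ 2 - z ^ 4 + z ^ 5 - z ^ 6 + z ^ 7 - z ^ 8 - z ^ 10 + z ^ 11) * h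
  have e5 : (2 - 2 * z + z ^ 2 - 2 * z ^ 3 - z ^ 4 + 4 * z ^ 5 - 2 * z ^ 6 + 4 * z ^ 7 - 3 * z ^ 8 + z ^ 11 - z ^ 12) * (1 - z ^ 5 - (z ^ 5) ^ 3) =
      4 - z - z ^ 2 - z ^ 3 - z ^ 4 + 4 * z ^ 5 + z ^ 6 - z ^ 7 + z ^ 8 - 3 * z ^ 9 - z ^ 10 + 3 * z ^ 11 - 5 * z ^ 12 := by
    linear_combination (2 + z - 2 * z ^ 2 + z ^ 3 + 2 * z ^ 5 + z ^ 6 - 4 * z ^ 7 + 2 * z ^ 8 - 4 * z ^ 9 + 3 * z ^ 10 - z ^ 13 + z ^ 14) * h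
  have e6 : (4 - z - z ^ 2 - z ^ 3 - z ^ 4 + 4 * z ^ 5 + z ^ 6 - z ^ 7 + z ^ 8 - 3 * z ^ 9 - z ^ 10 + 3 * z ^ 11 - 5 * z ^ 12) * (1 - z ^ 6 - (z ^ 6) ^ 3) =
      4 + z + 3 * z ^ 2 - 3 * z ^ 3 + z ^ 4 + 5 * z ^ 5 - 2 * z ^ 6 + z ^ 7 + 3 * z ^ 8 - z ^ 9 - 4 * z ^ 10 - 2 * z ^ 11 - 5 * z ^ 12 := by
    linear_combination (2 * z + 4 * z ^ 2 - 2 * z ^ 3 + 2 * z ^ 4 + z ^ 5 + z ^ 6 + z ^ 7 + z ^ 8 + z ^ 9 - 4 * z ^ 10 - z ^ 11 + z ^ 12 - z ^ 13 + 3 * z ^ 14 + z ^ 15 - 3 * z ^ 16 + 5 * z ^ 17) * h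
  have e7 : (4 + z + 3 * z ^ 2 - 3 * z ^ 3 + z ^ 4 + 5 * z ^ 5 - 2 * z ^ 6 + z ^ 7 + 3 * z ^ 8 - z ^ 9 - 4 * z ^ 10 - 2 * z ^ 11 - 5 * z ^ 12) * (1 - z ^ 7 - (z ^ 7) ^ 3) =
      1 + 2 * z - z ^ 2 - 5 * z ^ 3 + 6 * z ^ 4 + 11 * z ^ 5 + 5 * z ^ 6 + 2 * z ^ 7 - 2 * z ^ 8 - 5 * z ^ 9 - 4 * z ^ 10 - 11 * z ^ 12 := by
    linear_combination (-3 + z - 4 * z ^ 2 - 2 * z ^ 3 + 5 * z ^ 4 + 6 * z ^ 5 + 7 * z ^ 6 + 5 * z ^ 7 - 4 * z ^ 8 - z ^ 9 - 3 * z ^ 10 + 3 * z ^ 11 - z ^ 12 - 5 * z ^ 13 + 2 * z ^ 14 - z ^ 15 - 3 * z ^ 16 + z ^ 17 + 4 * z ^ 18 + 2 * z ^ 19 + 5 * z ^ 20) * h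
  have e8 : (1 + 2 * z - z ^ 2 - 5 * z ^ 3 + 6 * z ^ 4 + 11 * z ^ 5 + 5 * z ^ 6 + 2 * z ^ 7 - 2 * z ^ 8 - 5 * z ^ 9 - 4 * z ^ 10 - 11 * z ^ 12) * (1 - z ^ 8 - (z ^ 8) ^ 3) =
      -9 + 2 * z - 9 * z ^ 2 - 14 * z ^ 3 + 6 * z ^ 4 + 13 * z ^ 5 + 7 * z ^ 6 + 18 * z ^ 7 + z ^ 8 - 7 * z ^ 9 + 8 * z ^ 10 + 4 * z ^ 11 - 19 * z ^ 12 := by
    linear_combination (-10 - 8 * z ^ 2 - 9 * z ^ 3 + 2 * z ^ 5 + 2 * z ^ 6 + 16 * z ^ 7 + 4 * z ^ 8 + 11 * z ^ 10 - z ^ 11 - 2 * z ^ 12 + z ^ 13 + 5 * z ^ 14 - 6 * z ^ 15 - 11 * z ^ 16 - 5 * z ^ 17 - 2 * z ^ 18 + 2 * z ^ 19 + 5 * z ^ 20 + 4 * z ^ 21 + 11 * z ^ 23) * h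
  have e9 : (-9 + 2 * z - 9 * z ^ 2 - 14 * z ^ 3 + 6 * z ^ 4 + 13 * z ^ 5 + 7 * z ^ 6 + 18 * z ^ 7 + z ^ 8 - 7 * z ^ 9 + 8 * z ^ 10 + 4 * z ^ 11 - 19 * z ^ 12) * (1 - z ^ 9 - (z ^ 9) ^ 3) =
      4 - 2 * z - 18 * z ^ 2 - 23 * z ^ 3 + 19 * z ^ 4 + 14 * z ^ 5 - 14 * z ^ 6 + 7 * z ^ 7 + 2 * z ^ 8 + z ^ 9 + 13 * z ^ 10 + 5 * z ^ 11 - 9 * z ^ 12 := by
    linear_combination (13 - 4 * z - 9 * z ^ 2 - 9 * z ^ 3 + 13 * z ^ 4 + z ^ 5 - 21 * z ^ 6 - 11 * z ^ 7 + z ^ 8 - z ^ 9 + 7 * z ^ 10 - 8 * z ^ 11 - 4 * z ^ 12 + 19 * z ^ 13 + 9 * z ^ 14 - 2 * z ^ 15 + 9 * z ^ 16 + 14 * z ^ 17 - 6 * z ^ 18 - 13 * z ^ 19 - 7 * z ^ 20 - 18 * z ^ 21 - z ^ 22 + 7 * z ^ 23 - 8 * z ^ 24 - 4 * z ^ 25 + 19 * z ^ 26) * h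
  have e10 : (4 - 2 * z - 18 * z ^ 2 - 23 * z ^ 3 + 19 * z ^ 4 + 14 * z ^ 5 - 14 * z ^ 6 + 7 * z ^ 7 + 2 * z ^ 8 + z ^ 9 + 13 * z ^ 10 + 5 * z ^ 11 - 9 * z ^ 12) * (1 - z ^ 10 - (z ^ 10) ^ 3) =
      26 - 34 * z - 37 * z ^ 2 + 8 * z ^ 4 + 14 * z ^ 5 + 3 * z ^ 6 + 17 * z ^ 7 - 22 * z ^ 8 - 4 * z ^ 9 + 23 * z ^ 10 + 7 * z ^ 12 := by
    linear_combination (22 - 32 * z - 19 * z ^ 2 + 23 * z ^ 3 - 11 * z ^ 4 + 17 * z ^ 6 + 10 * z ^ 7 - 24 * z ^ 8 - 5 * z ^ 9 + 14 * z ^ 10 - 7 * z ^ 11 - 2 * z ^ 12 - z ^ 13 - 13 * z ^ 14 - 5 * z ^ 15 + 9 * z ^ 16 - 4 * z ^ 17 + 2 * z ^ 18 + 18 * z ^ 19 + 23 * z ^ 20 - 19 * z ^ 21 - 14 * z ^ 22 + 14 * z ^ 23 - 7 * z ^ 24 - 2 * z ^ 25 - z ^ 26 - 13 * z ^ 27 - 5 * z ^ 28 + 9 * z ^ 29) * h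
  have e11 : (26 - 34 * z - 37 * z ^ 2 + 8 * z ^ 4 + 14 * z ^ 5 + 3 * z ^ 6 + 17 * z ^ 7 - 22 * z ^ 8 - 4 * z ^ 9 + 23 * z ^ 10 + 7 * z ^ 12) * (1 - z ^ 11 - (z ^ 11) ^ 3) =
      60 - 51 * z - 23 * z ^ 2 - 10 * z ^ 3 - 18 * z ^ 4 - 3 * z ^ 5 + 18 * z ^ 6 - 5 * z ^ 7 - 11 * z ^ 8 + 33 * z ^ 9 + 16 * z ^ 10 - 34 * z ^ 11 + 27 * z ^ 12 := by
    linear_combination (34 - 17 * z + 14 * z ^ 2 - 10 * z ^ 3 - 26 * z ^ 4 - 17 * z ^ 5 + 15 * z ^ 6 - 22 * z ^ 7 + 11 * z ^ 8 + 37 * z ^ 9 - 7 * z ^ 10 - 8 * z ^ 11 - 14 * z ^ 12 - 3 * z ^ 13 - 17 * z ^ 14 + 22 * z ^ 15 + 4 * z ^ 16 - 23 * z ^ 17 - 7 * z ^ 19 - 26 * z ^ 20 + 34 * z ^ 21 + 37 * z ^ 22 - 8 * z ^ 24 - 14 * z ^ 25 - 3 * z ^ 26 - 17 * z ^ 27 + 22 * z ^ 28 + 4 * z ^ 29 - 23 * z ^ 30 - 7 * z ^ 32) * h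
  have e12 : (60 - 51 * z - 23 * z ^ 2 - 10 * z ^ 3 - 18 * z ^ 4 - 3 * z ^ 5 + 18 * z ^ 6 - 5 * z ^ 7 - 11 * z ^ 8 + 33 * z ^ 9 + 16 * z ^ 10 - 34 * z ^ 11 + 27 * z ^ 12) * (1 - z ^ 12 - (z ^ 12) ^ 3) =
      121 - 10 * z - 10 * z ^ 2 - 10 * z ^ 3 - 10 * z ^ 4 - 10 * z ^ 5 - 10 * z ^ 6 - 10 * z ^ 7 - 10 * z ^ 8 - 10 * z ^ 9 - 10 * z ^ 10 - 10 * z ^ 11 - 10 * z ^ 12 := by
    linear_combination (61 + 41 * z + 13 * z ^ 2 + 8 * z ^ 4 - 7 * z ^ 5 - 28 * z ^ 6 - 5 * z ^ 7 + z ^ 8 - 43 * z ^ 9 - 26 * z ^ 10 + 24 * z ^ 11 + 23 * z ^ 12 + 10 * z ^ 13 + 18 * z ^ 14 + 3 * z ^ 15 - 18 * z ^ 16 + 5 * z ^ 17 + 11 * z ^ 18 - 33 * z ^ 19 - 16 * z ^ 20 + 34 * z ^ 21 - 27 * z ^ 22 - 60 * z ^ 23 + 51 * z ^ 24 + 23 * z ^ 25 + 10 * z ^ 26 + 18 * z ^ 27 + 3 * z ^ 28 - 18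 * z ^ 29 + 5 * z ^ 30 + 11 * z ^ 31 - 33 * z ^ 32 - 16 * z ^ 33 + 34 * z ^ 34 - 27 * z ^ 35) * h
  have efin : 121 - 10 * z - 10 * z ^ 2 - 10 * z ^ 3 - 10 * z ^ 4 - 10 * z ^ 5 - 10 * z ^ 6 - 10 * z ^ 7 - 10 * z ^ 8 - 10 * z ^ 9 - 10 * z ^ 10 - 10 * z ^ 11 - 10 * z ^ 12 = 131 := by
    linear_combination (-10) * hΦ
  rw [Finset.prod_Ico_succ_top (show 1 ≤ 12 by norm_num), Finset.prod_Ico_succ_top (show 1 ≤ 11 by norm_num), Finset.prod_Ico_succ_top (show 1 ≤ 10 by norm_num), Finset.prod_Ico_succ_top (show 1 ≤ 9 by norm_num), Finset.prod_Ico_succ_top (show 1 ≤ 8 by norm_num), Finset.prod_Ico_succ_top (show 1 ≤ 7 by norm_num), Finset.prod_Ico_succ_top (show 1 ≤ 6 by norm_num), Finset.prod_Ico_succ_top (show 1 ≤ 5 by norm_num), Finset.prod_Ico_succ_top (show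 1 ≤ 4 by norm_num), Finset.prod_Ico_succ_top (show 1 ≤ 3 by norm_num), Finset.prod_Ico_succ_top (show 1 ≤ 2 by norm_num), Finset.prod_Ico_succ_top (show 1 ≤ 1 by norm_num), Finset.Ico_self, Finset.prod_empty, one_mul,
    t1, e2, e3, e4, e5, e6, e7, e8, e9, e10, e11, e12, efin]

theorem prod_conj_thirteen_157 {E : Type*} [CommRing E] (z : E) (h : z ^ 13 = 1)
    (hΦ : 1 + z + z ^ 2 + z ^ 3 + z ^ 4 + z ^ 5 + z ^ 6 + z ^ 7 + z ^ 8 + z ^ 9 + z ^ 10 + z ^ 11 + z ^ 12 = 0) :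
    ∏ k ∈ Finset.Ico 1 13, (1 - z ^ k + (z ^ k) ^ 2 + (z ^ k) ^ 4) = 157 := by
  have t1 : (1 - z ^ 1 + (z ^ 1) ^ 2 + (z ^ 1) ^ 4) = 1 - z + z ^ 2 + z ^ 4 := by ring
  have e2 : (1 - z + z ^ 2 + z ^ 4) * (1 - z ^ 2 + (z ^ 2) ^ 2 + (z ^ 2) ^ 4) =
      1 - z + z ^ 3 + z ^ 4 - z ^ 5 + 2 * z ^ 8 - z ^ 9 + z ^ 10 + z ^ 12 := by
    linear_combination (0) * h
  have e3 : (1 - z + z ^ 3 + z ^ 4 - z ^ 5 + 2 * z ^ 8 - z ^ 9 + z ^ 10 + z ^ 12) * (1 - z ^ 3 + (z ^ 3) ^ 2 + (z ^ 3) ^ 4) =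
      -1 + z - z ^ 2 + 2 * z ^ 3 + z ^ 4 + 2 * z ^ 8 + z ^ 9 + 2 * z ^ 10 - 2 * z ^ 11 + 3 * z ^ 12 := by
    linear_combination (-2 + 2 * z - z ^ 2 + 2 * z ^ 3 - z ^ 4 + z ^ 5 + 2 * z ^ 7 - z ^ 8 + z ^ 9 + z ^ 11) * h
  have e4 : (-1 + z - z ^ 2 + 2 * z ^ 3 + z ^ 4 + 2 * z ^ 8 + z ^ 9 + 2 * z ^ 10 - 2 * z ^ 11 + 3 * z ^ 12) * (1 - z ^ 4 + (z ^ 4) ^ 2 + (z ^ 4) ^ 4) =
      -3 * z + 4 * z ^ 2 + 4 * z ^ 4 + z ^ 6 + 2 * z ^ 7 + 2 * z ^ 9 + z ^ 10 + 2 * z ^ 11 + 3 * z ^ 12 := by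
    linear_combination (1 - 4 * z + 5 * z ^ 2 - 2 * z ^ 3 + 2 * z ^ 4 + z ^ 5 + 4 * z ^ 7 + 2 * z ^ 11 + z ^ 12 + 2 * z ^ 13 - 2 * z ^ 14 + 3 * z ^ 15) * h
  have e5 : (-3 * z + 4 * z ^ 2 + 4 * z ^ 4 + z ^ 6 + 2 * z ^ 7 + 2 * z ^ 9 + z ^ 10 + 2 * z ^ 11 + 3 * z ^ 12) * (1 - z ^ 5 + (z ^ 5) ^ 2 + (z ^ 5) ^ 4) =
      1 + z + 3 * z ^ 2 + z ^ 3 + 4 * z ^ 4 + 2 * z ^ 5 + 9 * z ^ 6 - z ^ 7 - z ^ 8 + 5 * z ^ 9 + z ^ 10 + 2 * z ^ 11 + 5 * z ^ 12 := by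
    linear_combination (1 + 4 * z - z ^ 2 + z ^ 3 + 2 * z ^ 5 + 5 * z ^ 6 + z ^ 7 - z ^ 8 + 7 * z ^ 9 + 4 * z ^ 11 + z ^ 13 + 2 * z ^ 14 + 2 * z ^ 16 + z ^ 17 + 2 * z ^ 18 + 3 * z ^ 19) * h
  have e6 : (1 + z + 3 * z ^ 2 + z ^ 3 + 4 * z ^ 4 + 2 * z ^ 5 + 9 * z ^ 6 - z ^ 7 - z ^ 8 + 5 * z ^ 9 + z ^ 10 + 2 * z ^ 11 + 5 * z ^ 12) * (1 - z ^ 6 + (z ^ 6) ^ 2 + (z ^ 6) ^ 4) =
      6 + 6 * z + 3 * z ^ 2 + 6 * z ^ 3 + 13 * z ^ 4 + 5 * z ^ 5 + 6 * z ^ 6 + 2 * z ^ 7 + 2 * z ^ 8 + 7 * z ^ 9 + 4 * z ^ 10 + 6 * z ^ 11 - 2 * z ^ 12 := by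
    linear_combination (5 + 5 * z + 5 * z ^ 3 + 9 * z ^ 4 + 3 * z ^ 5 - 2 * z ^ 6 + 4 * z ^ 7 + 6 * z ^ 8 + 3 * z ^ 9 + 7 * z ^ 10 + 6 * z ^ 11 + z ^ 12 + 3 * z ^ 13 + z ^ 14 + 4 * z ^ 15 + 2 * z ^ 16 + 9 * z ^ 17 - z ^ 18 - z ^ 19 + 5 * z ^ 20 + z ^ 21 + 2 * z ^ 22 + 5 * z ^ 23) * h
  have e7 : (6 + 6 * z + 3 * z ^ 2 + 6 * z ^ 3 + 13 * z ^ 4 + 5 * z ^ 5 + 6 * z ^ 6 + 2 * z ^ 7 + 2 * z ^ 8 + 7 * z ^ 9 + 4 * z ^ 10 + 6 * z ^ 11 - 2 * z ^ 12) * (1 - z ^ 7 + (z ^ 7) ^ 2 + (z ^ 7) ^ 4) =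
      4 + 8 * z + 13 * z ^ 2 + 8 * z ^ 3 + 18 * z ^ 4 + 18 * z ^ 5 + 26 * z ^ 6 + 7 * z ^ 7 + 4 * z ^ 8 + 8 * z ^ 9 + 7 * z ^ 10 + 4 * z ^ 11 + 3 * z ^ 12 := by
    linear_combination (-2 + 2 * z + 10 * z ^ 2 + 2 * z ^ 3 + 5 * z ^ 4 + 13 * z ^ 5 + 20 * z ^ 6 + 11 * z ^ 7 + 8 * z ^ 8 + 4 * z ^ 9 + 9 * z ^ 10 + 11 * z ^ 11 + 10 * z ^ 12 + 4 * z ^ 13 - 2 * z ^ 14 + 6 * z ^ 15 + 6 * z ^ 16 + 3 * z ^ 17 + 6 * z ^ 18 + 13 * z ^ 19 + 5 * z ^ 20 + 6 * z ^ 21 + 2 * z ^ 22 + 2 * z ^ 23 + 7 * z ^ 24 + 4 * z ^ 25 + 6 * z ^ 26 - 2 * z ^ 27) * h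
  have e8 : (4 + 8 * z + 13 * z ^ 2 + 8 * z ^ 3 + 18 * z ^ 4 + 18 * z ^ 5 + 26 * z ^ 6 + 7 * z ^ 7 + 4 * z ^ 8 + 8 * z ^ 9 + 7 * z ^ 10 + 4 * z ^ 11 + 3 * z ^ 12) * (1 - z ^ 8 + (z ^ 8) ^ 2 + (z ^ 8) ^ 4) =
      -10 * z + 17 * z ^ 2 + 15 * z ^ 3 + 22 * z ^ 4 + 27 * z ^ 5 + 34 * z ^ 6 + 30 * z ^ 7 + 31 * z ^ 8 + 34 * z ^ 9 + 19 * z ^ 10 + 18 * z ^ 11 + 19 * z ^ 12 := by
    linear_combination (-4 - 18 * z + 4 * z ^ 2 + 7 * z ^ 3 + 4 * z ^ 4 + 9 * z ^ 5 + 8 * z ^ 6 + 23 * z ^ 7 + 31 * z ^ 8 + 34 * z ^ 9 + 25 * z ^ 10 + 22 * z ^ 11 + 34 * z ^ 12 + 14 * z ^ 13 + 8 * z ^ 14 + 11 * z ^ 15 + 7 * z ^ 16 + 4 * z ^ 17 + 3 * z ^ 18 + 4 * z ^ 19 + 8 * z ^ 20 + 13 * z ^ 21 + 8 * z ^ 22 + 18 * z ^ 23 + 18 * z ^ 24 + 26 * z ^ 25 + 7 * z ^ 26 + 4 * z ^ 27 + 8 * z ^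 28 + 7 * z ^ 29 + 4 * z ^ 30 + 3 * z ^ 31) * h
  have e9 : (-10 * z + 17 * z ^ 2 + 15 * z ^ 3 + 22 * z ^ 4 + 27 * z ^ 5 + 34 * z ^ 6 + 30 * z ^ 7 + 31 * z ^ 8 + 34 * z ^ 9 + 19 * z ^ 10 + 18 * z ^ 11 + 19 * z ^ 12) * (1 - z ^ 9 + (z ^ 9) ^ 2 + (z ^ 9) ^ 4) =
      24 + 19 * z + 29 * z ^ 2 + 37 * z ^ 3 + 40 * z ^ 4 + 24 * z ^ 5 + 39 * z ^ 6 + 48 * z ^ 7 + 45 * z ^ 8 + 75 * z ^ 9 + 56 * z ^ 10 + 25 * z ^ 11 + 51 * z ^ 12 := by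
    linear_combination (24 + 29 * z + 12 * z ^ 2 + 22 * z ^ 3 + 18 * z ^ 4 - 3 * z ^ 5 + 5 * z ^ 6 + 18 * z ^ 7 + 14 * z ^ 8 + 41 * z ^ 9 + 27 * z ^ 10 + 24 * z ^ 11 + 47 * z ^ 12 + 46 * z ^ 13 + 56 * z ^ 14 + 46 * z ^ 15 + 52 * z ^ 16 + 49 * z ^ 17 + 31 * z ^ 18 + 34 * z ^ 19 + 19 * z ^ 20 + 18 * z ^ 21 + 19 * z ^ 22 - 10 * z ^ 24 + 17 * z ^ 25 + 15 * z ^ 26 + 22 * z ^ 27 + 27 * z ^ 28 + 34 * z ^ 29 + 30 * z ^ 30 + 31 * z ^ 31 + 34 * z ^ 32 + 19 * z ^ 33 + 18 * z ^ 34 + 19 * z ^ 35) * h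
  have e10 : (24 + 19 * z + 29 * z ^ 2 + 37 * z ^ 3 + 40 * z ^ 4 + 24 * z ^ 5 + 39 * z ^ 6 + 48 * z ^ 7 + 45 * z ^ 8 + 75 * z ^ 9 + 56 * z ^ 10 + 25 * z ^ 11 + 51 * z ^ 12) * (1 - z ^ 10 + (z ^ 10) ^ 2 + (z ^ 10) ^ 4) =
      77 + 51 * z + 69 * z ^ 2 + 102 * z ^ 3 + 85 * z ^ 4 + 44 * z ^ 5 + 39 * z ^ 6 + 55 * z ^ 7 + 87 * z ^ 8 + 98 * z ^ 9 + 144 * z ^ 10 + 102 * z ^ 11 + 71 * z ^ 12 := by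
    linear_combination (53 + 32 * z + 40 * z ^ 2 + 65 * z ^ 3 + 45 * z ^ 4 + 20 * z ^ 5 + 7 * z ^ 7 + 42 * z ^ 8 + 23 * z ^ 9 + 112 * z ^ 10 + 96 * z ^ 11 + 49 * z ^ 12 + 90 * z ^ 13 + 72 * z ^ 14 + 64 * z ^ 15 + 104 * z ^ 16 + 93 * z ^ 17 + 65 * z ^ 18 + 75 * z ^ 19 + 39 * z ^ 20 + 48 * z ^ 21 + 45 * z ^ 22 + 75 * z ^ 23 + 56 * z ^ 24 + 25 * z ^ 25 + 51 * z ^ 26 + 24 * z ^ 27 + 19 * z ^ 28 + 29 * z ^ 29 + 37 * z ^ 30 + 40 * z ^ 31 + 24 * z ^ 32 + 39 * z ^ 33 + 48 * z ^ 34 + 45 * z ^ 35 + 75 * z ^ 36 + 56 * z ^ 37 + 25 * z ^ 38 + 51 * z ^ 39) * h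
  have e11 : (77 + 51 * z + 69 * z ^ 2 + 102 * z ^ 3 + 85 * z ^ 4 + 44 * z ^ 5 + 39 * z ^ 6 + 55 * z ^ 7 + 87 * z ^ 8 + 98 * z ^ 9 + 144 * z ^ 10 + 102 * z ^ 11 + 71 * z ^ 12) * (1 - z ^ 11 + (z ^ 11) ^ 2 + (z ^ 11) ^ 4) =
      180 + 91 * z + 167 * z ^ 2 + 215 * z ^ 3 + 204 * z ^ 4 + 164 * z ^ 5 + 147 * z ^ 6 + 128 * z ^ 7 + 116 * z ^ 8 + 158 * z ^ 9 + 168 * z ^ 10 + 133 * z ^ 11 + 177 * z ^ 12 := by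
    linear_combination (103 + 40 * z + 98 * z ^ 2 + 113 * z ^ 3 + 119 * z ^ 4 + 120 * z ^ 5 + 108 * z ^ 6 + 73 * z ^ 7 + 29 * z ^ 8 + 60 * z ^ 9 + 24 * z ^ 10 + 108 * z ^ 11 + 157 * z ^ 12 + 172 * z ^ 13 + 142 * z ^ 14 + 183 * z ^ 15 + 157 * z ^ 16 + 158 * z ^ 17 + 175 * z ^ 18 + 195 * z ^ 19 + 171 * z ^ 20 + 173 * z ^ 21 + 85 * z ^ 22 + 44 * z ^ 23 + 39 * z ^ 24 + 55 * z ^ 25 + 87 * z ^ 26 + 98 * z ^ 27 + 144 * z ^ 28 + 102 * z ^ 29 + 71 * z ^ 30 + 77 * z ^ 31 + 51 * z ^ 32 + 69 * z ^ 33 + 102 * z ^ 34 + 85 * z ^ 35 + 44 * z ^ 36 + 39 * z ^ 37 + 55 * z ^ 38 + 87 * z ^ 39 + 98 * z ^ 40 + 144 * z ^ 41 + 102 * z ^ 42 + 71 * z ^ 43) * h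
  have e12 : (180 + 91 * z + 167 * z ^ 2 + 215 * z ^ 3 + 204 * z ^ 4 + 164 * z ^ 5 + 147 * z ^ 6 + 128 * z ^ 7 + 116 * z ^ 8 + 158 * z ^ 9 + 168 * z ^ 10 + 133 * z ^ 11 + 177 * z ^ 12) * (1 - z ^ 12 + (z ^ 12) ^ 2 + (z ^ 12) ^ 4) =
      460 + 303 * z + 303 * z ^ 2 + 303 * z ^ 3 + 303 * z ^ 4 + 303 * z ^ 5 + 303 * z ^ 6 + 303 * z ^ 7 + 303 * z ^ 8 + 303 * z ^ 9 + 303 * z ^ 10 + 303 * z ^ 11 + 303 * z ^ 12 := by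
    linear_combination (280 + 212 * z + 136 * z ^ 2 + 88 * z ^ 3 + 99 * z ^ 4 + 139 * z ^ 5 + 156 * z ^ 6 + 175 * z ^ 7 + 187 * z ^ 8 + 145 * z ^ 9 + 135 * z ^ 10 + 170 * z ^ 11 + 306 * z ^ 12 + 371 * z ^ 13 + 379 * z ^ 14 + 351 * z ^ 15 + 292 * z ^ 16 + 263 * z ^ 17 + 286 * z ^ 18 + 284 * z ^ 19 + 291 * z ^ 20 + 345 * z ^ 21 + 313 * z ^ 22 + 268 * z ^ 23 + 167 * z ^ 24 + 215 * z ^ 25 + 204 * z ^ 26 + 164 * z ^ 27 + 147 * z ^ 28 + 128 * z ^ 29 + 116 * z ^ 30 + 158 * z ^ 31 + 168 * z ^ 32 + 133 * z ^ 33 + 177 * z ^ 34 + 180 * z ^ 35 + 91 * z ^ 36 + 167 * z ^ 37 + 215 * z ^ 38 + 204 * z ^ 39 + 164 * z ^ 40 + 147 * z ^ 41 + 128 * z ^ 42 + 116 * z ^ 43 + 158 * z ^ 44 + 168 * z ^ 45 + 133 * z ^ 46 + 177 * z ^ 47) * h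
  have efin : 460 + 303 * z + 303 * z ^ 2 + 303 * z ^ 3 + 303 * z ^ 4 + 303 * z ^ 5 + 303 * z ^ 6 + 303 * z ^ 7 + 303 * z ^ 8 + 303 * z ^ 9 + 303 * z ^ 10 + 303 * z ^ 11 + 303 * z ^ 12 = 157 := by
    linear_combination (303) * hΦ
  rw [Finset.prod_Ico_succ_top (show 1 ≤ 12 by norm_num), Finset.prod_Ico_succ_top (show 1 ≤ 11 by norm_num), Finset.prod_Ico_succ_top (show 1 ≤ 10 by norm_num), Finset.prod_Ico_succ_top (show 1 ≤ 9 by norm_num), Finset.prod_Ico_succ_top (show 1 ≤ 8 by norm_num), Finset.prod_Ico_succ_top (show 1 ≤ 7 by norm_num), Finset.prod_Ico_succ_top (show 1 ≤ 6 by norm_num), Finset.prod_Ico_succ_top (show 1 ≤ 5 by norm_num), Finset.prod_Ico_succ_top (show 1 ≤ 4 by norm_num), Finset.prod_Ico_succ_top (show 1 ≤ 3 by norm_num), Finset.prod_Ico_succ_top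 (show 1 ≤ 2 by norm_num), Finset.prod_Ico_succ_top (show 1 ≤ 1 by norm_num), Finset.Ico_self, Finset.prod_empty, one_mul,
    t1, e2, e3, e4, e5, e6, e7, e8, e9, e10, e11, e12, efin]

theorem norm_thirteen_27 {K : Type*} [Field K] [NumberField K] [IsCyclotomicExtension {13} ℚ K]
    {ζ : K} (hζ : IsPrimitiveRoot ζ 13) :
    Algebra.norm ℤ (1 + hζ.toInteger - hζ.toInteger ^ 3) = 27 := by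
  have : Fact (Nat.Prime 13) := ⟨by norm_num⟩
  have hcast : ((Algebra.norm ℤ (1 + hζ.toInteger - hζ.toInteger ^ 3) : ℤ) : ℚ) = 27 := by
    rw [Algebra.coe_norm_int]
    apply (algebraMap ℚ (AlgebraicClosure K)).injective
    have hf : ((1 + hζ.toInteger - hζ.toInteger ^ 3 : 𝓞 K) : K) =
        aeval ζ (1 + X - X ^ 3 : ℚ[X]) := by
      have hc : (algebraMap (𝓞 K) K) hζ.toInteger = ζ := hζ.coe_toInteger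
      simp [hc]
    rw [hf, norm_aeval_eq_prod_Ico hζ]
    set z := algebraMap K (AlgebraicClosure K) ζ with hz
    have hzp : IsPrimitiveRoot z 13 :=
      hζ.map_of_injective (algebraMap K (AlgebraicClosure K)).injective
    have h13 : z ^ 13 = 1 := hzp.pow_eq_one
    have hΦ : 1 + z + z ^ 2 + z ^ 3 + z ^ 4 + z ^ 5 + z ^ 6 + z ^ 7 + z ^ 8 + z ^ 9 + z ^ 10 +
        z ^ 11 + z ^ 12 = 0 := by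
      have := hzp.geom_sum_eq_zero (by norm_num)
      simpa [Finset.sum_range_succ] using this
    have := prod_conj_thirteen_27 z h13 hΦ
    simp only [map_add, map_sub, map_one, aeval_X, map_pow, map_ofNat]
    rw [this]
  exact_mod_cast hcast

theorem norm_thirteen_53 {K : Type*} [Field K] [NumberField K] [IsCyclotomicExtension {13} ℚ K]
    {ζ : K} (hζ : IsPrimitiveRoot ζ 13) :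
    Algebra.norm ℤ (1 + hζ.toInteger + hζ.toInteger ^ 3) = 53 := by
  have : Fact (Nat.Prime 13) := ⟨by norm_num⟩
  have hcast : ((Algebra.norm ℤ (1 + hζ.toInteger + hζ.toInteger ^ 3) : ℤ) : ℚ) = 53 := by
    rw [Algebra.coe_norm_int]
    apply (algebraMap ℚ (AlgebraicClosure K)).injective
    have hf : ((1 + hζ.toInteger + hζ.toInteger ^ 3 : 𝓞 K) : K) =
        aeval ζ (1 + X + X ^ 3 : ℚ[X]) := by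
      have hc : (algebraMap (𝓞 K) K) hζ.toInteger = ζ := hζ.coe_toInteger
      simp [hc]
    rw [hf, norm_aeval_eq_prod_Ico hζ]
    set z := algebraMap K (AlgebraicClosure K) ζ with hz
    have hzp : IsPrimitiveRoot z 13 :=
      hζ.map_of_injective (algebraMap K (AlgebraicClosure K)).injective
    have h13 : z ^ 13 = 1 := hzp.pow_eq_one
    have hΦ : 1 + z + z ^ 2 + z ^ 3 + z ^ 4 + z ^ 5 + z ^ 6 + z ^ 7 + z ^ 8 + z ^ 9 + z ^ 10 +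
        z ^ 11 + z ^ 12 = 0 := by
      have := hzp.geom_sum_eq_zero (by norm_num)
      simpa [Finset.sum_range_succ] using this
    have := prod_conj_thirteen_53 z h13 hΦ
    simp only [map_add, map_sub, map_one, aeval_X, map_pow, map_ofNat]
    rw [this]
  exact_mod_cast hcast

theorem norm_thirteen_79 {K : Type*} [Field K] [NumberField K] [IsCyclotomicExtension {13} ℚ K]
    {ζ : K} (hζ : IsPrimitiveRoot ζ 13) :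
    Algebra.norm ℤ (1 + hζ.toInteger - hζ.toInteger ^ 4) = 79 := by
  have : Fact (Nat.Prime 13) := ⟨by norm_num⟩
  have hcast : ((Algebra.norm ℤ (1 + hζ.toInteger - hζ.toInteger ^ 4) : ℤ) : ℚ) = 79 := by
    rw [Algebra.coe_norm_int]
    apply (algebraMap ℚ (AlgebraicClosure K)).injective
    have hf : ((1 + hζ.toInteger - hζ.toInteger ^ 4 : 𝓞 K) : K) =
        aeval ζ (1 + X - X ^ 4 : ℚ[X]) := by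
      have hc : (algebraMap (𝓞 K) K) hζ.toInteger = ζ := hζ.coe_toInteger
      simp [hc]
    rw [hf, norm_aeval_eq_prod_Ico hζ]
    set z := algebraMap K (AlgebraicClosure K) ζ with hz
    have hzp : IsPrimitiveRoot z 13 :=
      hζ.map_of_injective (algebraMap K (AlgebraicClosure K)).injective
    have h13 : z ^ 13 = 1 := hzp.pow_eq_one
    have hΦ : 1 + z + z ^ 2 + z ^ 3 + z ^ 4 + z ^ 5 + z ^ 6 + z ^ 7 + z ^ 8 + z ^ 9 + z ^ 10 +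
        z ^ 11 + z ^ 12 = 0 := by
      have := hzp.geom_sum_eq_zero (by norm_num)
      simpa [Finset.sum_range_succ] using this
    have := prod_conj_thirteen_79 z h13 hΦ
    simp only [map_add, map_sub, map_one, aeval_X, map_pow, map_ofNat]
    rw [this]
  exact_mod_cast hcast

theorem norm_thirteen_131 {K : Type*} [Field K] [NumberField K] [IsCyclotomicExtension {13} ℚ K]
    {ζ : K} (hζ : IsPrimitiveRoot ζ 13) :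
    Algebra.norm ℤ (1 - hζ.toInteger - hζ.toInteger ^ 3) = 131 := by
  have : Fact (Nat.Prime 13) := ⟨by norm_num⟩
  have hcast : ((Algebra.norm ℤ (1 - hζ.toInteger - hζ.toInteger ^ 3) : ℤ) : ℚ) = 131 := by
    rw [Algebra.coe_norm_int]
    apply (algebraMap ℚ (AlgebraicClosure K)).injective
    have hf : ((1 - hζ.toInteger - hζ.toInteger ^ 3 : 𝓞 K) : K) =
        aeval ζ (1 - X - X ^ 3 : ℚ[X]) := by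
      have hc : (algebraMap (𝓞 K) K) hζ.toInteger = ζ := hζ.coe_toInteger
      simp [hc]
    rw [hf, norm_aeval_eq_prod_Ico hζ]
    set z := algebraMap K (AlgebraicClosure K) ζ with hz
    have hzp : IsPrimitiveRoot z 13 :=
      hζ.map_of_injective (algebraMap K (AlgebraicClosure K)).injective
    have h13 : z ^ 13 = 1 := hzp.pow_eq_one
    have hΦ : 1 + z + z ^ 2 + z ^ 3 + z ^ 4 + z ^ 5 + z ^ 6 + z ^ 7 + z ^ 8 + z ^ 9 + z ^ 10 +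
        z ^ 11 + z ^ 12 = 0 := by
      have := hzp.geom_sum_eq_zero (by norm_num)
      simpa [Finset.sum_range_succ] using this
    have := prod_conj_thirteen_131 z h13 hΦ
    simp only [map_add, map_sub, map_one, aeval_X, map_pow, map_ofNat]
    rw [this]
  exact_mod_cast hcast

theorem norm_thirteen_157 {K : Type*} [Field K] [NumberField K] [IsCyclotomicExtension {13} ℚ K]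
    {ζ : K} (hζ : IsPrimitiveRoot ζ 13) :
    Algebra.norm ℤ (1 - hζ.toInteger + hζ.toInteger ^ 2 + hζ.toInteger ^ 4) = 157 := by
  have : Fact (Nat.Prime 13) := ⟨by norm_num⟩
  have hcast : ((Algebra.norm ℤ (1 - hζ.toInteger + hζ.toInteger ^ 2 + hζ.toInteger ^ 4) : ℤ) : ℚ) = 157 := by
    rw [Algebra.coe_norm_int]
    apply (algebraMap ℚ (AlgebraicClosure K)).injective
    have hf : ((1 - hζ.toInteger + hζ.toInteger ^ 2 + hζ.toInteger ^ 4 : 𝓞 K) : K) =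
        aeval ζ (1 - X + X ^ 2 + X ^ 4 : ℚ[X]) := by
      have hc : (algebraMap (𝓞 K) K) hζ.toInteger = ζ := hζ.coe_toInteger
      simp [hc]
    rw [hf, norm_aeval_eq_prod_Ico hζ]
    set z := algebraMap K (AlgebraicClosure K) ζ with hz
    have hzp : IsPrimitiveRoot z 13 :=
      hζ.map_of_injective (algebraMap K (AlgebraicClosure K)).injective
    have h13 : z ^ 13 = 1 := hzp.pow_eq_one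
    have hΦ : 1 + z + z ^ 2 + z ^ 3 + z ^ 4 + z ^ 5 + z ^ 6 + z ^ 7 + z ^ 8 + z ^ 9 + z ^ 10 +
        z ^ 11 + z ^ 12 = 0 := by
      have := hzp.geom_sum_eq_zero (by norm_num)
      simpa [Finset.sum_range_succ] using this
    have := prod_conj_thirteen_157 z h13 hΦ
    simp only [map_add, map_sub, map_one, aeval_X, map_pow, map_ofNat]
    rw [this]
  exact_mod_cast hcast

section PrimePow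

variable (K : Type*) [Field K] [NumberField K]

/-- an element whose norm is (up to sign) `q ^ f`, with `f` the residue degree of the primes over
the unramified prime `q`, generates a prime ideal over `q` -/
theorem exists_principal_prime_over_pow (m : ℕ) [NeZero m] [IsCyclotomicExtension {m} ℚ K]
    (q : ℕ) (hq : q.Prime) (hm : ¬ q ∣ m) (B : ℕ) (f : ℕ) (hf : orderOf (q : ZMod m) = f)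
    (α : 𝓞 K) (hα : (Algebra.norm ℤ α).natAbs = q ^ f) :
    ∃ P ∈ primesOver (span {(q : ℤ)}) (𝓞 K), B < q ^ P.inertiaDeg ℤ ∨
      Submodule.IsPrincipal P := by
  have : Fact q.Prime := ⟨hq⟩
  have hN : absNorm (span {α}) = q ^ f := by rw [absNorm_span_singleton, hα]
  have hfpos : 0 < f := by
    rw [← hf]
    apply orderOf_pos_iff.mpr
    have hcop : q.Coprime m := hq.coprime_iff_not_dvd.mpr hm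
    have h1 : IsOfFinOrder (ZMod.unitOfCoprime q hcop) := isOfFinOrder_of_finite _
    have h2 := Units.isOfFinOrder_val.mpr h1
    rwa [ZMod.coe_unitOfCoprime] at h2
  have hne : span {α} ≠ ⊤ := by
    intro h
    rw [h, absNorm_top] at hN
    have : 1 < q ^ f := Nat.one_lt_pow hfpos.ne' hq.one_lt
    omega
  obtain ⟨Q, hQmax, hle⟩ := Ideal.exists_le_maximal _ hne
  have hQprime := hQmax.isPrime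
  have hqQ : (q : 𝓞 K) ∈ Q := by
    have h1 : ((q ^ f : ℕ) : 𝓞 K) ∈ span {α} := by
      have := absNorm_mem (span {α}); rwa [hN] at this
    have h2 := hle h1
    push_cast at h2
    exact hQprime.mem_of_pow_mem _ h2
  have hlies : Q.LiesOver (span {(q : ℤ)}) := by
    rw [liesOver_iff]
    refine IsMaximal.eq_of_le (Int.ideal_span_isMaximal_of_prime q) IsPrime.ne_top' ?_
    rw [span_singleton_le_iff_mem, mem_comap, algebraMap_int_eq, eq_intCast, Int.cast_natCast]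
    exact hqQ
  have hdeg : Q.inertiaDeg ℤ = f := by rw [inertiaDeg_eq_of_not_dvd q K Q hm, hf]
  have hNQ : absNorm Q = q ^ f := by
    have := Int.ideal_span_isMaximal_of_prime q
    rw [absNorm_eq_pow_inertiaDeg' Q hq, inertiaDeg'_eq_inertiaDeg, hdeg]
  have heq : span {α} = Q := by
    obtain ⟨J, hJ⟩ := Ideal.dvd_iff_le.mpr hle
    have h3 : absNorm (span {α}) = absNorm Q * absNorm J := by rw [hJ, map_mul]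
    rw [hN, hNQ] at h3
    have hJ1 : absNorm J = 1 := by
      have hpos : 0 < q ^ f := pow_pos hq.pos f
      exact (Nat.eq_of_mul_eq_mul_left hpos (by rw [mul_one]; exact h3)).symm
    rw [absNorm_eq_one_iff] at hJ1
    rw [hJ, hJ1, Ideal.mul_top]
  refine ⟨Q, ⟨hQprime, hlies⟩, Or.inr ?_⟩
  rw [← heq]
  exact ⟨α, rfl⟩

end PrimePow

end Fermat.Agent.Lib.Kummer
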